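import Fermat.Agent.S52.Defs2

/-!
# S52 BR: general Weierstrass model versus short Weierstrass model, point counts
-/

set_option autoImplicit false
open WeierstrassCurve WeierstrassCurve.Affine

namespace Fermat.Agent.S52

section
variable {F : Type*} [Field F]

theorem br_equation (h2 : (2 : F) ≠ 0) (h3 : (3 : F) ≠ 0) (W : WeierstrassCurve F) (x y : F) :
    W.toAffine.Equation x y ↔ (shortW W.c₄ W.c₆).toAffine.Equation (36 * x + 3 * W.b₂)
      (108 * (2 * y + W.a₁ * x + W.a₃)) := by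
  have hk : (46656 : F) ≠ 0 := by
    have : (46656 : F) = 2 ^ 6 * 3 ^ 6 := by norm_num
    rw [this]
    exact mul_ne_zero (pow_ne_zero _ h2) (pow_ne_zero _ h3)
  rw [Affine.equation_iff, Affine.equation_iff]
  simp only [shortW, sw, c₄, c₆, b₂, b₄, b₆]
  constructor
  · intro h
    linear_combination 46656 * h
  · intro h
    apply mul_left_cancel₀ hk
    linear_combination h

theorem br_Δ (W : WeierstrassCurve F) : (shortW W.c₄ W.c₆).Δ = 2 ^ 12 * 3 ^ 12 * W.Δ := by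
  simp only [shortW, sw, Δ, c₄, c₆, b₂, b₄, b₆, b₈]
  ring

theorem br_Δ_ne_zero (h2 : (2 : F) ≠ 0) (h3 : (3 : F) ≠ 0) (W : WeierstrassCurve F)
    (hΔ : W.Δ ≠ 0) : (shortW W.c₄ W.c₆).Δ ≠ 0 := by
  rw [br_Δ]
  exact mul_ne_zero (mul_ne_zero (pow_ne_zero _ h2) (pow_ne_zero _ h3)) hΔ

theorem br_nonsingular (h2 : (2 : F) ≠ 0) (h3 : (3 : F) ≠ 0) (W : WeierstrassCurve F)
    (hΔ : W.Δ ≠ 0) (x y : F) :
    W.toAffine.Nonsingular x y ↔ (shortW W.c₄ W.c₆).toAffine.Nonsingular (36 * x + 3 * W.b₂)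
      (108 * (2 * y + W.a₁ * x + W.a₃)) := by
  rw [← Affine.equation_iff_nonsingular_of_Δ_ne_zero (W := W.toAffine) hΔ,
    ← Affine.equation_iff_nonsingular_of_Δ_ne_zero (W := (shortW W.c₄ W.c₆).toAffine)
      (br_Δ_ne_zero h2 h3 W hΔ)]
  exact br_equation h2 h3 W x y

/-- the map on points. -/
def brMap (h2 : (2 : F) ≠ 0) (h3 : (3 : F) ≠ 0) (W : WeierstrassCurve F) (hΔ : W.Δ ≠ 0) :
    W.toAffine.Point → (shortW W.c₄ W.c₆).toAffine.Point
  | .zero => .zero
  | .some x y h => .some _ _ ((br_nonsingular h2 h3 W hΔ x y).mp h)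

theorem brMap_bijective (h2 : (2 : F) ≠ 0) (h3 : (3 : F) ≠ 0) (W : WeierstrassCurve F)
    (hΔ : W.Δ ≠ 0) : Function.Bijective (brMap h2 h3 W hΔ) := by
  have h36 : (36 : F) ≠ 0 := by
    have : (36 : F) = 2 ^ 2 * 3 ^ 2 := by norm_num
    rw [this]
    exact mul_ne_zero (pow_ne_zero _ h2) (pow_ne_zero _ h3)
  have h108 : (108 : F) ≠ 0 := by
    have : (108 : F) = 2 ^ 2 * 3 ^ 3 := by norm_num
    rw [this]
    exact mul_ne_zero (pow_ne_zero _ h2) (pow_ne_zero _ h3)
  constructor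
  · rintro (_ | ⟨x, y, h⟩) (_ | ⟨x', y', h'⟩) hPQ
    · rfl
    · simp [brMap] at hPQ
    · simp [brMap] at hPQ
    · simp only [brMap, Point.some.injEq] at hPQ
      obtain ⟨e1, e2⟩ := hPQ
      have hx : x = x' := by
        apply mul_left_cancel₀ h36
        linear_combination e1
      subst hx
      have hy : y = y' := by
        apply mul_left_cancel₀ h2
        have := mul_left_cancel₀ h108 e2
        linear_combination this
      subst hy
      rfl
  · rintro (_ | ⟨X, Y, h⟩)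
    · exact ⟨.zero, rfl⟩
    · have e1 : 36 * ((X - 3 * W.b₂) / 36) + 3 * W.b₂ = X := by
        field_simp
        ring
      have e2 : 108 * (2 * ((Y / 108 - W.a₁ * ((X - 3 * W.b₂) / 36) - W.a₃) / 2) +
          W.a₁ * ((X - 3 * W.b₂) / 36) + W.a₃) = Y := by
        field_simp
        ring
      have h' : W.toAffine.Nonsingular ((X - 3 * W.b₂) / 36)
          ((Y / 108 - W.a₁ * ((X - 3 * W.b₂) / 36) - W.a₃) / 2) := by
        rw [br_nonsingular h2 h3 W hΔ, e1, e2]
        exact h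
      refine ⟨.some _ _ h', ?_⟩
      simp only [brMap, Point.some.injEq]
      exact ⟨e1, e2⟩

theorem br_card (h2 : (2 : F) ≠ 0) (h3 : (3 : F) ≠ 0) (W : WeierstrassCurve F) (hΔ : W.Δ ≠ 0) :
    W.card = (shortW W.c₄ W.c₆).card :=
  Nat.card_eq_of_bijective _ (brMap_bijective h2 h3 W hΔ)

end

theorem trace_short (p : ℕ) [Fact p.Prime] (hp : 5 ≤ p) (W : WeierstrassCurve (ZMod p))
    (hΔ : W.Δ ≠ 0) :
    W.traceOfFrobenius = (shortW W.c₄ W.c₆).traceOfFrobenius := by
  have hpp : p.Prime := Fact.out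
  have h2 : (2 : ZMod p) ≠ 0 := by
    intro h
    have h' : ((2 : ℕ) : ZMod p) = 0 := by exact_mod_cast h
    rw [ZMod.natCast_eq_zero_iff] at h'
    have := Nat.le_of_dvd (by norm_num) h'
    omega
  have h3 : (3 : ZMod p) ≠ 0 := by
    intro h
    have h' : ((3 : ℕ) : ZMod p) = 0 := by exact_mod_cast h
    rw [ZMod.natCast_eq_zero_iff] at h'
    have := Nat.le_of_dvd (by norm_num) h'
    omega
  rw [traceOfFrobenius, traceOfFrobenius, br_card h2 h3 W hΔ]

end Fermat.Agent.S52
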