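import Mathlib

/-!
# S52 (3-5 switch): the explicit icosahedral family

`famD, fam4, fam6` : the twisted `X(5)`-family through the curve with invariants `(c4, c6)`
(`t = 0` is the base curve).  `famU, famZ` : the same family in Tate-normal-form coordinates.
All polynomials were produced by a script; every identity is checked by `ring` in `FamIdent.lean`.
The coefficient of `t ^ k` in `famX` is `famX_k`.
-/

set_option autoImplicit false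
set_option linter.unusedVariables false

namespace Fermat.Agent.S52

variable {R : Type*} [CommRing R]

def famD_0 (c4 c6 : R) : R := 1

def famD_2 (c4 c6 : R) : R := -66 * c4

def famD_3 (c4 c6 : R) : R := -440 * c6

def famD_4 (c4 c6 : R) : R := -1485 * c4 ^ 2

def famD_5 (c4 c6 : R) : R := -3168 * c4 * c6

def famD_6 (c4 c6 : R) : R := 5940 * c4 ^ 3 - 10560 * c6 ^ 2

def famD_7 (c4 c6 : R) : R := -4752 * c4 ^ 2 * c6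

def famD_8 (c4 c6 : R) : R := -66825 * c4 ^ 4 + 63360 * c4 * c6 ^ 2

def famD_9 (c4 c6 : R) : R := -142560 * c4 ^ 3 * c6 + 140800 * c6 ^ 3

def famD_10 (c4 c6 : R) : R := -133650 * c4 ^ 5 + 133056 * c4 ^ 2 * c6 ^ 2

def famD_11 (c4 c6 : R) : R := -61560 * c4 ^ 4 * c6 + 61440 * c4 * c6 ^ 3

def famD_12 (c4 c6 : R) : R := 91125 * c4 ^ 6 - 193536 * c4 ^ 3 * c6 ^ 2 + 102400 * c6 ^ 4

/-- cusp form of the family, degree 12 in `t` -/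
def famD (c4 c6 t : R) : R :=
    famD_0 c4 c6
    + famD_2 c4 c6 * t ^ 2
    + famD_3 c4 c6 * t ^ 3
    + famD_4 c4 c6 * t ^ 4
    + famD_5 c4 c6 * t ^ 5
    + famD_6 c4 c6 * t ^ 6
    + famD_7 c4 c6 * t ^ 7
    + famD_8 c4 c6 * t ^ 8
    + famD_9 c4 c6 * t ^ 9
    + famD_10 c4 c6 * t ^ 10
    + famD_11 c4 c6 * t ^ 11
    + famD_12 c4 c6 * t ^ 12

def fam4_0 (c4 c6 : R) : R := c4

def fam4_1 (c4 c6 : R) : R := 20 * c6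

def fam4_2 (c4 c6 : R) : R := 190 * c4 ^ 2

def fam4_3 (c4 c6 : R) : R := 1140 * c4 * c6

def fam4_4 (c4 c6 : R) : R := -855 * c4 ^ 3 + 5700 * c6 ^ 2

def fam4_5 (c4 c6 : R) : R := 15504 * c4 ^ 2 * c6

def fam4_6 (c4 c6 : R) : R := 102600 * c4 ^ 4 - 63840 * c4 * c6 ^ 2

def fam4_7 (c4 c6 : R) : R := 259920 * c4 ^ 3 * c6 - 182400 * c6 ^ 3

def fam4_8 (c4 c6 : R) : R := -1000350 * c4 ^ 5 + 1126320 * c4 ^ 2 * c6 ^ 2

def fam4_9 (c4 c6 : R) : R := -7736040 * c4 ^ 4 * c6 + 7904000 * c4 * c6 ^ 3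

def fam4_10 (c4 c6 : R) : R := -10003500 * c4 ^ 6 - 5619744 * c4 ^ 3 * c6 ^ 2 + 15808000 * c6 ^ 4

def fam4_11 (c4 c6 : R) : R := -54685800 * c4 ^ 5 * c6 + 54853760 * c4 ^ 2 * c6 ^ 3

def fam4_12 (c4 c6 : R) : R := -45015750 * c4 ^ 7 + 7202520 * c4 ^ 4 * c6 ^ 2 + 37939200 * c4 * c6 ^ 4

def fam4_13 (c4 c6 : R) : R := -35089200 * c4 ^ 6 * c6 - 23201280 * c4 ^ 3 * c6 ^ 3 + 58368000 * c6 ^ 5

def fam4_14 (c4 c6 : R) : R := 207765000 * c4 ^ 8 - 495188640 * c4 ^ 5 * c6 ^ 2 + 287462400 * c4 ^ 2 * c6 ^ 4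

def fam4_15 (c4 c6 : R) : R := 415530000 * c4 ^ 7 * c6 - 882458496 * c4 ^ 4 * c6 ^ 3 + 466944000 * c4 * c6 ^ 5

def fam4_16 (c4 c6 : R) : R := -77911875 * c4 ^ 9 + 714711600 * c4 ^ 6 * c6 ^ 2 - 1220474880 * c4 ^ 3 * c6 ^ 4 + 583680000 * c6 ^ 6

def fam4_17 (c4 c6 : R) : R := 353200500 * c4 ^ 8 * c6 - 715080960 * c4 ^ 5 * c6 ^ 3 + 361881600 * c4 ^ 2 * c6 ^ 5

def fam4_18 (c4 c6 : R) : R := 779118750 * c4 ^ 10 - 2182917600 * c4 ^ 7 * c6 ^ 2 + 2026391040 * c4 ^ 4 * c6 ^ 4 - 622592000 * c4 * c6 ^ 6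

def fam4_19 (c4 c6 : R) : R := 694372500 * c4 ^ 9 * c6 - 2044414080 * c4 ^ 6 * c6 ^ 3 + 2005401600 * c4 ^ 3 * c6 ^ 5 - 655360000 * c6 ^ 7

def fam4_20 (c4 c6 : R) : R := 184528125 * c4 ^ 11 - 549301500 * c4 ^ 8 * c6 ^ 2 + 544997376 * c4 ^ 5 * c6 ^ 4 - 180224000 * c4 ^ 2 * c6 ^ 6

/-- `c₄` of the family, degree 20 in `t` -/
def fam4 (c4 c6 t : R) : R :=
    fam4_0 c4 c6
    + fam4_1 c4 c6 * t
    + fam4_2 c4 c6 * t ^ 2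
    + fam4_3 c4 c6 * t ^ 3
    + fam4_4 c4 c6 * t ^ 4
    + fam4_5 c4 c6 * t ^ 5
    + fam4_6 c4 c6 * t ^ 6
    + fam4_7 c4 c6 * t ^ 7
    + fam4_8 c4 c6 * t ^ 8
    + fam4_9 c4 c6 * t ^ 9
    + fam4_10 c4 c6 * t ^ 10
    + fam4_11 c4 c6 * t ^ 11
    + fam4_12 c4 c6 * t ^ 12
    + fam4_13 c4 c6 * t ^ 13
    + fam4_14 c4 c6 * t ^ 14
    + fam4_15 c4 c6 * t ^ 15
    + fam4_16 c4 c6 * t ^ 16
    + fam4_17 c4 c6 * t ^ 17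
    + fam4_18 c4 c6 * t ^ 18
    + fam4_19 c4 c6 * t ^ 19
    + fam4_20 c4 c6 * t ^ 20

def fam6_0 (c4 c6 : R) : R := c6

def fam6_1 (c4 c6 : R) : R := 30 * c4 ^ 2

def fam6_2 (c4 c6 : R) : R := 435 * c4 * c6

def fam6_3 (c4 c6 : R) : R := 1160 * c4 ^ 3 + 2900 * c6 ^ 2

def fam6_4 (c4 c6 : R) : R := 27405 * c4 ^ 2 * c6

def fam6_5 (c4 c6 : R) : R := 95526 * c4 ^ 4 + 46980 * c4 * c6 ^ 2

def fam6_6 (c4 c6 : R) : R := 437175 * c4 ^ 3 * c6 + 156600 * c6 ^ 3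

def fam6_7 (c4 c6 : R) : R := -1879200 * c4 ^ 5 + 3915000 * c4 ^ 2 * c6 ^ 2

def fam6_8 (c4 c6 : R) : R := -8554275 * c4 ^ 4 * c6 + 14407200 * c4 * c6 ^ 3

def fam6_9 (c4 c6 : R) : R := 24312150 * c4 ^ 6 - 42021000 * c4 ^ 3 * c6 ^ 2 + 32016000 * c6 ^ 4

def fam6_10 (c4 c6 : R) : R := 246633255 * c4 ^ 5 * c6 - 216588240 * c4 ^ 2 * c6 ^ 3

def fam6_11 (c4 c6 : R) : R := 162081000 * c4 ^ 7 + 1352475900 * c4 ^ 4 * c6 ^ 2 - 1459929600 * c4 * c6 ^ 4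

def fam6_12 (c4 c6 : R) : R := 4131714825 * c4 ^ 6 * c6 - 1612005600 * c4 ^ 3 * c6 ^ 3 - 2433216000 * c6 ^ 5

def fam6_13 (c4 c6 : R) : R := 6928962750 * c4 ^ 8 + 5235216300 * c4 ^ 5 * c6 ^ 2 - 12044419200 * c4 ^ 2 * c6 ^ 4

def fam6_14 (c4 c6 : R) : R := 43190534475 * c4 ^ 7 * c6 - 43045111800 * c4 ^ 4 * c6 ^ 3

def fam6_15 (c4 c6 : R) : R := 79575287760 * c4 ^ 6 * c6 ^ 2 - 79420170240 * c4 ^ 3 * c6 ^ 4

def fam6_16 (c4 c6 : R) : R := -176688550125 * c4 ^ 8 * c6 + 474659611200 * c4 ^ 5 * c6 ^ 3 - 297825638400 * c4 ^ 2 * c6 ^ 5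

def fam6_17 (c4 c6 : R) : R := -311803323750 * c4 ^ 10 + 77604382800 * c4 ^ 7 * c6 ^ 2 + 935084908800 * c4 ^ 4 * c6 ^ 4 - 700766208000 * c4 * c6 ^ 6

def fam6_18 (c4 c6 : R) : R := -1694131392375 * c4 ^ 9 * c6 + 2776512362400 * c4 ^ 6 * c6 ^ 3 - 303665356800 * c4 ^ 3 * c6 ^ 5 - 778629120000 * c6 ^ 7

def fam6_19 (c4 c6 : R) : R := -328214025000 * c4 ^ 11 - 3481840250100 * c4 ^ 8 * c6 ^ 2 + 8100765158400 * c4 ^ 5 * c6 ^ 4 - 4290656256000 * c4 ^ 2 * c6 ^ 6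

def fam6_20 (c4 c6 : R) : R := -2874607835625 * c4 ^ 10 * c6 + 2424887357760 * c4 ^ 7 * c6 ^ 3 + 3892110842880 * c4 ^ 4 * c6 ^ 5 - 3442360320000 * c4 * c6 ^ 7

def fam6_21 (c4 c6 : R) : R := -2215444668750 * c4 ^ 12 + 3077188825500 * c4 ^ 9 * c6 ^ 2 - 2709129888000 * c4 ^ 6 * c6 ^ 4 + 5125838438400 * c4 ^ 3 * c6 ^ 6 - 3278438400000 * c6 ^ 8

def fam6_22 (c4 c6 : R) : R := -1403114956875 * c4 ^ 11 * c6 - 1724509423800 * c4 ^ 8 * c6 ^ 3 + 7701051801600 * c4 ^ 5 * c6 ^ 5 - 4573421568000 * c4 ^ 2 * c6 ^ 7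

def fam6_23 (c4 c6 : R) : R := 7705894500000 * c4 ^ 13 - 33414470973000 * c4 ^ 10 * c6 ^ 2 + 49888700928000 * c4 ^ 7 * c6 ^ 4 - 30337884979200 * c4 ^ 4 * c6 ^ 6 + 6157762560000 * c4 * c6 ^ 8

def fam6_24 (c4 c6 : R) : R := 5089101159375 * c4 ^ 12 * c6 - 22687218914400 * c4 ^ 9 * c6 ^ 3 + 35246094796800 * c4 ^ 6 * c6 ^ 5 - 22779445248000 * c4 ^ 3 * c6 ^ 7 + 5131468800000 * c6 ^ 9

def fam6_25 (c4 c6 : R) : R := -17627233668750 * c4 ^ 14 + 70097953635000 * c4 ^ 11 * c6 ^ 2 - 105528606261120 * c4 ^ 8 * c6 ^ 4 + 71274600677376 * c4 ^ 5 * c6 ^ 6 - 18216714240000 * c4 ^ 2 * c6 ^ 8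

def fam6_26 (c4 c6 : R) : R := -40985726371875 * c4 ^ 13 * c6 + 163672057566000 * c4 ^ 10 * c6 ^ 3 - 245438120632320 * c4 ^ 7 * c6 ^ 5 + 163803539865600 * c4 ^ 4 * c6 ^ 7 - 41051750400000 * c4 * c6 ^ 9

def fam6_27 (c4 c6 : R) : R := -9632368125000 * c4 ^ 15 + 8104032382500 * c4 ^ 12 * c6 ^ 2 + 63806176396800 * c4 ^ 9 * c6 ^ 4 - 143803576074240 * c4 ^ 6 * c6 ^ 6 + 111934439424000 * c4 ^ 3 * c6 ^ 8 - 30408704000000 * c6 ^ 10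

def fam6_28 (c4 c6 : R) : R := -21432019078125 * c4 ^ 14 * c6 + 85719228804000 * c4 ^ 11 * c6 ^ 3 - 128580522647040 * c4 ^ 8 * c6 ^ 5 + 85731449241600 * c4 ^ 5 * c6 ^ 7 - 21438136320000 * c4 ^ 2 * c6 ^ 9

def fam6_29 (c4 c6 : R) : R := -11210083593750 * c4 ^ 16 + 49873523512500 * c4 ^ 13 * c6 ^ 2 - 87394892457600 * c4 ^ 10 * c6 ^ 4 + 75042714746880 * c4 ^ 7 * c6 ^ 6 - 31344427008000 * c4 ^ 4 * c6 ^ 8 + 5033164800000 * c4 * c6 ^ 10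

def fam6_30 (c4 c6 : R) : R := -4110363984375 * c4 ^ 15 * c6 + 19796866155000 * c4 ^ 12 * c6 ^ 3 - 38083944628224 * c4 ^ 9 * c6 ^ 5 + 36574189977600 * c4 ^ 6 * c6 ^ 7 - 17532190720000 * c4 ^ 3 * c6 ^ 9 + 3355443200000 * c6 ^ 11

/-- `c₆` of the family, degree 30 in `t` -/
def fam6 (c4 c6 t : R) : R :=
    fam6_0 c4 c6
    + fam6_1 c4 c6 * t
    + fam6_2 c4 c6 * t ^ 2
    + fam6_3 c4 c6 * t ^ 3
    + fam6_4 c4 c6 * t ^ 4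
    + fam6_5 c4 c6 * t ^ 5
    + fam6_6 c4 c6 * t ^ 6
    + fam6_7 c4 c6 * t ^ 7
    + fam6_8 c4 c6 * t ^ 8
    + fam6_9 c4 c6 * t ^ 9
    + fam6_10 c4 c6 * t ^ 10
    + fam6_11 c4 c6 * t ^ 11
    + fam6_12 c4 c6 * t ^ 12
    + fam6_13 c4 c6 * t ^ 13
    + fam6_14 c4 c6 * t ^ 14
    + fam6_15 c4 c6 * t ^ 15
    + fam6_16 c4 c6 * t ^ 16
    + fam6_17 c4 c6 * t ^ 17
    + fam6_18 c4 c6 * t ^ 18
    + fam6_19 c4 c6 * t ^ 19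
    + fam6_20 c4 c6 * t ^ 20
    + fam6_21 c4 c6 * t ^ 21
    + fam6_22 c4 c6 * t ^ 22
    + fam6_23 c4 c6 * t ^ 23
    + fam6_24 c4 c6 * t ^ 24
    + fam6_25 c4 c6 * t ^ 25
    + fam6_26 c4 c6 * t ^ 26
    + fam6_27 c4 c6 * t ^ 27
    + fam6_28 c4 c6 * t ^ 28
    + fam6_29 c4 c6 * t ^ 29
    + fam6_30 c4 c6 * t ^ 30

/-- `(famD - 1) / t` -/
def famDq (c4 c6 t : R) : R :=
    famD_2 c4 c6 * t
    + famD_3 c4 c6 * t ^ 2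
    + famD_4 c4 c6 * t ^ 3
    + famD_5 c4 c6 * t ^ 4
    + famD_6 c4 c6 * t ^ 5
    + famD_7 c4 c6 * t ^ 6
    + famD_8 c4 c6 * t ^ 7
    + famD_9 c4 c6 * t ^ 8
    + famD_10 c4 c6 * t ^ 9
    + famD_11 c4 c6 * t ^ 10
    + famD_12 c4 c6 * t ^ 11

/-- `(fam4 - c4) / t` -/
def fam4q (c4 c6 t : R) : R :=
    fam4_1 c4 c6
    + fam4_2 c4 c6 * t
    + fam4_3 c4 c6 * t ^ 2
    + fam4_4 c4 c6 * t ^ 3
    + fam4_5 c4 c6 * t ^ 4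
    + fam4_6 c4 c6 * t ^ 5
    + fam4_7 c4 c6 * t ^ 6
    + fam4_8 c4 c6 * t ^ 7
    + fam4_9 c4 c6 * t ^ 8
    + fam4_10 c4 c6 * t ^ 9
    + fam4_11 c4 c6 * t ^ 10
    + fam4_12 c4 c6 * t ^ 11
    + fam4_13 c4 c6 * t ^ 12
    + fam4_14 c4 c6 * t ^ 13
    + fam4_15 c4 c6 * t ^ 14
    + fam4_16 c4 c6 * t ^ 15
    + fam4_17 c4 c6 * t ^ 16
    + fam4_18 c4 c6 * t ^ 17
    + fam4_19 c4 c6 * t ^ 18
    + fam4_20 c4 c6 * t ^ 19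

/-- `(fam6 - c6) / t` -/
def fam6q (c4 c6 t : R) : R :=
    fam6_1 c4 c6
    + fam6_2 c4 c6 * t
    + fam6_3 c4 c6 * t ^ 2
    + fam6_4 c4 c6 * t ^ 3
    + fam6_5 c4 c6 * t ^ 4
    + fam6_6 c4 c6 * t ^ 5
    + fam6_7 c4 c6 * t ^ 6
    + fam6_8 c4 c6 * t ^ 7
    + fam6_9 c4 c6 * t ^ 8
    + fam6_10 c4 c6 * t ^ 9
    + fam6_11 c4 c6 * t ^ 10
    + fam6_12 c4 c6 * t ^ 11
    + fam6_13 c4 c6 * t ^ 12
    + fam6_14 c4 c6 * t ^ 13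
    + fam6_15 c4 c6 * t ^ 14
    + fam6_16 c4 c6 * t ^ 15
    + fam6_17 c4 c6 * t ^ 16
    + fam6_18 c4 c6 * t ^ 17
    + fam6_19 c4 c6 * t ^ 18
    + fam6_20 c4 c6 * t ^ 19
    + fam6_21 c4 c6 * t ^ 20
    + fam6_22 c4 c6 * t ^ 21
    + fam6_23 c4 c6 * t ^ 22
    + fam6_24 c4 c6 * t ^ 23
    + fam6_25 c4 c6 * t ^ 24
    + fam6_26 c4 c6 * t ^ 25
    + fam6_27 c4 c6 * t ^ 26
    + fam6_28 c4 c6 * t ^ 27
    + fam6_29 c4 c6 * t ^ 28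
    + fam6_30 c4 c6 * t ^ 29

/-- `t`-derivative of `famD` -/
def famDd (c4 c6 t : R) : R :=
    2 * famD_2 c4 c6 * t
    + 3 * famD_3 c4 c6 * t ^ 2
    + 4 * famD_4 c4 c6 * t ^ 3
    + 5 * famD_5 c4 c6 * t ^ 4
    + 6 * famD_6 c4 c6 * t ^ 5
    + 7 * famD_7 c4 c6 * t ^ 6
    + 8 * famD_8 c4 c6 * t ^ 7
    + 9 * famD_9 c4 c6 * t ^ 8
    + 10 * famD_10 c4 c6 * t ^ 9
    + 11 * famD_11 c4 c6 * t ^ 10
    + 12 * famD_12 c4 c6 * t ^ 11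

/-- `t`-derivative of `fam4` -/
def fam4d (c4 c6 t : R) : R :=
    fam4_1 c4 c6
    + 2 * fam4_2 c4 c6 * t
    + 3 * fam4_3 c4 c6 * t ^ 2
    + 4 * fam4_4 c4 c6 * t ^ 3
    + 5 * fam4_5 c4 c6 * t ^ 4
    + 6 * fam4_6 c4 c6 * t ^ 5
    + 7 * fam4_7 c4 c6 * t ^ 6
    + 8 * fam4_8 c4 c6 * t ^ 7
    + 9 * fam4_9 c4 c6 * t ^ 8
    + 10 * fam4_10 c4 c6 * t ^ 9
    + 11 * fam4_11 c4 c6 * t ^ 10
    + 12 * fam4_12 c4 c6 * t ^ 11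
    + 13 * fam4_13 c4 c6 * t ^ 12
    + 14 * fam4_14 c4 c6 * t ^ 13
    + 15 * fam4_15 c4 c6 * t ^ 14
    + 16 * fam4_16 c4 c6 * t ^ 15
    + 17 * fam4_17 c4 c6 * t ^ 16
    + 18 * fam4_18 c4 c6 * t ^ 17
    + 19 * fam4_19 c4 c6 * t ^ 18
    + 20 * fam4_20 c4 c6 * t ^ 19

def famU_0 (U Z : R) : R := U

def famU_1 (U Z : R) : R := -5 * U ^ 3 + 66 * U ^ 2 * Z + 7 * U * Z ^ 2

def famU_2 (U Z : R) : R := 10 * U ^ 5 - 264 * U ^ 4 * Z + 1772 * U ^ 3 * Z ^ 2 - 264 * U ^ 2 * Z ^ 3 - 38 * U * Z ^ 4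

def famU_3 (U Z : R) : R := -10 * U ^ 7 + 396 * U ^ 6 * Z - 5358 * U ^ 5 * Z ^ 2 + 24552 * U ^ 4 * Z ^ 3 - 966 * U ^ 3 * Z ^ 4 + 396 * U ^ 2 * Z ^ 5 + 62 * U * Z ^ 6

def famU_4 (U Z : R) : R := 5 * U ^ 9 - 264 * U ^ 8 * Z + 5372 * U ^ 7 * Z ^ 2 - 48312 * U ^ 6 * Z ^ 3 + 164046 * U ^ 5 * Z ^ 4 - 48312 * U ^ 4 * Z ^ 5 - 3364 * U ^ 3 * Z ^ 6 - 264 * U ^ 2 * Z ^ 7 - 43 * U * Z ^ 8

def famU_5 (U Z : R) : R := -U ^ 11 + 66 * U ^ 10 * Z - 1793 * U ^ 9 * Z ^ 2 + 24024 * U ^ 8 * Z ^ 3 - 163042 * U ^ 7 * Z ^ 4 + 475596 * U ^ 6 * Z ^ 5 - 80938 * U ^ 5 * Z ^ 6 + 24024 * U ^ 4 * Z ^ 7 + 2563 * U ^ 3 * Z ^ 8 + 66 * U ^ 2 * Z ^ 9 + 11 * U * Z ^ 10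

/-- Tate coordinate `U` of the family -/
def famU (U Z t : R) : R :=
    famU_0 U Z
    + famU_1 U Z * t
    + famU_2 U Z * t ^ 2
    + famU_3 U Z * t ^ 3
    + famU_4 U Z * t ^ 4
    + famU_5 U Z * t ^ 5

def famZ_0 (U Z : R) : R := Z

def famZ_1 (U Z : R) : R := 7 * U ^ 2 * Z - 66 * U * Z ^ 2 - 5 * Z ^ 3

def famZ_2 (U Z : R) : R := -38 * U ^ 4 * Z + 264 * U ^ 3 * Z ^ 2 + 1772 * U ^ 2 * Z ^ 3 + 264 * U * Z ^ 4 + 10 * Z ^ 5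

def famZ_3 (U Z : R) : R := 62 * U ^ 6 * Z - 396 * U ^ 5 * Z ^ 2 - 966 * U ^ 4 * Z ^ 3 - 24552 * U ^ 3 * Z ^ 4 - 5358 * U ^ 2 * Z ^ 5 - 396 * U * Z ^ 6 - 10 * Z ^ 7

def famZ_4 (U Z : R) : R := -43 * U ^ 8 * Z + 264 * U ^ 7 * Z ^ 2 - 3364 * U ^ 6 * Z ^ 3 + 48312 * U ^ 5 * Z ^ 4 + 164046 * U ^ 4 * Z ^ 5 + 48312 * U ^ 3 * Z ^ 6 + 5372 * U ^ 2 * Z ^ 7 + 264 * U * Z ^ 8 + 5 * Z ^ 9

def famZ_5 (U Z : R) : R := 11 * U ^ 10 * Z - 66 * U ^ 9 * Z ^ 2 + 2563 * U ^ 8 * Z ^ 3 - 24024 * U ^ 7 * Z ^ 4 - 80938 * U ^ 6 * Z ^ 5 - 475596 * U ^ 5 * Z ^ 6 - 163042 * U ^ 4 * Z ^ 7 - 24024 * U ^ 3 * Z ^ 8 - 1793 * U ^ 2 * Z ^ 9 - 66 * U * Z ^ 10 - Z ^ 11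

/-- Tate coordinate `Z` of the family -/
def famZ (U Z t : R) : R :=
    famZ_0 U Z
    + famZ_1 U Z * t
    + famZ_2 U Z * t ^ 2
    + famZ_3 U Z * t ^ 3
    + famZ_4 U Z * t ^ 4
    + famZ_5 U Z * t ^ 5

def bezU_0 (c4 c6 : R) : R := 27245027024325000 * c4 ^ 17 - 133724392884320625 * c4 ^ 14 * c6 ^ 2 + 262447404923059200 * c4 ^ 11 * c6 ^ 4 - 257445993854472192 * c4 ^ 8 * c6 ^ 6 + 126222209296367616 * c4 ^ 5 * c6 ^ 8 - 24744254504960000 * c4 ^ 2 * c6 ^ 10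

def bezU_1 (c4 c6 : R) : R := -163190137579284375 * c4 ^ 16 * c6 + 808340673371184000 * c4 ^ 13 * c6 ^ 3 - 1601461554074578944 * c4 ^ 10 * c6 ^ 5 + 1586241795556638720 * c4 ^ 7 * c6 ^ 7 - 785510934406758400 * c4 ^ 4 * c6 ^ 9 + 155580157132800000 * c4 * c6 ^ 11

def bezU_2 (c4 c6 : R) : R := 549100908986484375 * c4 ^ 18 - 4444774928257488750 * c4 ^ 15 * c6 ^ 2 + 13843885524197011200 * c4 ^ 12 * c6 ^ 4 - 21909826198002769920 * c4 ^ 9 * c6 ^ 6 + 18877392566652764160 * c4 ^ 6 * c6 ^ 8 - 8471579444903936000 * c4 ^ 3 * c6 ^ 10 + 1555801571328000000 * c6 ^ 12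

def bezU_3 (c4 c6 : R) : R := -4702243518984515625 * c4 ^ 17 * c6 + 22855554007007931000 * c4 ^ 14 * c6 ^ 3 - 44399811254610493440 * c4 ^ 11 * c6 ^ 5 + 43088498924748963840 * c4 ^ 8 * c6 ^ 7 - 20888562497381990400 * c4 ^ 5 * c6 ^ 9 + 4046564339220480000 * c4 ^ 2 * c6 ^ 11

def bezU_4 (c4 c6 : R) : R := -2046221398701562500 * c4 ^ 19 - 15684308623293750 * c4 ^ 16 * c6 ^ 2 + 29127902733056793600 * c4 ^ 13 * c6 ^ 4 - 75430618665737195520 * c4 ^ 10 * c6 ^ 6 + 82374474773330657280 * c4 ^ 7 * c6 ^ 8 - 42612954484441088000 * c4 ^ 4 * c6 ^ 10 + 8603101351116800000 * c4 * c6 ^ 12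

def bezU_5 (c4 c6 : R) : R := 23067058513377656250 * c4 ^ 18 * c6 - 152415278197441380000 * c4 ^ 15 * c6 ^ 3 + 413402908441877950464 * c4 ^ 12 * c6 ^ 5 - 590800274517075296256 * c4 ^ 9 * c6 ^ 7 + 470130049448253849600 * c4 ^ 6 * c6 ^ 9 - 197796869093457920000 * c4 ^ 3 * c6 ^ 11 + 34412405404467200000 * c6 ^ 13

def bezU_6 (c4 c6 : R) : R := 25301551024019531250 * c4 ^ 20 - 162092894264977500000 * c4 ^ 17 * c6 ^ 2 + 427985977796463240000 * c4 ^ 14 * c6 ^ 4 - 597045491230056726528 * c4 ^ 11 * c6 ^ 6 + 464626012841701539840 * c4 ^ 8 * c6 ^ 8 - 191404297861201920000 * c4 ^ 5 * c6 ^ 10 + 32629141694054400000 * c4 ^ 2 * c6 ^ 12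

def bezU_7 (c4 c6 : R) : R := -227934932383975781250 * c4 ^ 19 * c6 + 1326861849503619000000 * c4 ^ 16 * c6 ^ 3 - 3217574206428209971200 * c4 ^ 13 * c6 ^ 5 + 4160375254413322813440 * c4 ^ 10 * c6 ^ 7 - 3025275255268363468800 * c4 ^ 7 * c6 ^ 9 + 1173021919910297600000 * c4 ^ 4 * c6 ^ 11 - 189474629746688000000 * c4 * c6 ^ 13

def bezU_8 (c4 c6 : R) : R := 49774452668789062500 * c4 ^ 21 - 861131214138496640625 * c4 ^ 18 * c6 ^ 2 + 4031511954252354000000 * c4 ^ 15 * c6 ^ 4 - 8983918216496118804480 * c4 ^ 12 * c6 ^ 6 + 11101064728917120122880 * c4 ^ 9 * c6 ^ 8 - 7843099844976574464000 * c4 ^ 6 * c6 ^ 10 + 2979484714139648000000 * c4 ^ 3 * c6 ^ 12 - 473686574366720000000 * c6 ^ 14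

def bezU_9 (c4 c6 : R) : R := -522379273914544921875 * c4 ^ 20 * c6 + 3043008971960958000000 * c4 ^ 17 * c6 ^ 3 - 7379790224217098688000 * c4 ^ 14 * c6 ^ 5 + 9536647988740476764160 * c4 ^ 11 * c6 ^ 7 - 6925603272754515148800 * c4 ^ 8 * c6 ^ 9 + 2679654259863060480000 * c4 ^ 5 * c6 ^ 11 - 431538449678336000000 * c4 ^ 2 * c6 ^ 13

def bezU_10 (c4 c6 : R) : R := -34084679544931640625 * c4 ^ 22 - 29253912616835156250 * c4 ^ 19 * c6 ^ 2 + 846611797008978000000 * c4 ^ 16 * c6 ^ 4 - 2601386739305906872320 * c4 ^ 13 * c6 ^ 6 + 3717466287513636962304 * c4 ^ 10 * c6 ^ 8 - 2855609444371267584000 * c4 ^ 7 * c6 ^ 10 + 1145424230901350400000 * c4 ^ 4 * c6 ^ 12 - 189167539585024000000 * c4 * c6 ^ 14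

def bezU_11 (c4 c6 : R) : R := 374931474994248046875 * c4 ^ 21 * c6 - 2602092325286829375000 * c4 ^ 18 * c6 ^ 3 + 7730429721435412992000 * c4 ^ 15 * c6 ^ 5 - 12743367100012308824064 * c4 ^ 12 * c6 ^ 7 + 12588415080035726131200 * c4 ^ 9 * c6 ^ 9 - 7451515950370652160000 * c4 ^ 6 * c6 ^ 11 + 2447140080268083200000 * c4 ^ 3 * c6 ^ 13 - 343940981063680000000 * c6 ^ 15

/-- Bezout cofactor of `fam4` -/
def bezU (c4 c6 t : R) : R :=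
    bezU_0 c4 c6
    + bezU_1 c4 c6 * t
    + bezU_2 c4 c6 * t ^ 2
    + bezU_3 c4 c6 * t ^ 3
    + bezU_4 c4 c6 * t ^ 4
    + bezU_5 c4 c6 * t ^ 5
    + bezU_6 c4 c6 * t ^ 6
    + bezU_7 c4 c6 * t ^ 7
    + bezU_8 c4 c6 * t ^ 8
    + bezU_9 c4 c6 * t ^ 9
    + bezU_10 c4 c6 * t ^ 10
    + bezU_11 c4 c6 * t ^ 11

def bezV_0 (c4 c6 : R) : R := 84206228578875000 * c4 ^ 18 - 534983140734879375 * c4 ^ 15 * c6 ^ 2 + 1409321429124940800 * c4 ^ 12 * c6 ^ 4 - 1971579118209527808 * c4 ^ 9 * c6 ^ 6 + 1545546624751632384 * c4 ^ 6 * c6 ^ 8 - 643963279114240000 * c4 ^ 3 * c6 ^ 10 + 111451255603200000 * c6 ^ 12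

def bezV_1 (c4 c6 : R) : R := -381710402907215625 * c4 ^ 17 * c6 + 1866147184315228500 * c4 ^ 14 * c6 ^ 3 - 3647486544386605056 * c4 ^ 11 * c6 ^ 5 + 3562678081532805120 * c4 ^ 8 * c6 ^ 7 - 1738933251520593920 * c4 ^ 5 * c6 ^ 9 + 339304932966400000 * c4 ^ 2 * c6 ^ 11

def bezV_2 (c4 c6 : R) : R := -168044957402484375 * c4 ^ 19 - 2192674960637943750 * c4 ^ 16 * c6 ^ 2 + 13139508395244153600 * c4 ^ 13 * c6 ^ 4 - 27270425689984770048 * c4 ^ 10 * c6 ^ 6 + 27421628989512351744 * c4 ^ 7 * c6 ^ 8 - 13618369932558336000 * c4 ^ 4 * c6 ^ 10 + 2688378155827200000 * c4 * c6 ^ 12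

def bezV_3 (c4 c6 : R) : R := 5524874654417128125 * c4 ^ 18 * c6 - 47325843252799447500 * c4 ^ 15 * c6 ^ 3 + 151977071318010799104 * c4 ^ 12 * c6 ^ 5 - 245147541757383720960 * c4 ^ 9 * c6 ^ 7 + 213965390394110771200 * c4 ^ 6 * c6 ^ 9 - 96916472395202560000 * c4 ^ 3 * c6 ^ 11 + 17922521038848000000 * c6 ^ 13

def bezV_4 (c4 c6 : R) : R := 34966829048132812500 * c4 ^ 20 - 252145550729701012500 * c4 ^ 17 * c6 ^ 2 + 729690607971397642500 * c4 ^ 14 * c6 ^ 4 - 1096643705393767661568 * c4 ^ 11 * c6 ^ 6 + 908740072990406098944 * c4 ^ 8 * c6 ^ 8 - 395384682106060800000 * c4 ^ 5 * c6 ^ 10 + 70776428219596800000 * c4 ^ 2 * c6 ^ 12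

def bezV_5 (c4 c6 : R) : R := -285998535037205437500 * c4 ^ 19 * c6 + 1559914509959285445000 * c4 ^ 16 * c6 ^ 3 - 3527719185238392199680 * c4 ^ 13 * c6 ^ 5 + 4231699245006243840000 * c4 ^ 10 * c6 ^ 7 - 2837951062816107528192 * c4 ^ 7 * c6 ^ 9 + 1008099792644997120000 * c4 ^ 4 * c6 ^ 11 - 148044764518809600000 * c4 * c6 ^ 13

def bezV_6 (c4 c6 : R) : R := -404299023107464687500 * c4 ^ 21 + 1514651994172480725000 * c4 ^ 18 * c6 ^ 2 - 1054614987082851732000 * c4 ^ 15 * c6 ^ 4 - 3335576398531678927872 * c4 ^ 12 * c6 ^ 6 + 7745863966192538025984 * c4 ^ 9 * c6 ^ 8 - 6907487167568653844480 * c4 ^ 6 * c6 ^ 10 + 2934944164321689600000 * c4 ^ 3 * c6 ^ 12 - 493482548396032000000 * c6 ^ 14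

def bezV_7 (c4 c6 : R) : R := 1649038875652338187500 * c4 ^ 20 * c6 - 10351790299936114875000 * c4 ^ 17 * c6 ^ 3 + 26955155143723865063040 * c4 ^ 14 * c6 ^ 5 - 37283514323655542538240 * c4 ^ 11 * c6 ^ 7 + 28901926340839349157888 * c4 ^ 8 * c6 ^ 9 - 11909212037077322956800 * c4 ^ 5 * c6 ^ 11 + 2038396300453478400000 * c4 ^ 2 * c6 ^ 13

def bezV_8 (c4 c6 : R) : R := -3822505038213482812500 * c4 ^ 22 + 49066571372269382943750 * c4 ^ 19 * c6 ^ 2 - 212183458007435610322500 * c4 ^ 16 * c6 ^ 4 + 458610640368795472508928 * c4 ^ 13 * c6 ^ 6 - 560151595663512853118976 * c4 ^ 10 * c6 ^ 8 + 394899551743034397818880 * c4 ^ 7 * c6 ^ 10 - 150511480895554191360000 * c4 ^ 4 * c6 ^ 12 + 24092276120616960000000 * c4 * c6 ^ 14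

def bezV_9 (c4 c6 : R) : R := 22579375025505072656250 * c4 ^ 21 * c6 - 71125286009786347050000 * c4 ^ 18 * c6 ^ 3 - 36712522917818879328000 * c4 ^ 15 * c6 ^ 5 + 460054646400970930544640 * c4 ^ 12 * c6 ^ 7 - 840864968610645396160512 * c4 ^ 9 * c6 ^ 9 + 722104660969660612608000 * c4 ^ 6 * c6 ^ 11 - 309574296237034700800000 * c4 ^ 3 * c6 ^ 13 + 53538391379148800000000 * c6 ^ 15

def bezV_10 (c4 c6 : R) : R := -16356985764181403906250 * c4 ^ 23 + 302276676671284128187500 * c4 ^ 20 * c6 ^ 2 - 1442659582359727777395000 * c4 ^ 17 * c6 ^ 4 + 3251540487797477348497920 * c4 ^ 14 * c6 ^ 6 - 4052602962868115195559936 * c4 ^ 11 * c6 ^ 8 + 2884508325682752094470144 * c4 ^ 8 * c6 ^ 10 - 1103232961825969537024000 * c4 ^ 5 * c6 ^ 12 + 176527002666480435200000 * c4 ^ 2 * c6 ^ 14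

def bezV_11 (c4 c6 : R) : R := 162995875145912546718750 * c4 ^ 22 * c6 - 811331813362744431450000 * c4 ^ 19 * c6 ^ 3 + 1491393594944933606757600 * c4 ^ 16 * c6 ^ 5 - 991919764275987980353536 * c4 ^ 13 * c6 ^ 7 - 424472314867972803919872 * c4 ^ 10 * c6 ^ 9 + 1058063393518273576304640 * c4 ^ 7 * c6 ^ 11 - 604979005894321766400000 * c4 ^ 4 * c6 ^ 13 + 120250034791907328000000 * c4 * c6 ^ 15

def bezV_12 (c4 c6 : R) : R := 77623808287123054687500 * c4 ^ 24 - 406404579495667295812500 * c4 ^ 21 * c6 ^ 2 + 1064952648070987936837500 * c4 ^ 18 * c6 ^ 4 - 2145989226963630648821760 * c4 ^ 15 * c6 ^ 6 + 3546110505718840338284544 * c4 ^ 12 * c6 ^ 8 - 4146370649914860367773696 * c4 ^ 9 * c6 ^ 10 + 3009080993792683461836800 * c4 ^ 6 * c6 ^ 12 - 1199420224148655308800000 * c4 ^ 3 * c6 ^ 14 + 200416724653178880000000 * c6 ^ 16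

def bezV_13 (c4 c6 : R) : R := -695815159129704435937500 * c4 ^ 23 * c6 + 5087381774792096916675000 * c4 ^ 20 * c6 ^ 3 - 15861588171872358407184000 * c4 ^ 17 * c6 ^ 5 + 27350719645489025617649664 * c4 ^ 14 * c6 ^ 7 - 28181097015071678175117312 * c4 ^ 11 * c6 ^ 9 + 17356246605745058249441280 * c4 ^ 8 * c6 ^ 11 - 5917724423712688570368000 * c4 ^ 5 * c6 ^ 13 + 861876743760248832000000 * c4 ^ 2 * c6 ^ 15

def bezV_14 (c4 c6 : R) : R := -27269241863617617187500 * c4 ^ 25 - 1338058899432110109375000 * c4 ^ 22 * c6 ^ 2 + 10101742745439540170250000 * c4 ^ 19 * c6 ^ 4 - 30950097164134776742752000 * c4 ^ 16 * c6 ^ 6 + 51965228633074452189609984 * c4 ^ 13 * c6 ^ 8 - 52035655413162937581305856 * c4 ^ 10 * c6 ^ 10 + 31153200558189733478400000 * c4 ^ 7 * c6 ^ 12 - 10335753830217547776000000 * c4 ^ 4 * c6 ^ 14 + 1466662612107264000000000 *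 c4 * c6 ^ 16

def bezV_15 (c4 c6 : R) : R := 415626634674922429687500 * c4 ^ 24 * c6 - 5082828733237711438125000 * c4 ^ 21 * c6 ^ 3 + 23741382078251825902200000 * c4 ^ 18 * c6 ^ 5 - 58966991646059982694809600 * c4 ^ 15 * c6 ^ 7 + 87519340156666708452704256 * c4 ^ 12 * c6 ^ 9 - 80611169856527868918497280 * c4 ^ 9 * c6 ^ 11 + 45368511542214755614720000 * c4 ^ 6 * c6 ^ 13 - 14339420325459001344000000 * c4 ^ 3 * c6 ^ 15 + 1955550149476352000000000 * c6 ^ 17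

def bezV_16 (c4 c6 : R) : R := 291862241703314648437500 * c4 ^ 26 - 3602200014247425718359375 * c4 ^ 23 * c6 ^ 2 + 16841269736581662720562500 * c4 ^ 20 * c6 ^ 4 - 41739575631577950379968000 * c4 ^ 17 * c6 ^ 6 + 61725452388230307499130880 * c4 ^ 14 * c6 ^ 8 - 56598732344367149677019136 * c4 ^ 11 * c6 ^ 10 + 31694250501839326386585600 * c4 ^ 8 * c6 ^ 12 - 9963351618993153638400000 * c4 ^ 5 * c6 ^ 14 + 1351024740831068160000000 * c4 ^ 2 * c6 ^ 16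

def bezV_17 (c4 c6 : R) : R := -2955039462506938447265625 * c4 ^ 25 * c6 + 22564367983882365578437500 * c4 ^ 22 * c6 ^ 3 - 75310005629250357966000000 * c4 ^ 19 * c6 ^ 5 + 143491978138299808540723200 * c4 ^ 16 * c6 ^ 7 - 170709934630232192701169664 * c4 ^ 13 * c6 ^ 9 + 129849400358632943266037760 * c4 ^ 10 * c6 ^ 11 - 61668912950189167214592000 * c4 ^ 7 * c6 ^ 13 + 16719246242290335744000000 * c4 ^ 4 * c6 ^ 15 - 1981100050926796800000000 * c4 * c6 ^ 17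

def bezV_18 (c4 c6 : R) : R := 69021476078486572265625 * c4 ^ 27 - 3369515982709216183593750 * c4 ^ 24 * c6 ^ 2 + 23827885631304091462125000 * c4 ^ 21 * c6 ^ 4 - 78273725206318132851360000 * c4 ^ 18 * c6 ^ 6 + 149253116802122411258019840 * c4 ^ 15 * c6 ^ 8 - 178966293288356697442615296 * c4 ^ 12 * c6 ^ 10 + 137727603231443195107737600 * c4 ^ 9 * c6 ^ 12 - 66334263771010758082560000 * c4 ^ 6 * c6 ^ 14 + 18267393386254172160000000 * c4 ^ 3 * c6 ^ 16 - 2201222278807552000000000 * c6 ^ 18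

def bezV_19 (c4 c6 : R) : R := -759236236863352294921875 * c4 ^ 26 * c6 + 5916818602315894710937500 * c4 ^ 23 * c6 ^ 3 - 20162286899734989309300000 * c4 ^ 20 * c6 ^ 5 + 39237759517335293730816000 * c4 ^ 17 * c6 ^ 7 - 47696608952707456682164224 * c4 ^ 14 * c6 ^ 9 + 37083156817523437574553600 * c4 ^ 11 * c6 ^ 11 - 18007684430114712453120000 * c4 ^ 8 * c6 ^ 13 + 4993417708917961523200000 * c4 ^ 5 * c6 ^ 15 - 605336126672076800000000 * c4 ^ 2 * c6 ^ 17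

/-- Bezout cofactor of `famD` -/
def bezV (c4 c6 t : R) : R :=
    bezV_0 c4 c6
    + bezV_1 c4 c6 * t
    + bezV_2 c4 c6 * t ^ 2
    + bezV_3 c4 c6 * t ^ 3
    + bezV_4 c4 c6 * t ^ 4
    + bezV_5 c4 c6 * t ^ 5
    + bezV_6 c4 c6 * t ^ 6
    + bezV_7 c4 c6 * t ^ 7
    + bezV_8 c4 c6 * t ^ 8
    + bezV_9 c4 c6 * t ^ 9
    + bezV_10 c4 c6 * t ^ 10
    + bezV_11 c4 c6 * t ^ 11
    + bezV_12 c4 c6 * t ^ 12
    + bezV_13 c4 c6 * t ^ 13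
    + bezV_14 c4 c6 * t ^ 14
    + bezV_15 c4 c6 * t ^ 15
    + bezV_16 c4 c6 * t ^ 16
    + bezV_17 c4 c6 * t ^ 17
    + bezV_18 c4 c6 * t ^ 18
    + bezV_19 c4 c6 * t ^ 19

/-- `c₄` of the Tate normal form with parameters `(U, Z)` (`b = U / Z`, scaling `Z`). -/
def tc4 (U Z : R) : R := U ^ 4 - 12 * U ^ 3 * Z + 14 * U ^ 2 * Z ^ 2 + 12 * U * Z ^ 3 + Z ^ 4

/-- `c₆` of the Tate normal form. -/
def tc6 (U Z : R) : R :=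
  -(U ^ 2 + Z ^ 2) * (U ^ 4 - 18 * U ^ 3 * Z + 74 * U ^ 2 * Z ^ 2 + 18 * U * Z ^ 3 + Z ^ 4)

/-- `x`-coordinate of the distinguished point of order 5. -/
def tx (U Z : R) : R := 3 * (U ^ 2 - 6 * U * Z + Z ^ 2)

/-- `y`-coordinate of the distinguished point of order 5. -/
def ty (U Z : R) : R := -108 * U * Z ^ 2

/-- short Weierstrass curve `y² = x³ + A x + B`. -/
def sw (A B : R) : WeierstrassCurve R := ⟨0, 0, 0, A, B⟩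

/-- the short Weierstrass curve `y² = x³ - 27 c₄ x - 54 c₆`. -/
def shortW (c4 c6 : R) : WeierstrassCurve R := sw (-27 * c4) (-54 * c6)

/-- the (monic) 3-division polynomial of `shortW c4 c6`. -/
def psi3s (c4 c6 x : R) : R := x ^ 4 - 54 * c4 * x ^ 2 - 216 * c6 * x - 243 * c4 ^ 2

/-- the cubic `x³ - 27 c₄ x - 54 c₆`. -/
def cub (c4 c6 x : R) : R := x ^ 3 - 27 * c4 * x - 54 * c6

/-- the Bezout constant `2^26 * 3^12 * 5^5`. -/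
def bezK : ℕ := 111451255603200000

end Fermat.Agent.S52
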