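import Fermat.Prelude.Def_FLTPrelim_Modularity
import Fermat.Agent.S52.Defs

/-!
# S52: further shared definitions (`stepW`, Frobenius on points)
-/

set_option autoImplicit false
open WeierstrassCurve WeierstrassCurve.Affine

namespace Fermat.Agent.S52

/-- one step in the family: the integral model with `c₄ = fam4 c₄ c₆ t`, `c₆ = fam6 c₄ c₆ t`,
`t = 1728 s`, congruent to `W` modulo `s`. -/
def stepW (W : WeierstrassCurve ℤ) (s : ℤ) : WeierstrassCurve ℤ :=
  ⟨W.a₁, W.a₂, W.a₃,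
   W.a₄ - 36 * s * fam4q W.c₄ W.c₆ (1728 * s),
   W.a₆ - 3 * W.b₂ * s * fam4q W.c₄ W.c₆ (1728 * s) - 2 * s * fam6q W.c₄ W.c₆ (1728 * s)⟩

/-- Frobenius `x ↦ x ^ p` as a `ZMod p`-algebra endomorphism. -/
noncomputable def frobAlg (p : ℕ) [Fact p.Prime] (Ω : Type*) [Field Ω] [Algebra (ZMod p) Ω] :
    Ω →ₐ[ZMod p] Ω :=
  letI : CharP Ω p := charP_of_injective_algebraMap (algebraMap (ZMod p) Ω).injective p
  { frobenius Ω p with
    commutes' := fun r => by
      simp only [RingHom.toMonoidHom_eq_coe, OneHom.toFun_eq_coe, MonoidHom.toOneHom_coe,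
        MonoidHom.coe_coe, frobenius_def, ← map_pow, ZMod.pow_card] }

theorem frobAlg_apply (p : ℕ) [Fact p.Prime] (Ω : Type*) [Field Ω] [Algebra (ZMod p) Ω] (x : Ω) :
    frobAlg p Ω x = x ^ p := rfl

/-- Frobenius on the `Ω`-points of a curve defined over `ZMod p`. -/
noncomputable def frobPt (p : ℕ) [Fact p.Prime] {Ω : Type*} [Field Ω] [DecidableEq Ω]
    [Algebra (ZMod p) Ω] (W : WeierstrassCurve.Affine (ZMod p)) : (W⁄Ω).Point →+ (W⁄Ω).Point :=
  Point.map (W' := W) (frobAlg p Ω)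

theorem frobPt_some (p : ℕ) [Fact p.Prime] {Ω : Type*} [Field Ω] [DecidableEq Ω]
    [Algebra (ZMod p) Ω] (W : WeierstrassCurve.Affine (ZMod p)) {x y : Ω}
    (h : (W⁄Ω).Nonsingular x y) :
    ∃ h' : (W⁄Ω).Nonsingular (x ^ p) (y ^ p), frobPt p W (Point.some x y h) = Point.some _ _ h' :=
  ⟨_, Point.map_some (W' := W) (frobAlg p Ω) h⟩

theorem frobPt_injective (p : ℕ) [Fact p.Prime] {Ω : Type*} [Field Ω] [DecidableEq Ω]
    [Algebra (ZMod p) Ω] (W : WeierstrassCurve.Affine (ZMod p)) :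
    Function.Injective (frobPt p (Ω := Ω) W) :=
  Point.map_injective (W' := W) (frobAlg p Ω)

end Fermat.Agent.S52
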