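import Fermat.Agent.S52.FamRel
import Fermat.Agent.S51.Five

/-!
# S52 (TATE): points of order 5 in Tate normal form

`shortW c4 c6 : y² = x³ - 27 c4 x - 54 c6`.  A point of order `5` is the same as a pair `(U, Z)` with
`tc4 U Z = c4`, `tc6 U Z = c6`; the point is `(tx U Z, ty U Z)`, doubling is `(U, Z) ↦ (-Z, U)`.
-/

set_option autoImplicit false

namespace Fermat.Agent.S52

open WeierstrassCurve WeierstrassCurve.Affine

section Ring

variable {R : Type*} [CommRing R]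

theorem tc4_rot (U Z : R) : tc4 (-Z) U = tc4 U Z := by
  simp only [tc4]; ring

theorem tc6_rot (U Z : R) : tc6 (-Z) U = tc6 U Z := by
  simp only [tc6]; ring

theorem tate_equation_aux (U Z : R) :
    ty U Z ^ 2 = tx U Z ^ 3 - 27 * tc4 U Z * tx U Z - 54 * tc6 U Z := by
  simp only [tx, ty, tc4, tc6]; ring

theorem shortW_Δ (c4 c6 : R) : (shortW c4 c6).Δ = 2 ^ 6 * 3 ^ 9 * (c4 ^ 3 - c6 ^ 2) := by
  simp only [shortW, sw, WeierstrassCurve.Δ, WeierstrassCurve.b₂, WeierstrassCurve.b₄,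
    WeierstrassCurve.b₆, WeierstrassCurve.b₈]
  ring

/-- `tc4` in terms of `Z - U`, `U Z`, `U Z ^ 2`. -/
theorem tc4_eq (U Z : R) :
    tc4 U Z = ((Z - U) ^ 2 - 4 * (U * Z)) ^ 2 + 24 * (Z - U) * (U * Z ^ 2) := by
  simp only [tc4]; ring

/-- `tc6` in terms of `Z - U`, `U Z`, `U Z ^ 2`. -/
theorem tc6_eq (U Z : R) :
    tc6 U Z = -((Z - U) ^ 2 - 4 * (U * Z)) ^ 3
      - 36 * ((Z - U) ^ 2 - 4 * (U * Z)) * ((Z - U) * (U * Z ^ 2)) - 216 * (U * Z ^ 2) ^ 2 := by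
  simp only [tc6]; ring

theorem tx_eq (U Z : R) : tx U Z = 3 * ((Z - U) ^ 2 - 4 * (U * Z)) := by
  simp only [tx]; ring

end Ring

variable {F : Type*} [Field F]

theorem shortW_Δ_ne_zero (h2 : (2 : F) ≠ 0) (h3 : (3 : F) ≠ 0) (c4 c6 : F)
    (hΔ : c4 ^ 3 - c6 ^ 2 ≠ 0) : (shortW c4 c6).Δ ≠ 0 := by
  rw [shortW_Δ]
  exact mul_ne_zero (mul_ne_zero (pow_ne_zero _ h2) (pow_ne_zero _ h3)) hΔ

theorem tate_UZ_ne_zero (c4 c6 U Z : F) (hΔ : c4 ^ 3 - c6 ^ 2 ≠ 0) (h4 : tc4 U Z = c4)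
    (h6 : tc6 U Z = c6) : U ≠ 0 ∧ Z ≠ 0 := by
  rw [← h4, ← h6, tc_rel] at hΔ
  constructor
  · rintro rfl
    apply hΔ; ring
  · rintro rfl
    apply hΔ; ring

theorem tate_nonsingular (h2 : (2 : F) ≠ 0) (h3 : (3 : F) ≠ 0) (c4 c6 U Z : F)
    (hΔ : c4 ^ 3 - c6 ^ 2 ≠ 0) (h4 : tc4 U Z = c4) (h6 : tc6 U Z = c6)
    (W : Affine F) (hW : W = shortW c4 c6) : W.Nonsingular (tx U Z) (ty U Z) := by
  subst hW
  rw [← equation_iff_nonsingular_of_Δ_ne_zero (shortW_Δ_ne_zero h2 h3 c4 c6 hΔ), equation_iff]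
  simp only [shortW, sw]
  rw [← h4, ← h6]
  linear_combination tate_equation_aux U Z

variable [DecidableEq F]

theorem tate_double (h2 : (2 : F) ≠ 0) (h3 : (3 : F) ≠ 0) (c4 c6 U Z : F)
    (hΔ : c4 ^ 3 - c6 ^ 2 ≠ 0) (h4 : tc4 U Z = c4) (h6 : tc6 U Z = c6)
    (W : Affine F) (hW : W = shortW c4 c6) (h : W.Nonsingular (tx U Z) (ty U Z))
    (h' : W.Nonsingular (tx (-Z) U) (ty (-Z) U)) :
    Point.some _ _ h + Point.some _ _ h = Point.some _ _ h' := by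
  subst hW
  obtain ⟨hU, hZ⟩ := tate_UZ_ne_zero c4 c6 U Z hΔ h4 h6
  have hy0 : ty U Z - (shortW c4 c6).toAffine.negY (tx U Z) (ty U Z) = -(2 ^ 3 * 3 ^ 3 * U * Z ^ 2) := by
    simp only [negY, shortW, sw, ty]; ring
  have hy0' : ty U Z - (shortW c4 c6).toAffine.negY (tx U Z) (ty U Z) ≠ 0 := by
    rw [hy0]
    exact neg_ne_zero.mpr (mul_ne_zero (mul_ne_zero (mul_ne_zero (pow_ne_zero _ h2)
      (pow_ne_zero _ h3)) hU) (pow_ne_zero _ hZ))
  have hy : ty U Z ≠ (shortW c4 c6).toAffine.negY (tx U Z) (ty U Z) := sub_ne_zero.mp hy0'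
  have hs : (shortW c4 c6).toAffine.slope (tx U Z) (tx U Z) (ty U Z) (ty U Z) = 3 * (Z - U) := by
    rw [slope_of_Y_ne rfl hy, div_eq_iff hy0', hy0]
    simp only [shortW, sw, tx, ← h4, tc4]
    ring
  rw [Point.add_self_of_Y_ne hy]
  simp only [Point.some.injEq, hs]
  constructor
  · simp only [addX, shortW, sw, tx]; ring
  · simp only [addY, negAddY, negY, addX, shortW, sw, tx, ty]; ring

omit [DecidableEq F] in
theorem tate_neg (c4 c6 U Z : F) (W : Affine F) (hW : W = shortW c4 c6)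
    (h : W.Nonsingular (tx U Z) (ty U Z)) (h' : W.Nonsingular (tx (-U) (-Z)) (ty (-U) (-Z))) :
    -Point.some _ _ h = Point.some _ _ h' := by
  subst hW
  rw [Point.neg_some]
  simp only [Point.some.injEq]
  constructor
  · simp only [tx]; ring
  · simp only [negY, shortW, sw, tx, ty]; ring

theorem tate_five (h2 : (2 : F) ≠ 0) (h3 : (3 : F) ≠ 0) (c4 c6 U Z : F)
    (hΔ : c4 ^ 3 - c6 ^ 2 ≠ 0) (h4 : tc4 U Z = c4) (h6 : tc6 U Z = c6)
    (W : Affine F) (hW : W = shortW c4 c6) (h : W.Nonsingular (tx U Z) (ty U Z)) :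
    (5 : ℕ) • Point.some _ _ h = 0 := by
  have h4' : tc4 (-Z) U = c4 := by rw [tc4_rot, h4]
  have h6' : tc6 (-Z) U = c6 := by rw [tc6_rot, h6]
  have h4'' : tc4 (-U) (-Z) = c4 := by rw [tc4_rot, h4']
  have h6'' : tc6 (-U) (-Z) = c6 := by rw [tc6_rot, h6']
  have n1 := tate_nonsingular h2 h3 c4 c6 (-Z) U hΔ h4' h6' W hW
  have n2 := tate_nonsingular h2 h3 c4 c6 (-U) (-Z) hΔ h4'' h6'' W hW
  have d1 := tate_double h2 h3 c4 c6 U Z hΔ h4 h6 W hW h n1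
  have d2 := tate_double h2 h3 c4 c6 (-Z) U hΔ h4' h6' W hW n1 n2
  have d3 := tate_neg c4 c6 U Z W hW h n2
  set P := Point.some _ _ h with hP
  have : (5 : ℕ) • P = P + P + (P + P) + P := by
    simp only [show (5 : ℕ) = 1 + 1 + 1 + 1 + 1 from rfl, add_smul, one_smul]; abel
  rw [this, d1, d2, ← d3, neg_add_cancel]

omit [DecidableEq F] in
theorem tate_unique (h2 : (2 : F) ≠ 0) (h3 : (3 : F) ≠ 0) (c4 c6 : F) (hΔ : c4 ^ 3 - c6 ^ 2 ≠ 0)
    {U Z U' Z' : F} (h4 : tc4 U Z = c4) (h6 : tc6 U Z = c6)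
    (h4' : tc4 U' Z' = c4) (h6' : tc6 U' Z' = c6) (hx : tx U Z = tx U' Z')
    (hy : ty U Z = ty U' Z') : U = U' ∧ Z = Z' := by
  obtain ⟨hU, hZ⟩ := tate_UZ_ne_zero c4 c6 U Z hΔ h4 h6
  have key : ∀ U Z : F, (3 * tx U Z + 36 * (U * Z)) * (4 * ty U Z ^ 2) =
      (3 * tx U Z ^ 2 - 27 * tc4 U Z) ^ 2 := by
    intro U Z
    simp only [tx, ty, tc4]; ring
  have k1 := key U Z
  have k2 := key U' Z'
  rw [h4] at k1
  rw [h4', ← hx, ← hy] at k2
  have hty : ty U Z ≠ 0 := by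
    have : ty U Z = -(2 ^ 2 * 3 ^ 3 * U * Z ^ 2) := by simp only [ty]; ring
    rw [this]
    exact neg_ne_zero.mpr (mul_ne_zero (mul_ne_zero (mul_ne_zero (pow_ne_zero _ h2)
      (pow_ne_zero _ h3)) hU) (pow_ne_zero _ hZ))
  have hc : (2 ^ 4 * 3 ^ 2 * ty U Z ^ 2 : F) ≠ 0 :=
    mul_ne_zero (mul_ne_zero (pow_ne_zero _ h2) (pow_ne_zero _ h3)) (pow_ne_zero _ hty)
  have hm : U * Z = U' * Z' := by
    apply mul_left_cancel₀ hc
    linear_combination k1 - k2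
  have hc2 : (2 ^ 2 * 3 ^ 3 : F) ≠ 0 := mul_ne_zero (pow_ne_zero _ h2) (pow_ne_zero _ h3)
  have hm2 : U * Z * Z = U * Z * Z' := by
    apply mul_left_cancel₀ hc2
    simp only [ty] at hy
    linear_combination (-1 : F) * hy + (-108 * Z') * hm
  have hZZ : Z = Z' := mul_left_cancel₀ (mul_ne_zero hU hZ) hm2
  subst hZZ
  exact ⟨mul_right_cancel₀ hZ hm, rfl⟩

theorem exists_tate (h2 : (2 : F) ≠ 0) (h3 : (3 : F) ≠ 0) (c4 c6 : F) (hΔ : c4 ^ 3 - c6 ^ 2 ≠ 0)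
    (W : Affine F) (hW : W = shortW c4 c6) {x y : F}
    (h : W.Nonsingular x y) (h5 : (5 : ℕ) • Point.some x y h = 0) :
    ∃ U Z : F, tc4 U Z = c4 ∧ tc6 U Z = c6 ∧ x = tx U Z ∧ y = ty U Z := by
  subst hW
  obtain ⟨x₂, y₂, h₂, -, hne, hf1, -, hr1, hr2⟩ := Fermat.Agent.S51.five_torsion_rel h h5
  have hr3 := Fermat.Agent.S51.five_alg hne hr1 hr2
  have heq : y ^ 2 = x ^ 3 - 27 * c4 * x - 54 * c6 := by
    have := (equation_iff _ _).1 h.1
    simp only [shortW, sw] at this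
    linear_combination this
  obtain ⟨d, hd⟩ : ∃ d, d = x₂ - x := ⟨_, rfl⟩
  have hd0 : d ≠ 0 := by rw [hd]; exact sub_ne_zero.mpr hne
  rw [← hd] at hr1 hr3
  have hfX : Fermat.Agent.S51.fX (shortW c4 c6).toAffine x = 4 * y ^ 2 := by
    simp only [Fermat.Agent.S51.fX, shortW, sw, WeierstrassCurve.b₂, WeierstrassCurve.b₄,
      WeierstrassCurve.b₆]
    linear_combination (-4 : F) * heq
  have hy0 : y ≠ 0 := by
    intro hy
    apply hf1
    rw [hfX, hy]; ring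
  -- `R1 : d s² = e² - 3 x s²`, `R2 : d³ = 2 e d + s²`, with `s = 2 y`, `e = 3 x² - 27 c4`
  have R1 : d * (4 * y ^ 2) = (3 * x ^ 2 - 27 * c4) ^ 2 - 3 * x * (4 * y ^ 2) := by
    rw [hfX] at hr1
    simp only [Fermat.Agent.S51.psi3X, shortW, sw, WeierstrassCurve.b₂, WeierstrassCurve.b₄,
      WeierstrassCurve.b₆, WeierstrassCurve.b₈] at hr1
    linear_combination hr1 + 12 * x * heq
  have R2 : d ^ 3 = 2 * (3 * x ^ 2 - 27 * c4) * d + 4 * y ^ 2 := by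
    rw [hfX] at hr3
    simp only [Fermat.Agent.S51.B4, shortW, sw, WeierstrassCurve.b₂, WeierstrassCurve.b₄] at hr3
    linear_combination hr3
  have hnum : ∀ a b : ℕ, (2 ^ a * 3 ^ b : F) ≠ 0 := fun a b =>
    mul_ne_zero (pow_ne_zero _ h2) (pow_ne_zero _ h3)
  have h6 : (6 : F) ≠ 0 := by have := hnum 1 1; norm_num at this; exact this
  have h36 : (36 : F) ≠ 0 := by have := hnum 2 2; norm_num at this; exact this
  have h108 : (108 : F) ≠ 0 := by have := hnum 2 3; norm_num at this; exact this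
  set U : F := -d ^ 2 / (6 * (2 * y)) with hU
  set Z : F := -(2 * y) / (6 * d) with hZ
  have hUZ : U * Z = d / 36 := by
    rw [hU, hZ]; field_simp; ring
  have hUZ2 : U * Z ^ 2 = -y / 108 := by
    rw [hU, hZ]; field_simp; ring
  have hZU : Z - U = (3 * x ^ 2 - 27 * c4) / (6 * y) := by
    rw [hU, hZ]; field_simp
    linear_combination (1 : F) * R2
  have hb2 : (Z - U) ^ 2 - 4 * (U * Z) = x / 3 := by
    rw [hZU, hUZ]; field_simp
    linear_combination (-108 : F) * R1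
  refine ⟨U, Z, ?_, ?_, ?_, ?_⟩
  · rw [tc4_eq, hb2, hZU, hUZ2]; field_simp; ring
  · rw [tc6_eq, hb2, hZU, hUZ2]; field_simp
    linear_combination (-34992 : F) * heq
  · rw [tx_eq, hb2]; field_simp
  · simp only [ty]
    have : -108 * U * Z ^ 2 = -108 * (U * Z ^ 2) := by ring
    rw [this, hUZ2]; field_simp

end Fermat.Agent.S52
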