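import Fermat.Agent.S52.Defs

/-!
# S52: compatibility of the family polynomials with ring homomorphisms
-/

set_option autoImplicit false
set_option maxHeartbeats 4000000
set_option maxRecDepth 100000
set_option linter.unusedSimpArgs false

namespace Fermat.Agent.S52

variable {R : Type*} [CommRing R]

variable {S : Type*} [CommRing S] (φ : R →+* S)

theorem map_famD (a b c : R) : φ (famD a b c) = famD (φ a) (φ b) (φ c) := by
  simp only [famD, famD_0, famD_2, famD_3, famD_4, famD_5, famD_6, famD_7, famD_8, famD_9, famD_10, famD_11, famD_12, map_add, map_sub, map_mul, map_pow, map_neg, map_one, map_ofNat]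

theorem map_fam4 (a b c : R) : φ (fam4 a b c) = fam4 (φ a) (φ b) (φ c) := by
  simp only [fam4, fam4_0, fam4_1, fam4_2, fam4_3, fam4_4, fam4_5, fam4_6, fam4_7, fam4_8, fam4_9, fam4_10, fam4_11, fam4_12, fam4_13, fam4_14, fam4_15, fam4_16, fam4_17, fam4_18, fam4_19, fam4_20, map_add, map_sub, map_mul, map_pow, map_neg, map_one, map_ofNat]

theorem map_fam6 (a b c : R) : φ (fam6 a b c) = fam6 (φ a) (φ b) (φ c) := by
  simp only [fam6, fam6_0, fam6_1, fam6_2, fam6_3, fam6_4, fam6_5, fam6_6, fam6_7, fam6_8, fam6_9, fam6_10, fam6_11, fam6_12, fam6_13, fam6_14, fam6_15, fam6_16, fam6_17, fam6_18, fam6_19, fam6_20, fam6_21, fam6_22, fam6_23, fam6_24, fam6_25, fam6_26, fam6_27, fam6_28, fam6_29, fam6_30, map_add, map_sub, map_mul, map_pow, map_neg, map_one, map_ofNat]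

theorem map_famU (a b c : R) : φ (famU a b c) = famU (φ a) (φ b) (φ c) := by
  simp only [famU, famU_0, famU_1, famU_2, famU_3, famU_4, famU_5, map_add, map_sub, map_mul, map_pow, map_neg, map_one, map_ofNat]

theorem map_famZ (a b c : R) : φ (famZ a b c) = famZ (φ a) (φ b) (φ c) := by
  simp only [famZ, famZ_0, famZ_1, famZ_2, famZ_3, famZ_4, famZ_5, map_add, map_sub, map_mul, map_pow, map_neg, map_one, map_ofNat]

theorem map_bezU (a b c : R) : φ (bezU a b c) = bezU (φ a) (φ b) (φ c) := by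
  simp only [bezU, bezU_0, bezU_1, bezU_2, bezU_3, bezU_4, bezU_5, bezU_6, bezU_7, bezU_8, bezU_9, bezU_10, bezU_11, map_add, map_sub, map_mul, map_pow, map_neg, map_one, map_ofNat]

theorem map_bezV (a b c : R) : φ (bezV a b c) = bezV (φ a) (φ b) (φ c) := by
  simp only [bezV, bezV_0, bezV_1, bezV_2, bezV_3, bezV_4, bezV_5, bezV_6, bezV_7, bezV_8, bezV_9, bezV_10, bezV_11, bezV_12, bezV_13, bezV_14, bezV_15, bezV_16, bezV_17, bezV_18, bezV_19, map_add, map_sub, map_mul, map_pow, map_neg, map_one, map_ofNat]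

theorem map_famDq (a b c : R) : φ (famDq a b c) = famDq (φ a) (φ b) (φ c) := by
  simp only [famDq, famD_0, famD_2, famD_3, famD_4, famD_5, famD_6, famD_7, famD_8, famD_9, famD_10, famD_11, famD_12, map_add, map_sub, map_mul, map_pow, map_neg, map_one, map_ofNat]

theorem map_fam4q (a b c : R) : φ (fam4q a b c) = fam4q (φ a) (φ b) (φ c) := by
  simp only [fam4q, fam4_0, fam4_1, fam4_2, fam4_3, fam4_4, fam4_5, fam4_6, fam4_7, fam4_8, fam4_9, fam4_10, fam4_11, fam4_12, fam4_13, fam4_14, fam4_15, fam4_16, fam4_17, fam4_18, fam4_19, fam4_20, map_add, map_sub, map_mul, map_pow, map_neg, map_one, map_ofNat]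

theorem map_fam6q (a b c : R) : φ (fam6q a b c) = fam6q (φ a) (φ b) (φ c) := by
  simp only [fam6q, fam6_0, fam6_1, fam6_2, fam6_3, fam6_4, fam6_5, fam6_6, fam6_7, fam6_8, fam6_9, fam6_10, fam6_11, fam6_12, fam6_13, fam6_14, fam6_15, fam6_16, fam6_17, fam6_18, fam6_19, fam6_20, fam6_21, fam6_22, fam6_23, fam6_24, fam6_25, fam6_26, fam6_27, fam6_28, fam6_29, fam6_30, map_add, map_sub, map_mul, map_pow, map_neg, map_one, map_ofNat]

theorem map_famDd (a b c : R) : φ (famDd a b c) = famDd (φ a) (φ b) (φ c) := by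
  simp only [famDd, famD_0, famD_2, famD_3, famD_4, famD_5, famD_6, famD_7, famD_8, famD_9, famD_10, famD_11, famD_12, map_add, map_sub, map_mul, map_pow, map_neg, map_one, map_ofNat]

theorem map_fam4d (a b c : R) : φ (fam4d a b c) = fam4d (φ a) (φ b) (φ c) := by
  simp only [fam4d, fam4_0, fam4_1, fam4_2, fam4_3, fam4_4, fam4_5, fam4_6, fam4_7, fam4_8, fam4_9, fam4_10, fam4_11, fam4_12, fam4_13, fam4_14, fam4_15, fam4_16, fam4_17, fam4_18, fam4_19, fam4_20, map_add, map_sub, map_mul, map_pow, map_neg, map_one, map_ofNat]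

theorem map_tc4 (a b : R) : φ (tc4 a b) = tc4 (φ a) (φ b) := by
  simp only [tc4, map_add, map_sub, map_mul, map_pow, map_neg, map_one, map_ofNat]

theorem map_tc6 (a b : R) : φ (tc6 a b) = tc6 (φ a) (φ b) := by
  simp only [tc6, map_add, map_sub, map_mul, map_pow, map_neg, map_one, map_ofNat]

theorem map_tx (a b : R) : φ (tx a b) = tx (φ a) (φ b) := by
  simp only [tx, map_add, map_sub, map_mul, map_pow, map_neg, map_one, map_ofNat]

theorem map_ty (a b : R) : φ (ty a b) = ty (φ a) (φ b) := by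
  simp only [ty, map_add, map_sub, map_mul, map_pow, map_neg, map_one, map_ofNat]

theorem map_psi3s (a b c : R) : φ (psi3s a b c) = psi3s (φ a) (φ b) (φ c) := by
  simp only [psi3s, map_add, map_sub, map_mul, map_pow, map_neg, map_one, map_ofNat]

theorem map_cub (a b c : R) : φ (cub a b c) = cub (φ a) (φ b) (φ c) := by
  simp only [cub, map_add, map_sub, map_mul, map_pow, map_neg, map_one, map_ofNat]

theorem map_sw (A B : R) : (sw A B).map φ = sw (φ A) (φ B) := by
  ext <;> simp [sw]

theorem map_shortW (c4 c6 : R) : (shortW c4 c6).map φ = shortW (φ c4) (φ c6) := by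
  simp only [shortW, map_sw, map_mul, map_neg, map_ofNat]

end Fermat.Agent.S52
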