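import Fermat.Agent.S52.Defs

/-!
# S52: polynomial identities for the icosahedral family (all by `ring`)
-/

set_option autoImplicit false
set_option maxHeartbeats 4000000
set_option maxRecDepth 100000

namespace Fermat.Agent.S52

variable {R : Type*} [CommRing R]

theorem fam_rel (c4 c6 t : R) :
    fam4 c4 c6 t ^ 3 - fam6 c4 c6 t ^ 2 = (c4 ^ 3 - c6 ^ 2) * famD c4 c6 t ^ 5 := by
  simp only [fam4, fam4_0, fam4_1, fam4_2, fam4_3, fam4_4, fam4_5, fam4_6, fam4_7, fam4_8, fam4_9, fam4_10, fam4_11, fam4_12, fam4_13, fam4_14, fam4_15, fam4_16, fam4_17, fam4_18, fam4_19, fam4_20, fam6, fam6_0, fam6_1, fam6_2, fam6_3, fam6_4, fam6_5, fam6_6, fam6_7, fam6_8, fam6_9, fam6_10, fam6_11, fam6_12, fam6_13, fam6_14, fam6_15, fam6_16, fam6_17, fam6_18, fam6_19, fam6_20, fam6_21, fam6_22, fam6_23, fam6_24, fam6_25, fam6_26, fam6_27, fam6_28, fam6_29, fam6_30, famD, famD_0, famD_2, famD_3, famD_4, famD_5, famD_6, famD_7,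 famD_8, famD_9, famD_10, famD_11, famD_12]
  ring

theorem fam_bezout (c4 c6 t : R) :
    bezU c4 c6 t * fam4 c4 c6 t + bezV c4 c6 t * famD c4 c6 t = (bezK : R) * (c4 ^ 3 - c6 ^ 2) ^ 6 := by
  simp only [fam4, fam4_0, fam4_1, fam4_2, fam4_3, fam4_4, fam4_5, fam4_6, fam4_7, fam4_8, fam4_9, fam4_10, fam4_11, fam4_12, fam4_13, fam4_14, fam4_15, fam4_16, fam4_17, fam4_18, fam4_19, fam4_20, famD, famD_0, famD_2, famD_3, famD_4, famD_5, famD_6, famD_7, famD_8, famD_9, famD_10, famD_11, famD_12, bezU, bezU_0, bezU_1, bezU_2, bezU_3, bezU_4, bezU_5, bezU_6, bezU_7, bezU_8, bezU_9, bezU_10, bezU_11, bezV, bezV_0, bezV_1, bezV_2, bezV_3, bezV_4, bezV_5, bezV_6, bezV_7, bezV_8, bezV_9, bezV_10, bezV_11, bezV_12, bezV_13, bezV_14, bezV_15, bezV_16, bezV_17, bezV_18, bezV_19, bezK]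
  push_cast
  ring

theorem fam_jac (c4 c6 t : R) :
    60 * fam6 c4 c6 t = 3 * famD c4 c6 t * fam4d c4 c6 t - 5 * fam4 c4 c6 t * famDd c4 c6 t := by
  simp only [fam4, fam4_0, fam4_1, fam4_2, fam4_3, fam4_4, fam4_5, fam4_6, fam4_7, fam4_8, fam4_9, fam4_10, fam4_11, fam4_12, fam4_13, fam4_14, fam4_15, fam4_16, fam4_17, fam4_18, fam4_19, fam4_20, fam6, fam6_0, fam6_1, fam6_2, fam6_3, fam6_4, fam6_5, fam6_6, fam6_7, fam6_8, fam6_9, fam6_10, fam6_11, fam6_12, fam6_13, fam6_14, fam6_15, fam6_16, fam6_17, fam6_18, fam6_19, fam6_20, fam6_21, fam6_22, fam6_23, fam6_24, fam6_25, fam6_26, fam6_27, fam6_28, fam6_29, fam6_30, famD, famD_0, famD_2, famD_3, famD_4, famD_5, famD_6, famD_7, famD_8, famD_9, famD_10, famD_11, famD_12, fam4d, famDd]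
  ring

theorem famU_rot (U Z t : R) : famU (-Z) U t = -famZ U Z t := by
  simp only [famU, famU_0, famU_1, famU_2, famU_3, famU_4, famU_5, famZ, famZ_0, famZ_1, famZ_2, famZ_3, famZ_4, famZ_5]
  ring

theorem famZ_rot (U Z t : R) : famZ (-Z) U t = famU U Z t := by
  simp only [famU, famU_0, famU_1, famU_2, famU_3, famU_4, famU_5, famZ, famZ_0, famZ_1, famZ_2, famZ_3, famZ_4, famZ_5]
  ring

theorem famD_eq (c4 c6 t : R) : famD c4 c6 t = 1 + t * famDq c4 c6 t := by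
  simp only [famD, famDq, famD_0]
  ring

theorem fam4_eq (c4 c6 t : R) : fam4 c4 c6 t = c4 + t * fam4q c4 c6 t := by
  simp only [fam4, fam4q, fam4_0]
  ring

theorem fam6_eq (c4 c6 t : R) : fam6 c4 c6 t = c6 + t * fam6q c4 c6 t := by
  simp only [fam6, fam6q, fam6_0]
  ring

theorem famU_zero (U Z : R) : famU U Z 0 = U := by
  simp only [famU, famU_0, famU_1, famU_2, famU_3, famU_4, famU_5]
  ring

theorem famZ_zero (U Z : R) : famZ U Z 0 = Z := by
  simp only [famZ, famZ_0, famZ_1, famZ_2, famZ_3, famZ_4, famZ_5]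
  ring

theorem tc_rel (U Z : R) :
    tc4 U Z ^ 3 - tc6 U Z ^ 2 = 1728 * (U ^ 5 * Z ^ 5 * (U ^ 2 - 11 * U * Z - Z ^ 2)) := by
  simp only [tc4, tc6]
  ring

end Fermat.Agent.S52
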