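import Fermat.Agent.S52.Defs

/-!
# S52: polynomial identities for the icosahedral family (all by `ring`)
-/

set_option autoImplicit false
set_option maxHeartbeats 4000000
set_option maxRecDepth 100000

namespace Fermat.Agent.S52

variable {R : Type*} [CommRing R]

theorem fam4_tate (U Z t : R) :
    fam4 (tc4 U Z) (tc6 U Z) t = tc4 (famU U Z t) (famZ U Z t) := by
  simp only [fam4, fam4_0, fam4_1, fam4_2, fam4_3, fam4_4, fam4_5, fam4_6, fam4_7, fam4_8, fam4_9, fam4_10, fam4_11, fam4_12, fam4_13, fam4_14, fam4_15, fam4_16, fam4_17, fam4_18, fam4_19, fam4_20, famU, famU_0, famU_1, famU_2, famU_3, famU_4, famU_5, famZ, famZ_0, famZ_1, famZ_2, famZ_3, famZ_4, famZ_5, tc4, tc6]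
  ring

end Fermat.Agent.S52
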