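import Fermat.Agent.S52.FamRel
import Fermat.Agent.S52.FamMap
import Fermat.Agent.S52.FamTate4

/-!
# S52: the family in Tate coordinates, `c₆`

`fam6_tate` is deduced from `fam4_tate`: the squares of both sides agree because of the two
discriminant relations (`fam_rel`, `tc_rel`) and the factorisation of `famD` in Tate coordinates;
the sign is fixed in the universal (integral) ring `ℤ[U, Z, t]`.
-/

set_option autoImplicit false
set_option maxHeartbeats 4000000
set_option maxRecDepth 100000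

namespace Fermat.Agent.S52

variable {R : Type*} [CommRing R]

/-- the quadratic factor of `famD` in Tate coordinates. -/
def famQ (U Z t : R) : R :=
  1 - 2 * (U ^ 2 + Z ^ 2) * t + (U ^ 4 - 178 * U ^ 2 * Z ^ 2 + Z ^ 4) * t ^ 2

theorem famQ_quad (U Z t : R) :
    famU U Z t ^ 2 - 11 * famU U Z t * famZ U Z t - famZ U Z t ^ 2
      = (U ^ 2 - 11 * U * Z - Z ^ 2) * famQ U Z t ^ 5 := by
  simp only [famQ, famU, famU_0, famU_1, famU_2, famU_3, famU_4, famU_5, famZ, famZ_0, famZ_1,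
    famZ_2, famZ_3, famZ_4, famZ_5]
  ring

theorem famQ_famD (U Z t : R) :
    U * Z * famD (tc4 U Z) (tc6 U Z) t = famU U Z t * famZ U Z t * famQ U Z t := by
  simp only [famQ, famU, famU_0, famU_1, famU_2, famU_3, famU_4, famU_5, famZ, famZ_0, famZ_1,
    famZ_2, famZ_3, famZ_4, famZ_5, famD, famD_0, famD_2, famD_3, famD_4, famD_5, famD_6, famD_7,
    famD_8, famD_9, famD_10, famD_11, famD_12, tc4, tc6]
  ring

theorem fam6_tate_sq (U Z t : R) :
    fam6 (tc4 U Z) (tc6 U Z) t ^ 2 = tc6 (famU U Z t) (famZ U Z t) ^ 2 := by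
  have h1 := fam_rel (tc4 U Z) (tc6 U Z) t
  have h2 := tc_rel (famU U Z t) (famZ U Z t)
  have h3 := tc_rel U Z
  have h4 := fam4_tate U Z t
  have h5 := famQ_quad U Z t
  have h6 := famQ_famD U Z t
  generalize fam6 (tc4 U Z) (tc6 U Z) t = F6 at *
  generalize fam4 (tc4 U Z) (tc6 U Z) t = F4 at *
  generalize famD (tc4 U Z) (tc6 U Z) t = FD at *
  generalize tc6 (famU U Z t) (famZ U Z t) = T6 at *
  generalize tc4 (famU U Z t) (famZ U Z t) = T4 at *
  generalize famU U Z t = u at *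
  generalize famZ U Z t = z at *
  generalize famQ U Z t = q at *
  generalize tc4 U Z = a at *
  generalize tc6 U Z = b at *
  subst h4
  have e1 : F6 ^ 2 = F4 ^ 3 - 1728 * (U ^ 2 - 11 * U * Z - Z ^ 2) * (U * Z * FD) ^ 5 := by
    linear_combination (-1 : R) * h1 - FD ^ 5 * h3
  have e2 : T6 ^ 2 = F4 ^ 3 - 1728 * (u ^ 5 * z ^ 5 * (u ^ 2 - 11 * u * z - z ^ 2)) := by
    linear_combination (-1 : R) * h2
  rw [e1, e2, h6, h5]
  ring

open MvPolynomial in
theorem fam6_tate_univ :
    fam6 (tc4 (X 0 : MvPolynomial (Fin 3) ℤ) (X 1)) (tc6 (X 0) (X 1)) (X 2)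
      = tc6 (famU (X 0) (X 1) (X 2)) (famZ (X 0) (X 1) (X 2)) := by
  rcases sq_eq_sq_iff_eq_or_eq_neg.mp
    (fam6_tate_sq (X 0 : MvPolynomial (Fin 3) ℤ) (X 1) (X 2)) with h | h
  · exact h
  · exfalso
    have h' := congrArg (MvPolynomial.eval (![1, 0, 0] : Fin 3 → ℤ)) h
    rw [map_neg, map_fam6, map_tc6, map_tc4, map_tc6, map_famU, map_famZ] at h'
    simp only [MvPolynomial.eval_X, Matrix.cons_val_zero, Matrix.cons_val_one, Matrix.cons_val] at h'
    rw [fam6_eq, famU_zero, famZ_zero] at h'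
    norm_num [tc6] at h'

theorem fam6_tate (U Z t : R) :
    fam6 (tc4 U Z) (tc6 U Z) t = tc6 (famU U Z t) (famZ U Z t) := by
  have h' := congrArg (MvPolynomial.eval₂Hom (Int.castRingHom R) (![U, Z, t] : Fin 3 → R))
    fam6_tate_univ
  rw [map_fam6, map_tc6, map_tc4, map_tc6, map_famU, map_famZ] at h'
  simpa only [MvPolynomial.eval₂Hom_X', Matrix.cons_val_zero, Matrix.cons_val_one,
    Matrix.cons_val] using h'

end Fermat.Agent.S52
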