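import Fermat.Agent.S52.ThetaAux
import Fermat.Agent.S52.Tate
import Fermat.Agent.S52.FamRel
import Fermat.Agent.S52.FamMap
import Fermat.Agent.S52.FamTate4
import Fermat.Agent.S52.FamTate6
import Fermat.Agent.S51.Five

/-!
# S52, package THETA: the 5-torsion isomorphism `E[5] → E_t[5]` is additive

`θ_s (P(U,Z)) = P_s(famU U Z s, famZ U Z s)`.  Additivity on lines comes from the rotation
identities; additivity on independent pairs from a rigidity argument (polynomial identities in `s`).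
-/

set_option autoImplicit false
open WeierstrassCurve WeierstrassCurve.Affine

namespace Fermat.Agent.S52
namespace Theta

variable {Ω : Type*} [Field Ω] [DecidableEq Ω]

/-- `(U, Z)` is a Tate parameter on the curve with invariants `(c4, c6)`. -/
def IsT (c4 c6 U Z : Ω) : Prop := tc4 U Z = c4 ∧ tc6 U Z = c6

omit [DecidableEq Ω] in
theorem IsT.rot {c4 c6 U Z : Ω} (h : IsT c4 c6 U Z) : IsT c4 c6 (-Z) U := by
  obtain ⟨h4, h6⟩ := h
  constructor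
  · rw [← h4]; simp only [tc4]; ring
  · rw [← h6]; simp only [tc6]; ring

omit [DecidableEq Ω] in
theorem IsT.neg {c4 c6 U Z : Ω} (h : IsT c4 c6 U Z) : IsT c4 c6 (-U) (-Z) := h.rot.rot

omit [DecidableEq Ω] in
theorem IsT.fam {c4 c6 U Z : Ω} (h : IsT c4 c6 U Z) (s : Ω) :
    IsT (fam4 c4 c6 s) (fam6 c4 c6 s) (famU U Z s) (famZ U Z s) := by
  obtain ⟨rfl, rfl⟩ := h
  exact ⟨(fam4_tate U Z s).symm, (fam6_tate U Z s).symm⟩

/-- the standing hypotheses on the field and the curve. -/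
structure Good (c4 c6 : Ω) : Prop where
  h2 : (2 : Ω) ≠ 0
  h3 : (3 : Ω) ≠ 0
  h5 : (5 : Ω) ≠ 0
  hΔ : c4 ^ 3 - c6 ^ 2 ≠ 0

omit [DecidableEq Ω] in
theorem Good.fam {c4 c6 : Ω} (hg : Good c4 c6) {s : Ω} (hD : famD c4 c6 s ≠ 0) :
    Good (fam4 c4 c6 s) (fam6 c4 c6 s) :=
  ⟨hg.h2, hg.h3, hg.h5, by rw [fam_rel]; exact mul_ne_zero hg.hΔ (pow_ne_zero _ hD)⟩

omit [DecidableEq Ω] in
theorem IsT.ne_zero {c4 c6 U Z : Ω} (hg : Good c4 c6) (h : IsT c4 c6 U Z) : U ≠ 0 ∧ Z ≠ 0 := by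
  have h1 := hg.hΔ
  rw [← h.1, ← h.2, tc_rel] at h1
  constructor
  · rintro rfl; apply h1; ring
  · rintro rfl; apply h1; ring

omit [DecidableEq Ω] in
theorem IsT.ty_ne_zero {c4 c6 U Z : Ω} (hg : Good c4 c6) (h : IsT c4 c6 U Z) : ty U Z ≠ 0 := by
  obtain ⟨hU, hZ⟩ := h.ne_zero hg
  have h108 : (108 : Ω) ≠ 0 := by
    have : (108 : Ω) = 2 ^ 2 * 3 ^ 3 := by norm_num
    rw [this]
    exact mul_ne_zero (pow_ne_zero _ hg.h2) (pow_ne_zero _ hg.h3)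
  simp only [ty]
  exact mul_ne_zero (mul_ne_zero (neg_ne_zero.mpr h108) hU) (pow_ne_zero _ hZ)

/-- the curve `y² = x³ - 27 c₄ x - 54 c₆` as an affine curve. -/
abbrev SW (c4 c6 : Ω) : Affine Ω := shortW c4 c6

/-- the point with Tate parameters `(U, Z)`. -/
noncomputable def tpt (c4 c6 U Z : Ω) : (SW c4 c6).Point := mkPt (SW c4 c6) (tx U Z) (ty U Z)

section Wrappers

variable {c4 c6 U Z U' Z' : Ω}

theorem nonsing (hg : Good c4 c6) (hT : IsT c4 c6 U Z) :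
    (SW c4 c6).Nonsingular (tx U Z) (ty U Z) :=
  tate_nonsingular hg.h2 hg.h3 c4 c6 U Z hg.hΔ hT.1 hT.2 _ rfl

theorem tpt_eq (hg : Good c4 c6) (hT : IsT c4 c6 U Z) :
    tpt c4 c6 U Z = Point.some _ _ (nonsing hg hT) := mkPt_eq _

theorem tpt_ne_zero (hg : Good c4 c6) (hT : IsT c4 c6 U Z) : tpt c4 c6 U Z ≠ 0 := by
  rw [tpt_eq hg hT]; exact Point.some_ne_zero _

theorem tpt_double (hg : Good c4 c6) (hT : IsT c4 c6 U Z) :
    tpt c4 c6 U Z + tpt c4 c6 U Z = tpt c4 c6 (-Z) U := by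
  rw [tpt_eq hg hT, tpt_eq hg hT.rot]
  exact tate_double hg.h2 hg.h3 c4 c6 U Z hg.hΔ hT.1 hT.2 _ rfl _ _

theorem tpt_neg (hg : Good c4 c6) (hT : IsT c4 c6 U Z) :
    - tpt c4 c6 U Z = tpt c4 c6 (-U) (-Z) := by
  rw [tpt_eq hg hT, tpt_eq hg hT.neg]
  exact tate_neg c4 c6 U Z _ rfl _ _

theorem tpt_five (hg : Good c4 c6) (hT : IsT c4 c6 U Z) : (5 : ℕ) • tpt c4 c6 U Z = 0 := by
  rw [tpt_eq hg hT]
  exact tate_five hg.h2 hg.h3 c4 c6 U Z hg.hΔ hT.1 hT.2 _ rfl _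

theorem tpt_inj (hg : Good c4 c6) (hT : IsT c4 c6 U Z) (hT' : IsT c4 c6 U' Z')
    (h : tpt c4 c6 U Z = tpt c4 c6 U' Z') : U = U' ∧ Z = Z' := by
  rw [tpt_eq hg hT, tpt_eq hg hT', Point.some.injEq] at h
  exact tate_unique hg.h2 hg.h3 c4 c6 hg.hΔ hT.1 hT.2 hT'.1 hT'.2 h.1 h.2

theorem exists_tpt (hg : Good c4 c6) (P : (SW c4 c6).Point) (hP : P ≠ 0) (h5 : (5 : ℕ) • P = 0) :
    ∃ U Z, IsT c4 c6 U Z ∧ P = tpt c4 c6 U Z := by
  cases P with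
  | zero => exact absurd rfl hP
  | some x y h =>
    obtain ⟨U, Z, h4, h6, rfl, rfl⟩ := exists_tate hg.h2 hg.h3 c4 c6 hg.hΔ _ rfl h h5
    exact ⟨U, Z, ⟨h4, h6⟩, (tpt_eq hg ⟨h4, h6⟩).symm⟩

end Wrappers

open Classical in
/-- a choice of Tate parameters of a point (junk `(0,0)` if there are none). -/
noncomputable def par (c4 c6 : Ω) (P : (SW c4 c6).Point) : Ω × Ω :=
  if h : ∃ p : Ω × Ω, IsT c4 c6 p.1 p.2 ∧ P = tpt c4 c6 p.1 p.2 then h.choose else (0, 0)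

theorem par_tpt {c4 c6 U Z : Ω} (hg : Good c4 c6) (hT : IsT c4 c6 U Z) :
    par c4 c6 (tpt c4 c6 U Z) = (U, Z) := by
  have h : ∃ p : Ω × Ω, IsT c4 c6 p.1 p.2 ∧ tpt c4 c6 U Z = tpt c4 c6 p.1 p.2 := ⟨(U, Z), hT, rfl⟩
  have e : par c4 c6 (tpt c4 c6 U Z) = h.choose := dif_pos h
  obtain ⟨h1, h2⟩ := h.choose_spec
  obtain ⟨a, b⟩ := tpt_inj hg hT h1 h2
  rw [e]
  exact Prod.ext a.symm b.symm

open Classical in
/-- the map `θ_s`. -/
noncomputable def th (c4 c6 s : Ω) (P : (SW c4 c6).Point) :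
    (SW (fam4 c4 c6 s) (fam6 c4 c6 s)).Point :=
  if P = 0 then 0 else
    tpt (fam4 c4 c6 s) (fam6 c4 c6 s)
      (famU (par c4 c6 P).1 (par c4 c6 P).2 s) (famZ (par c4 c6 P).1 (par c4 c6 P).2 s)

theorem th_zero (c4 c6 s : Ω) : th c4 c6 s 0 = 0 := if_pos rfl

theorem th_tpt {c4 c6 U Z : Ω} (hg : Good c4 c6) (hT : IsT c4 c6 U Z) (s : Ω) :
    th c4 c6 s (tpt c4 c6 U Z) = tpt _ _ (famU U Z s) (famZ U Z s) := by
  have e : th c4 c6 s (tpt c4 c6 U Z) = tpt _ _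
      (famU (par c4 c6 (tpt c4 c6 U Z)).1 (par c4 c6 (tpt c4 c6 U Z)).2 s)
      (famZ (par c4 c6 (tpt c4 c6 U Z)).1 (par c4 c6 (tpt c4 c6 U Z)).2 s) :=
    if_neg (tpt_ne_zero hg hT)
  rw [e, par_tpt hg hT]

theorem famU_neg {R : Type*} [CommRing R] (U Z t : R) : famU (-U) (-Z) t = - famU U Z t := by
  rw [famU_rot, famZ_rot]

theorem famZ_neg {R : Type*} [CommRing R] (U Z t : R) : famZ (-U) (-Z) t = - famZ U Z t := by
  rw [famZ_rot, famU_rot]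

section Lines

variable {c4 c6 s : Ω}

theorem th_five (hg : Good c4 c6) (hD : famD c4 c6 s ≠ 0) {P : (SW c4 c6).Point}
    (h5 : (5 : ℕ) • P = 0) : (5 : ℕ) • th c4 c6 s P = 0 := by
  by_cases hP : P = 0
  · rw [hP, th_zero, smul_zero]
  obtain ⟨U, Z, hT, rfl⟩ := exists_tpt hg P hP h5
  rw [th_tpt hg hT]
  exact tpt_five (hg.fam hD) (hT.fam s)

theorem th_neg (hg : Good c4 c6) (hD : famD c4 c6 s ≠ 0) {P : (SW c4 c6).Point}
    (h5 : (5 : ℕ) • P = 0) : th c4 c6 s (-P) = - th c4 c6 s P := by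
  by_cases hP : P = 0
  · rw [hP, neg_zero, th_zero, neg_zero]
  obtain ⟨U, Z, hT, rfl⟩ := exists_tpt hg P hP h5
  rw [tpt_neg hg hT, th_tpt hg hT, th_tpt hg hT.neg, tpt_neg (hg.fam hD) (hT.fam s), famU_neg,
    famZ_neg]

theorem th_double (hg : Good c4 c6) (hD : famD c4 c6 s ≠ 0) {P : (SW c4 c6).Point}
    (h5 : (5 : ℕ) • P = 0) : th c4 c6 s (P + P) = th c4 c6 s P + th c4 c6 s P := by
  by_cases hP : P = 0
  · rw [hP, add_zero, th_zero, add_zero]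
  obtain ⟨U, Z, hT, rfl⟩ := exists_tpt hg P hP h5
  rw [tpt_double hg hT, th_tpt hg hT, th_tpt hg hT.rot, tpt_double (hg.fam hD) (hT.fam s),
    famU_rot, famZ_rot]

end Lines

section Coord

variable {c4 c6 U1 Z1 U2 Z2 U3 Z3 : Ω}

theorem tpt_add_iff (hg : Good c4 c6) (hT1 : IsT c4 c6 U1 Z1) (hT2 : IsT c4 c6 U2 Z2)
    (hT3 : IsT c4 c6 U3 Z3) (hx : tx U1 Z1 ≠ tx U2 Z2) :
    tpt c4 c6 U1 Z1 + tpt c4 c6 U2 Z2 = tpt c4 c6 U3 Z3 ↔
      (tx U1 Z1 - tx U2 Z2) ^ 2 * (tx U3 Z3 + tx U1 Z1 + tx U2 Z2) = (ty U1 Z1 - ty U2 Z2) ^ 2 ∧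
      (tx U1 Z1 - tx U2 Z2) * (ty U3 Z3 + ty U1 Z1) +
        (ty U1 Z1 - ty U2 Z2) * (tx U3 Z3 - tx U1 Z1) = 0 := by
  rw [tpt_eq hg hT1, tpt_eq hg hT2, tpt_eq hg hT3]
  exact sw_add_iff _ rfl _ _ _ hx

theorem tx_eq_iff (hg : Good c4 c6) (hT1 : IsT c4 c6 U1 Z1) (hT2 : IsT c4 c6 U2 Z2) :
    tx U1 Z1 = tx U2 Z2 ↔
      tpt c4 c6 U1 Z1 = tpt c4 c6 U2 Z2 ∨ tpt c4 c6 U1 Z1 = - tpt c4 c6 U2 Z2 := by
  rw [tpt_eq hg hT1, tpt_eq hg hT2]
  exact Point.X_eq_iff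

/-- equal `x`-coordinates: the Tate parameters agree up to sign. -/
theorem par_eq_or_of_tx_eq (hg : Good c4 c6) (hT1 : IsT c4 c6 U1 Z1) (hT2 : IsT c4 c6 U2 Z2)
    (h : tx U1 Z1 = tx U2 Z2) : (U1 = U2 ∧ Z1 = Z2) ∨ (U1 = -U2 ∧ Z1 = -Z2) := by
  rcases (tx_eq_iff hg hT1 hT2).mp h with h | h
  · exact Or.inl (tpt_inj hg hT1 hT2 h)
  · rw [tpt_neg hg hT2] at h
    exact Or.inr (tpt_inj hg hT1 hT2.neg h)

theorem tx_ne_of_indep (hg : Good c4 c6) (hT1 : IsT c4 c6 U1 Z1) (hT2 : IsT c4 c6 U2 Z2)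
    (hind : ∀ k : ℤ, k • tpt c4 c6 U1 Z1 ≠ tpt c4 c6 U2 Z2) : tx U1 Z1 ≠ tx U2 Z2 := by
  intro h
  rcases (tx_eq_iff hg hT1 hT2).mp h with h | h
  · exact hind 1 (by rw [one_smul, h])
  · exact hind (-1) (by rw [neg_smul, one_smul, h, neg_neg])

end Coord

section Polys

open Polynomial

/-- the Tate parameters of `θ_s P` as polynomials in `s`. -/
noncomputable def PU (U Z : Ω) : Polynomial Ω := famU (C U) (C Z) X
/-- the Tate parameters of `θ_s P` as polynomials in `s`. -/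
noncomputable def PZ (U Z : Ω) : Polynomial Ω := famZ (C U) (C Z) X
/-- the coordinates of `θ_s P` as polynomials in `s`. -/
noncomputable def PX (U Z : Ω) : Polynomial Ω := tx (PU U Z) (PZ U Z)
/-- the coordinates of `θ_s P` as polynomials in `s`. -/
noncomputable def PY (U Z : Ω) : Polynomial Ω := ty (PU U Z) (PZ U Z)
/-- `famD` as a polynomial in `s`. -/
noncomputable def PD (c4 c6 : Ω) : Polynomial Ω := famD (C c4) (C c6) X

omit [DecidableEq Ω]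

theorem eval_PU (U Z s : Ω) : (PU U Z).eval s = famU U Z s := by
  have := map_famU (evalRingHom s) (C U) (C Z) X
  simpa [PU] using this

theorem eval_PZ (U Z s : Ω) : (PZ U Z).eval s = famZ U Z s := by
  have := map_famZ (evalRingHom s) (C U) (C Z) X
  simpa [PZ] using this

theorem eval_PD (c4 c6 s : Ω) : (PD c4 c6).eval s = famD c4 c6 s := by
  have := map_famD (evalRingHom s) (C c4) (C c6) X
  simpa [PD] using this

theorem eval_PX (U Z s : Ω) : (PX U Z).eval s = tx (famU U Z s) (famZ U Z s) := by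
  have := map_tx (evalRingHom s) (PU U Z) (PZ U Z)
  simpa [PX, eval_PU, eval_PZ] using this

theorem eval_PY (U Z s : Ω) : (PY U Z).eval s = ty (famU U Z s) (famZ U Z s) := by
  have := map_ty (evalRingHom s) (PU U Z) (PZ U Z)
  simpa [PY, eval_PU, eval_PZ] using this

theorem eval_zero_PX (U Z : Ω) : (PX U Z).eval 0 = tx U Z := by
  rw [eval_PX, famU_zero, famZ_zero]

theorem eval_zero_PY (U Z : Ω) : (PY U Z).eval 0 = ty U Z := by
  rw [eval_PY, famU_zero, famZ_zero]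

theorem PD_ne_zero (c4 c6 : Ω) : PD c4 c6 ≠ 0 := by
  intro h
  have := congrArg (eval 0) h
  rw [eval_PD, famD_eq, zero_mul, add_zero, eval_zero] at this
  exact one_ne_zero this

theorem PX_neg (U Z : Ω) : PX (-U) (-Z) = PX U Z := by
  simp only [PX, PU, PZ, C_neg, famU_neg, famZ_neg, tx]
  ring

theorem PY_neg (U Z : Ω) : PY (-U) (-Z) = - PY U Z := by
  simp only [PY, PU, PZ, C_neg, famU_neg, famZ_neg, ty]
  ring

end Polys

section Sep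

open Polynomial

/-- a polynomial separating two distinct Tate parameters. -/
noncomputable def sep (p p' : Ω × Ω) : Polynomial Ω :=
  if p.1 = p'.1 then PZ p.1 p.2 - PZ p'.1 p'.2 else PU p.1 p.2 - PU p'.1 p'.2

theorem sep_ne_zero {p p' : Ω × Ω} (h : p ≠ p') : sep p p' ≠ 0 := by
  intro h0
  have h1 := congrArg (eval 0) h0
  unfold sep at h1
  split_ifs at h1 with h2
  · rw [eval_sub, eval_PZ, eval_PZ, famZ_zero, famZ_zero, eval_zero, sub_eq_zero] at h1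
    exact h (Prod.ext h2 h1)
  · rw [eval_sub, eval_PU, eval_PU, famU_zero, famU_zero, eval_zero, sub_eq_zero] at h1
    exact h2 h1

theorem eval_sep_eq_zero {p p' : Ω × Ω} {s : Ω} (h1 : famU p.1 p.2 s = famU p'.1 p'.2 s)
    (h2 : famZ p.1 p.2 s = famZ p'.1 p'.2 s) : (sep p p').eval s = 0 := by
  unfold sep
  split_ifs
  · rw [eval_sub, eval_PZ, eval_PZ, h2, sub_self]
  · rw [eval_sub, eval_PU, eval_PU, h1, sub_self]

end Sep

section Rigid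

open Polynomial

/-- the 5-torsion subgroup. -/
abbrev V5 (c4 c6 : Ω) : Submodule ℤ (SW c4 c6).Point :=
  Submodule.torsionBy ℤ (SW c4 c6).Point ((5 : ℕ) : ℤ)

theorem mem_V5 {c4 c6 : Ω} {P : (SW c4 c6).Point} : P ∈ V5 c4 c6 ↔ (5 : ℕ) • P = 0 := by
  rw [Submodule.mem_torsionBy_iff, natCast_zsmul]

variable {c4 c6 : Ω}

/-- for generic `s` the map `θ_s` is injective on the 5-torsion. -/
theorem exists_B (hg : Good c4 c6) : ∃ B : Polynomial Ω, B ≠ 0 ∧ ∀ s, B.eval s ≠ 0 →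
    famD c4 c6 s ≠ 0 ∧ ∀ P Q : (SW c4 c6).Point, (5 : ℕ) • P = 0 → (5 : ℕ) • Q = 0 →
      th c4 c6 s P = th c4 c6 s Q → P = Q := by
  classical
  have : Finite (V5 c4 c6) := (Fermat.Agent.S51.finite_card_five_torsion_le hg.h5).1
  let _ : Fintype (V5 c4 c6) := Fintype.ofFinite _
  refine ⟨PD c4 c6 * ∏ v : V5 c4 c6, ∏ w : V5 c4 c6,
    (if par c4 c6 v.1 = par c4 c6 w.1 then 1 else sep (par c4 c6 v.1) (par c4 c6 w.1)), ?_, ?_⟩
  · refine mul_ne_zero (PD_ne_zero c4 c6) (Finset.prod_ne_zero_iff.mpr fun v _ =>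
      Finset.prod_ne_zero_iff.mpr fun w _ => ?_)
    split_ifs with h
    · exact one_ne_zero
    · exact sep_ne_zero h
  · intro s hs
    rw [eval_mul, eval_prod] at hs
    obtain ⟨hs1, hs2⟩ := mul_ne_zero_iff.mp hs
    have hD : famD c4 c6 s ≠ 0 := by rwa [eval_PD] at hs1
    refine ⟨hD, fun P Q hP hQ hPQ => ?_⟩
    by_cases hP0 : P = 0
    · by_contra hne
      rw [hP0] at hne hPQ
      obtain ⟨U, Z, hT, rfl⟩ := exists_tpt hg Q (Ne.symm hne) hQ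
      rw [th_zero, th_tpt hg hT] at hPQ
      exact tpt_ne_zero (hg.fam hD) (hT.fam s) hPQ.symm
    by_cases hQ0 : Q = 0
    · exfalso
      rw [hQ0] at hPQ
      obtain ⟨U, Z, hT, rfl⟩ := exists_tpt hg P hP0 hP
      rw [th_zero, th_tpt hg hT] at hPQ
      exact tpt_ne_zero (hg.fam hD) (hT.fam s) hPQ
    obtain ⟨U, Z, hT, rfl⟩ := exists_tpt hg P hP0 hP
    obtain ⟨U', Z', hT', rfl⟩ := exists_tpt hg Q hQ0 hQ
    rw [th_tpt hg hT, th_tpt hg hT'] at hPQ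
    obtain ⟨e1, e2⟩ := tpt_inj (hg.fam hD) (hT.fam s) (hT'.fam s) hPQ
    by_contra hne
    have hpar : (U, Z) ≠ (U', Z') := fun h => hne (by
      rw [Prod.mk.injEq] at h; rw [h.1, h.2])
    have h1 := Finset.prod_ne_zero_iff.mp hs2 ⟨tpt c4 c6 U Z, mem_V5.mpr hP⟩ (Finset.mem_univ _)
    rw [eval_prod] at h1
    have h2 := Finset.prod_ne_zero_iff.mp h1 ⟨tpt c4 c6 U' Z', mem_V5.mpr hQ⟩ (Finset.mem_univ _)
    simp only [par_tpt hg hT, par_tpt hg hT', if_neg hpar] at h2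
    exact h2 (eval_sep_eq_zero e1 e2)

/-- if `θ_s` is injective and there are 25 points, it is onto the 5-torsion of `E_s`. -/
theorem th_surj (hg : Good c4 c6) {s : Ω} (hD : famD c4 c6 s ≠ 0)
    (hinj : ∀ P Q : (SW c4 c6).Point, (5 : ℕ) • P = 0 → (5 : ℕ) • Q = 0 →
      th c4 c6 s P = th c4 c6 s Q → P = Q)
    (hcard : 25 ≤ Nat.card (V5 c4 c6))
    (R : (SW (fam4 c4 c6 s) (fam6 c4 c6 s)).Point) (hR : (5 : ℕ) • R = 0) :
    ∃ T : (SW c4 c6).Point, (5 : ℕ) • T = 0 ∧ th c4 c6 s T = R := by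
  have hfin := Fermat.Agent.S51.finite_card_five_torsion_le
    (W := SW (fam4 c4 c6 s) (fam6 c4 c6 s)) hg.h5
  have : Finite (V5 (fam4 c4 c6 s) (fam6 c4 c6 s)) := hfin.1
  let f : V5 c4 c6 → V5 (fam4 c4 c6 s) (fam6 c4 c6 s) := fun v =>
    ⟨th c4 c6 s v.1, mem_V5.mpr (th_five hg hD (mem_V5.mp v.2))⟩
  have hf : Function.Injective f := by
    intro v w hvw
    exact Subtype.ext (hinj _ _ (mem_V5.mp v.2) (mem_V5.mp w.2) (congrArg Subtype.val hvw))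
  have hb := hf.bijective_of_nat_card_le (hfin.2.trans hcard)
  obtain ⟨v, hv⟩ := hb.2 ⟨R, mem_V5.mpr hR⟩
  exact ⟨v.1, mem_V5.mp v.2, congrArg Subtype.val hv⟩

theorem card_V5_ge (hg : Good c4 c6) {P Q : (SW c4 c6).Point} (hP : (5 : ℕ) • P = 0)
    (hQ : (5 : ℕ) • Q = 0) (hP0 : P ≠ 0) (hind : ∀ k : ℤ, k • P ≠ Q) :
    25 ≤ Nat.card (V5 c4 c6) := by
  have : Finite (V5 c4 c6) := (Fermat.Agent.S51.finite_card_five_torsion_le hg.h5).1
  refine card_ge_of_indep (V := V5 c4 c6) (fun v => Subtype.ext ?_)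
    (v := ⟨P, mem_V5.mpr hP⟩) (w := ⟨Q, mem_V5.mpr hQ⟩) (fun h => hP0 (congrArg Subtype.val h)) ?_
  · exact mem_V5.mp v.2
  · intro h
    obtain ⟨k, hk⟩ := AddSubgroup.mem_zmultiples_iff.mp h
    exact hind k (congrArg Subtype.val hk)

variable {U1 Z1 U2 Z2 U3 Z3 : Ω}

/-- Step 1: the `x`-coordinate relation holds identically in `s`. -/
theorem step1 [IsAlgClosed Ω] (hg : Good c4 c6) (hT1 : IsT c4 c6 U1 Z1) (hT2 : IsT c4 c6 U2 Z2)
    (hT3 : IsT c4 c6 U3 Z3) (hind : ∀ k : ℤ, k • tpt c4 c6 U1 Z1 ≠ tpt c4 c6 U2 Z2)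
    (hsum : tpt c4 c6 U1 Z1 + tpt c4 c6 U2 Z2 = tpt c4 c6 U3 Z3) :
    (PX U1 Z1 - PX U2 Z2) ^ 2 * (PX U3 Z3 + PX U1 Z1 + PX U2 Z2) = (PY U1 Z1 - PY U2 Z2) ^ 2 := by
  classical
  obtain ⟨B, hB0, hB⟩ := exists_B hg
  have : Finite (V5 c4 c6) := (Fermat.Agent.S51.finite_card_five_torsion_le hg.h5).1
  let _ : Fintype (V5 c4 c6) := Fintype.ofFinite _
  have h51 := tpt_five hg hT1
  have h52 := tpt_five hg hT2
  have hcard := card_V5_ge hg h51 h52 (tpt_ne_zero hg hT1) hind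
  set g : V5 c4 c6 → Polynomial Ω := fun T =>
    (PX U1 Z1 - PX U2 Z2) ^ 2 * (PX (par c4 c6 T.1).1 (par c4 c6 T.1).2 + PX U1 Z1 + PX U2 Z2)
      - (PY U1 Z1 - PY U2 Z2) ^ 2 with hgdef
  have hprod : ∏ T : V5 c4 c6, (if T = 0 then 1 else g T) = 0 := by
    refine poly_zero_of hB0 fun s hs => ?_
    obtain ⟨hD, hinj⟩ := hB s hs
    have hgs := hg.fam hD
    have hR5 : (5 : ℕ) • (th c4 c6 s (tpt c4 c6 U1 Z1) + th c4 c6 s (tpt c4 c6 U2 Z2)) = 0 := by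
      rw [smul_add, th_five hg hD h51, th_five hg hD h52, add_zero]
    obtain ⟨T, hT5, hTR⟩ := th_surj hg hD hinj hcard _ hR5
    have hn2 : (5 : ℕ) • (- tpt c4 c6 U2 Z2) = 0 := by rw [smul_neg, h52, neg_zero]
    have hT0 : T ≠ 0 := by
      rintro rfl
      rw [th_zero] at hTR
      have h1 : th c4 c6 s (tpt c4 c6 U1 Z1) = th c4 c6 s (- tpt c4 c6 U2 Z2) := by
        rw [th_neg hg hD h52]
        exact eq_neg_of_add_eq_zero_left hTR.symm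
      have h2 := hinj _ _ h51 hn2 h1
      exact hind (-1) (by rw [neg_smul, one_smul, h2, neg_neg])
    obtain ⟨U, Z, hT, rfl⟩ := exists_tpt hg T hT0 hT5
    have hx : tx (famU U1 Z1 s) (famZ U1 Z1 s) ≠ tx (famU U2 Z2 s) (famZ U2 Z2 s) := by
      intro hx
      rcases (tx_eq_iff hgs (hT1.fam s) (hT2.fam s)).mp hx with h | h
      · rw [← th_tpt hg hT1, ← th_tpt hg hT2] at h
        exact hind 1 (by rw [one_smul, hinj _ _ h51 h52 h])
      · rw [← th_tpt hg hT1, ← th_tpt hg hT2, ← th_neg hg hD h52] at h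
        exact hind (-1) (by rw [neg_smul, one_smul, hinj _ _ h51 hn2 h, neg_neg])
    rw [th_tpt hg hT, th_tpt hg hT1, th_tpt hg hT2] at hTR
    have hE := ((tpt_add_iff hgs (hT1.fam s) (hT2.fam s) (hT.fam s) hx).mp hTR.symm).1
    rw [eval_prod]
    refine Finset.prod_eq_zero (Finset.mem_univ (⟨tpt c4 c6 U Z, mem_V5.mpr hT5⟩ : V5 c4 c6)) ?_
    have hne : (⟨tpt c4 c6 U Z, mem_V5.mpr hT5⟩ : V5 c4 c6) ≠ 0 :=
      fun h => hT0 (congrArg Subtype.val h)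
    rw [if_neg hne]
    simp only [hgdef, par_tpt hg hT, eval_sub, eval_mul, eval_pow, eval_add, eval_PX, eval_PY]
    rw [hE, sub_self]
  obtain ⟨T, -, hT⟩ := Finset.prod_eq_zero_iff.mp hprod
  split_ifs at hT with hT0
  · exact absurd hT one_ne_zero
  obtain ⟨T, hT5⟩ := T
  have hT0' : T ≠ 0 := fun h => hT0 (Subtype.ext h)
  obtain ⟨U, Z, hTT, rfl⟩ := exists_tpt hg T hT0' (mem_V5.mp hT5)
  simp only [hgdef, par_tpt hg hTT] at hT
  have hx0 := tx_ne_of_indep hg hT1 hT2 hind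
  have hE0 := ((tpt_add_iff hg hT1 hT2 hT3 hx0).mp hsum).1
  have hE1 := congrArg (eval 0) hT
  simp only [eval_sub, eval_mul, eval_pow, eval_add, eval_zero_PX, eval_zero_PY, eval_zero] at hE1
  have hxx : tx U Z = tx U3 Z3 := by
    have hd : (tx U1 Z1 - tx U2 Z2) ^ 2 ≠ 0 := pow_ne_zero _ (sub_ne_zero.mpr hx0)
    apply mul_left_cancel₀ hd
    linear_combination hE1 - hE0
  have hPX : PX U Z = PX U3 Z3 := by
    rcases par_eq_or_of_tx_eq hg hTT hT3 hxx with ⟨rfl, rfl⟩ | ⟨rfl, rfl⟩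
    · rfl
    · exact PX_neg _ _
  rw [hPX] at hT
  exact sub_eq_zero.mp hT

/-- Step 2: the `y`-coordinate relation holds identically in `s`. -/
theorem step2 [IsAlgClosed Ω] (hg : Good c4 c6) (hT1 : IsT c4 c6 U1 Z1) (hT2 : IsT c4 c6 U2 Z2)
    (hT3 : IsT c4 c6 U3 Z3) (hind : ∀ k : ℤ, k • tpt c4 c6 U1 Z1 ≠ tpt c4 c6 U2 Z2)
    (hsum : tpt c4 c6 U1 Z1 + tpt c4 c6 U2 Z2 = tpt c4 c6 U3 Z3) :
    (PX U1 Z1 - PX U2 Z2) * (PY U3 Z3 + PY U1 Z1) +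
      (PY U1 Z1 - PY U2 Z2) * (PX U3 Z3 - PX U1 Z1) = 0 := by
  have h1 := step1 hg hT1 hT2 hT3 hind hsum
  have hx0 := tx_ne_of_indep hg hT1 hT2 hind
  have hE0 := ((tpt_add_iff hg hT1 hT2 hT3 hx0).mp hsum).2
  have hXne : PX U1 Z1 - PX U2 Z2 ≠ 0 := by
    intro h
    have := congrArg (eval 0) h
    rw [eval_sub, eval_zero_PX, eval_zero_PX, eval_zero] at this
    exact hx0 (sub_eq_zero.mp this)
  set k : Polynomial Ω := (PX U1 Z1 - PX U2 Z2) * (PY U3 Z3 + PY U1 Z1) +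
      (PY U1 Z1 - PY U2 Z2) * (PX U3 Z3 - PX U1 Z1) with hk
  set k' : Polynomial Ω := (PX U1 Z1 - PX U2 Z2) * (- PY U3 Z3 + PY U1 Z1) +
      (PY U1 Z1 - PY U2 Z2) * (PX U3 Z3 - PX U1 Z1) with hk'
  have hkk : k * k' = 0 := by
    refine poly_zero_of (mul_ne_zero (PD_ne_zero c4 c6) hXne) fun s hs => ?_
    rw [eval_mul, eval_PD, eval_sub, eval_PX, eval_PX] at hs
    obtain ⟨hD, hx'⟩ := mul_ne_zero_iff.mp hs
    have hx : tx (famU U1 Z1 s) (famZ U1 Z1 s) ≠ tx (famU U2 Z2 s) (famZ U2 Z2 s) :=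
      sub_ne_zero.mp hx'
    have hgs := hg.fam hD
    have hR5 : (5 : ℕ) • (tpt _ _ (famU U1 Z1 s) (famZ U1 Z1 s) +
        tpt (fam4 c4 c6 s) (fam6 c4 c6 s) (famU U2 Z2 s) (famZ U2 Z2 s)) = 0 := by
      rw [smul_add, tpt_five hgs (hT1.fam s), tpt_five hgs (hT2.fam s), add_zero]
    have hR0 : tpt _ _ (famU U1 Z1 s) (famZ U1 Z1 s) +
        tpt (fam4 c4 c6 s) (fam6 c4 c6 s) (famU U2 Z2 s) (famZ U2 Z2 s) ≠ 0 := by
      intro h
      exact hx ((tx_eq_iff hgs (hT1.fam s) (hT2.fam s)).mpr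
        (Or.inr (eq_neg_of_add_eq_zero_left h)))
    obtain ⟨U, Z, hT, hR⟩ := exists_tpt hgs _ hR0 hR5
    obtain ⟨hEa, hEb⟩ := (tpt_add_iff hgs (hT1.fam s) (hT2.fam s) hT hx).mp hR
    have h1s := congrArg (eval s) h1
    simp only [eval_sub, eval_mul, eval_pow, eval_add, eval_PX, eval_PY] at h1s
    have hxx : tx U Z = tx (famU U3 Z3 s) (famZ U3 Z3 s) := by
      have hd : (tx (famU U1 Z1 s) (famZ U1 Z1 s) - tx (famU U2 Z2 s) (famZ U2 Z2 s)) ^ 2 ≠ 0 :=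
        pow_ne_zero _ hx'
      apply mul_left_cancel₀ hd
      linear_combination hEa - h1s
    rw [eval_mul]
    rcases par_eq_or_of_tx_eq hgs hT (hT3.fam s) hxx with ⟨rfl, rfl⟩ | ⟨rfl, rfl⟩
    · have : k.eval s = 0 := by
        simp only [hk, eval_sub, eval_mul, eval_add, eval_PX, eval_PY]
        exact hEb
      rw [this, zero_mul]
    · have : k'.eval s = 0 := by
        simp only [hk', eval_sub, eval_mul, eval_add, eval_neg, eval_PX, eval_PY]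
        have e1 : ty (-famU U3 Z3 s) (-famZ U3 Z3 s) = - ty (famU U3 Z3 s) (famZ U3 Z3 s) := by
          simp only [ty]; ring
        have e2 : tx (-famU U3 Z3 s) (-famZ U3 Z3 s) = tx (famU U3 Z3 s) (famZ U3 Z3 s) := by
          simp only [tx]; ring
        rw [e1, e2] at hEb
        exact hEb
      rw [this, mul_zero]
  have hk'0 : k' ≠ 0 := by
    intro h
    have h0 := congrArg (eval 0) h
    simp only [hk', eval_sub, eval_mul, eval_add, eval_neg, eval_zero_PX, eval_zero_PY,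
      eval_zero] at h0
    have h2 : (2 : Ω) * ((tx U1 Z1 - tx U2 Z2) * ty U3 Z3) = 0 := by
      linear_combination hE0 - h0
    exact mul_ne_zero hg.h2 (mul_ne_zero (sub_ne_zero.mpr hx0) (hT3.ty_ne_zero hg)) h2
  exact (mul_eq_zero.mp hkk).resolve_right hk'0

/-- additivity on independent pairs. -/
theorem th_add_indep [IsAlgClosed Ω] (hg : Good c4 c6) {s : Ω} (hD : famD c4 c6 s ≠ 0)
    {P Q : (SW c4 c6).Point} (hP : (5 : ℕ) • P = 0) (hQ : (5 : ℕ) • Q = 0) (hP0 : P ≠ 0)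
    (hind : ∀ k : ℤ, k • P ≠ Q) :
    th c4 c6 s (P + Q) = th c4 c6 s P + th c4 c6 s Q := by
  have hgs := hg.fam hD
  have hQ0 : Q ≠ 0 := fun h => hind 0 (by rw [zero_smul, h])
  have hS0 : P + Q ≠ 0 := fun h => hind (-1) (by
    rw [neg_smul, one_smul]; exact (eq_neg_of_add_eq_zero_right h).symm)
  have hM0 : P + -Q ≠ 0 := fun h => hind 1 (by
    rw [one_smul]; exact (neg_neg Q) ▸ eq_neg_of_add_eq_zero_left h)
  have hS5 : (5 : ℕ) • (P + Q) = 0 := by rw [smul_add, hP, hQ, add_zero]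
  have hM5 : (5 : ℕ) • (P + -Q) = 0 := by rw [smul_add, smul_neg, hP, hQ, neg_zero, add_zero]
  obtain ⟨U1, Z1, hT1, rfl⟩ := exists_tpt hg P hP0 hP
  obtain ⟨U2, Z2, hT2, rfl⟩ := exists_tpt hg Q hQ0 hQ
  obtain ⟨U3, Z3, hT3, hsum⟩ := exists_tpt hg _ hS0 hS5
  obtain ⟨U4, Z4, hT4, hdif⟩ := exists_tpt hg _ hM0 hM5
  rw [tpt_neg hg hT2] at hdif
  have hind' : ∀ k : ℤ, k • tpt c4 c6 U1 Z1 ≠ tpt c4 c6 (-U2) (-Z2) := by
    intro k hk
    rw [← tpt_neg hg hT2] at hk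
    exact hind (-k) (by rw [neg_smul, hk, neg_neg])
  have a1 := congrArg (eval s) (step1 hg hT1 hT2 hT3 hind hsum)
  have a2 := congrArg (eval s) (step2 hg hT1 hT2 hT3 hind hsum)
  have a3 := congrArg (eval s) (step1 hg hT1 hT2.neg hT4 hind' hdif)
  rw [PX_neg, PY_neg] at a3
  simp only [eval_sub, eval_mul, eval_pow, eval_add, eval_neg, eval_PX, eval_PY, eval_zero]
    at a1 a2 a3
  have hx : tx (famU U1 Z1 s) (famZ U1 Z1 s) ≠ tx (famU U2 Z2 s) (famZ U2 Z2 s) := by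
    intro hx
    rw [hx, sub_self] at a1 a3
    have b1 : ty (famU U1 Z1 s) (famZ U1 Z1 s) - ty (famU U2 Z2 s) (famZ U2 Z2 s) = 0 := by
      have : (ty (famU U1 Z1 s) (famZ U1 Z1 s) - ty (famU U2 Z2 s) (famZ U2 Z2 s)) ^ 2 = 0 := by
        rw [← a1]; ring
      exact pow_eq_zero_iff (two_ne_zero) |>.mp this
    have b2 : ty (famU U1 Z1 s) (famZ U1 Z1 s) - - ty (famU U2 Z2 s) (famZ U2 Z2 s) = 0 := by
      have : (ty (famU U1 Z1 s) (famZ U1 Z1 s) - - ty (famU U2 Z2 s) (famZ U2 Z2 s)) ^ 2 = 0 := by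
        rw [← a3]; ring
      exact pow_eq_zero_iff (two_ne_zero) |>.mp this
    have b3 : (2 : Ω) * ty (famU U1 Z1 s) (famZ U1 Z1 s) = 0 := by linear_combination b1 + b2
    exact mul_ne_zero hg.h2 ((hT1.fam s).ty_ne_zero hgs) b3
  rw [hsum, th_tpt hg hT1, th_tpt hg hT2, th_tpt hg hT3]
  exact ((tpt_add_iff hgs (hT1.fam s) (hT2.fam s) (hT3.fam s) hx).mpr ⟨a1, a2⟩).symm

end Rigid

end Theta

open Theta in
theorem exists_theta {Ω : Type*} [Field Ω] [IsAlgClosed Ω] [DecidableEq Ω]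
    (h2 : (2 : Ω) ≠ 0) (h3 : (3 : Ω) ≠ 0) (h5 : (5 : Ω) ≠ 0) (c4 c6 t : Ω)
    (hΔ : c4 ^ 3 - c6 ^ 2 ≠ 0) (hD : famD c4 c6 t ≠ 0)
    (W W' : Affine Ω) (hW : W = shortW c4 c6) (hW' : W' = shortW (fam4 c4 c6 t) (fam6 c4 c6 t)) :
    ∃ θ : Submodule.torsionBy ℤ W.Point ((5 : ℕ) : ℤ) →+ W'.Point,
      ∀ (U Z : Ω) (h : W.Nonsingular (tx U Z) (ty U Z)) (hm : Point.some _ _ h ∈ Submodule.torsionBy ℤ W.Point ((5 : ℕ) : ℤ)),
        tc4 U Z = c4 → tc6 U Z = c6 →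
        ∃ h' : W'.Nonsingular (tx (famU U Z t) (famZ U Z t)) (ty (famU U Z t) (famZ U Z t)), θ ⟨Point.some _ _ h, hm⟩ = Point.some _ _ h' := by
  subst hW hW'
  have hg : Good c4 c6 := ⟨h2, h3, h5, hΔ⟩
  have hadd : ∀ v w : V5 c4 c6, th c4 c6 t (v + w : V5 c4 c6).1 =
      th c4 c6 t v.1 + th c4 c6 t w.1 := by
    refine additive_of_lines (V := V5 c4 c6) (fun v => th c4 c6 t v.1)
      (fun v => Subtype.ext (mem_V5.mp v.2)) (th_zero c4 c6 t)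
      (fun v => th_five hg hD (mem_V5.mp v.2))
      (fun v => th_neg hg hD (mem_V5.mp v.2))
      (fun v => th_double hg hD (mem_V5.mp v.2)) ?_
    intro v w hv hw
    refine th_add_indep hg hD (mem_V5.mp v.2) (mem_V5.mp w.2)
      (fun h => hv (Subtype.ext h)) ?_
    intro k hk
    exact hw (AddSubgroup.mem_zmultiples_iff.mpr ⟨k, Subtype.ext hk⟩)
  refine ⟨AddMonoidHom.mk' (fun v : V5 c4 c6 => th c4 c6 t v.1) hadd, ?_⟩
  intro U Z h hm h4 h6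
  have hT : IsT c4 c6 U Z := ⟨h4, h6⟩
  refine ⟨nonsing (hg.fam hD) (hT.fam t), ?_⟩
  rw [AddMonoidHom.mk'_apply]
  have e : (Point.some _ _ h : (SW c4 c6).Point) = tpt c4 c6 U Z := (tpt_eq hg hT).symm
  change th c4 c6 t (Point.some _ _ h) = _
  rw [e, th_tpt hg hT, tpt_eq (hg.fam hD) (hT.fam t)]

end Fermat.Agent.S52
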