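import Fermat.Agent.S52.FFCore
import Fermat.Agent.S52.CH.Export
import Fermat.Agent.S52.Tate
import Fermat.Agent.S52.Theta

/-!
# S52, package FF: the traces of Frobenius of `E` and `E_t` are congruent modulo 5
-/

set_option autoImplicit false
open WeierstrassCurve WeierstrassCurve.Affine

namespace Fermat.Agent.S52

theorem card_congr (p : ℕ) [Fact p.Prime] (hp : 7 ≤ p) (c4 c6 t : ZMod p)
    (hΔ : c4 ^ 3 - c6 ^ 2 ≠ 0) (hD : famD c4 c6 t ≠ 0) :
    (5 : ℤ) ∣ (shortW (fam4 c4 c6 t) (fam6 c4 c6 t)).traceOfFrobenius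
      - (shortW c4 c6).traceOfFrobenius := by
  classical
  obtain ⟨h2, h3, h5⟩ := ff_ne_zero p (Ω := AlgebraicClosure (RatFunc (ZMod p))) hp
  refine ff_card_congr_aux p (Ω := AlgebraicClosure (RatFunc (ZMod p))) hp c4 c6 t hΔ hD ?_ ?_ ?_
  · intro A B hAB P
    exact frob_cayley_hamilton p (by omega) A B hAB (ff_exists_transcendental p) P
  · intro c4 c6 hE W hW x y h h5'
    exact exists_tate h2 h3 c4 c6 hE W hW h h5'
  · intro c4 c6 t hE hD W W' hW hW'
    exact exists_theta h2 h3 h5 c4 c6 t hE hD W W' hW hW'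

end Fermat.Agent.S52
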