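import Fermat.Agent.S52.FamRel
import Fermat.Agent.S52.FamMap

/-!
# S52: the icosahedral family as polynomials in `t`

`famDP c4 c6 = famD (C c4) (C c6) X` etc., with evaluation, degree, derivative lemmas and the
three structural identities (`famP_rel`, `famP_bezout`, `famP_jac`).
-/

set_option autoImplicit false
set_option maxHeartbeats 4000000
set_option maxRecDepth 100000
set_option linter.unusedSimpArgs false

open Polynomial

namespace Fermat.Agent.S52

variable {R : Type*} [CommRing R]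

/-- `famD` as a polynomial in `t`. -/
noncomputable def famDP (c4 c6 : R) : R[X] := famD (C c4) (C c6) X
/-- `fam4` as a polynomial in `t`. -/
noncomputable def fam4P (c4 c6 : R) : R[X] := fam4 (C c4) (C c6) X
/-- `fam6` as a polynomial in `t`. -/
noncomputable def fam6P (c4 c6 : R) : R[X] := fam6 (C c4) (C c6) X
/-- `bezU` as a polynomial in `t`. -/
noncomputable def bezUP (c4 c6 : R) : R[X] := bezU (C c4) (C c6) X
/-- `bezV` as a polynomial in `t`. -/
noncomputable def bezVP (c4 c6 : R) : R[X] := bezV (C c4) (C c6) X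

theorem eval_famDP (c4 c6 t : R) : (famDP c4 c6).eval t = famD c4 c6 t := by
  have := map_famD (evalRingHom t) (C c4) (C c6) X
  simpa [famDP] using this

theorem eval_fam4P (c4 c6 t : R) : (fam4P c4 c6).eval t = fam4 c4 c6 t := by
  have := map_fam4 (evalRingHom t) (C c4) (C c6) X
  simpa [fam4P] using this

theorem eval_fam6P (c4 c6 t : R) : (fam6P c4 c6).eval t = fam6 c4 c6 t := by
  have := map_fam6 (evalRingHom t) (C c4) (C c6) X
  simpa [fam6P] using this

theorem map_famDP {S : Type*} [CommRing S] (φ : R →+* S) (c4 c6 : R) :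
    (famDP c4 c6).map φ = famDP (φ c4) (φ c6) := by
  have := map_famD (mapRingHom φ) (C c4) (C c6) X
  simpa [famDP] using this

theorem map_fam4P {S : Type*} [CommRing S] (φ : R →+* S) (c4 c6 : R) :
    (fam4P c4 c6).map φ = fam4P (φ c4) (φ c6) := by
  have := map_fam4 (mapRingHom φ) (C c4) (C c6) X
  simpa [fam4P] using this

theorem map_fam6P {S : Type*} [CommRing S] (φ : R →+* S) (c4 c6 : R) :
    (fam6P c4 c6).map φ = fam6P (φ c4) (φ c6) := by
  have := map_fam6 (mapRingHom φ) (C c4) (C c6) X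
  simpa [fam6P] using this

theorem famD_at_zero (c4 c6 : R) : famD c4 c6 0 = 1 := by rw [famD_eq]; simp
theorem fam4_at_zero (c4 c6 : R) : fam4 c4 c6 0 = c4 := by rw [fam4_eq]; simp
theorem fam6_at_zero (c4 c6 : R) : fam6 c4 c6 0 = c6 := by rw [fam6_eq]; simp

/-- (h1) -/
theorem famP_rel (c4 c6 : R) :
    fam4P c4 c6 ^ 3 - fam6P c4 c6 ^ 2 = C (c4 ^ 3 - c6 ^ 2) * famDP c4 c6 ^ 5 := by
  have := fam_rel (C c4) (C c6) (X : R[X])
  simpa [fam4P, fam6P, famDP] using this

/-- (h2) -/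
theorem famP_bezout (c4 c6 : R) :
    bezUP c4 c6 * fam4P c4 c6 + bezVP c4 c6 * famDP c4 c6
      = C ((bezK : R) * (c4 ^ 3 - c6 ^ 2) ^ 6) := by
  have := fam_bezout (C c4) (C c6) (X : R[X])
  simpa [fam4P, bezUP, bezVP, famDP] using this

theorem famDP_expand (c4 c6 : R) : famDP c4 c6 = C (famD_0 c4 c6) + C (famD_2 c4 c6) * X ^ 2 + C (famD_3 c4 c6) * X ^ 3 + C (famD_4 c4 c6) * X ^ 4 + C (famD_5 c4 c6) * X ^ 5 + C (famD_6 c4 c6) * X ^ 6 + C (famD_7 c4 c6) * X ^ 7 + C (famD_8 c4 c6) * X ^ 8 + C (famD_9 c4 c6) * X ^ 9 + C (famD_10 c4 c6) * X ^ 10 + C (famD_11 c4 c6) * X ^ 11 + C (famD_12 c4 c6) * X ^ 12 := by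
  simp only [famDP, famD, famD_0, famD_2, famD_3, famD_4, famD_5, famD_6, famD_7, famD_8, famD_9, famD_10, famD_11, famD_12, map_add, map_sub, map_mul, map_pow, map_neg, map_one, map_ofNat]

theorem fam4P_expand (c4 c6 : R) : fam4P c4 c6 = C (fam4_0 c4 c6) + C (fam4_1 c4 c6) * X + C (fam4_2 c4 c6) * X ^ 2 + C (fam4_3 c4 c6) * X ^ 3 + C (fam4_4 c4 c6) * X ^ 4 + C (fam4_5 c4 c6) * X ^ 5 + C (fam4_6 c4 c6) * X ^ 6 + C (fam4_7 c4 c6) * X ^ 7 + C (fam4_8 c4 c6) * X ^ 8 + C (fam4_9 c4 c6) * X ^ 9 + C (fam4_10 c4 c6) * X ^ 10 + C (fam4_11 c4 c6) * X ^ 11 + C (fam4_12 c4 c6) * X ^ 12 + C (fam4_13 c4 c6) * X ^ 13 + C (fam4_14 c4 c6) * X ^ 14 + C (fam4_15 c4 c6) * X ^ 15 + C (fam4_16 c4 c6) * X ^ 16 + C (fam4_17 c4 c6) * X ^ 17 + C (fam4_18 c4 c6) * X ^ 18 + C (fam4_19 c4 c6) * X ^ 19 + C (fam4_20 c4 c6) * X ^ 20 := by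
  simp only [fam4P, fam4, fam4_0, fam4_1, fam4_2, fam4_3, fam4_4, fam4_5, fam4_6, fam4_7, fam4_8, fam4_9, fam4_10, fam4_11, fam4_12, fam4_13, fam4_14, fam4_15, fam4_16, fam4_17, fam4_18, fam4_19, fam4_20, map_add, map_sub, map_mul, map_pow, map_neg, map_one, map_ofNat]

theorem fam6P_expand (c4 c6 : R) : fam6P c4 c6 = C (fam6_0 c4 c6) + C (fam6_1 c4 c6) * X + C (fam6_2 c4 c6) * X ^ 2 + C (fam6_3 c4 c6) * X ^ 3 + C (fam6_4 c4 c6) * X ^ 4 + C (fam6_5 c4 c6) * X ^ 5 + C (fam6_6 c4 c6) * X ^ 6 + C (fam6_7 c4 c6) * X ^ 7 + C (fam6_8 c4 c6) * X ^ 8 + C (fam6_9 c4 c6) * X ^ 9 + C (fam6_10 c4 c6) * X ^ 10 + C (fam6_11 c4 c6) * X ^ 11 + C (fam6_12 c4 c6) * X ^ 12 + C (fam6_13 c4 c6) * X ^ 13 + C (fam6_14 c4 c6) * X ^ 14 + C (fam6_15 c4 c6) * X ^ 15 + C (fam6_16 c4 c6) * X ^ 16 + C (fam6_17 c4 c6) * X ^ 17 + C (fam6_18 c4 c6) * X ^ 18 + C (fam6_19 c4 c6) * X ^ 19 + C (fam6_20 c4 c6) * X ^ 20 + C (fam6_21 c4 c6) * X ^ 21 + C (fam6_22 c4 c6) * X ^ 22 + C (fam6_23 c4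 c6) * X ^ 23 + C (fam6_24 c4 c6) * X ^ 24 + C (fam6_25 c4 c6) * X ^ 25 + C (fam6_26 c4 c6) * X ^ 26 + C (fam6_27 c4 c6) * X ^ 27 + C (fam6_28 c4 c6) * X ^ 28 + C (fam6_29 c4 c6) * X ^ 29 + C (fam6_30 c4 c6) * X ^ 30 := by
  simp only [fam6P, fam6, fam6_0, fam6_1, fam6_2, fam6_3, fam6_4, fam6_5, fam6_6, fam6_7, fam6_8, fam6_9, fam6_10, fam6_11, fam6_12, fam6_13, fam6_14, fam6_15, fam6_16, fam6_17, fam6_18, fam6_19, fam6_20, fam6_21, fam6_22, fam6_23, fam6_24, fam6_25, fam6_26, fam6_27, fam6_28, fam6_29, fam6_30, map_add, map_sub, map_mul, map_pow, map_neg, map_one, map_ofNat]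

theorem natDegree_famDP_le (c4 c6 : R) : (famDP c4 c6).natDegree ≤ 12 := by
  rw [famDP_expand]; compute_degree

theorem natDegree_fam4P_le (c4 c6 : R) : (fam4P c4 c6).natDegree ≤ 20 := by
  rw [fam4P_expand]; compute_degree

theorem natDegree_fam6P_le (c4 c6 : R) : (fam6P c4 c6).natDegree ≤ 30 := by
  rw [fam6P_expand]; compute_degree

theorem coeff_famDP_12 (c4 c6 : R) : (famDP c4 c6).coeff 12 = famD_12 c4 c6 := by
  rw [famDP_expand]; simp [coeff_C, coeff_X_pow]

theorem coeff_famDP_11 (c4 c6 : R) : (famDP c4 c6).coeff 11 = famD_11 c4 c6 := by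
  rw [famDP_expand]; simp [coeff_C, coeff_X_pow]

theorem derivative_famDP (c4 c6 : R) : derivative (famDP c4 c6) = famDd (C c4) (C c6) X := by
  rw [famDP_expand]
  have h0 : famD_0 (C c4) (C c6) = C (famD_0 c4 c6) := by
    simp only [famD_0, map_add, map_sub, map_mul, map_pow, map_neg, map_one, map_ofNat]
  have h2 : famD_2 (C c4) (C c6) = C (famD_2 c4 c6) := by
    simp only [famD_2, map_add, map_sub, map_mul, map_pow, map_neg, map_one, map_ofNat]
  have h3 : famD_3 (C c4) (C c6) = C (famD_3 c4 c6) := by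
    simp only [famD_3, map_add, map_sub, map_mul, map_pow, map_neg, map_one, map_ofNat]
  have h4 : famD_4 (C c4) (C c6) = C (famD_4 c4 c6) := by
    simp only [famD_4, map_add, map_sub, map_mul, map_pow, map_neg, map_one, map_ofNat]
  have h5 : famD_5 (C c4) (C c6) = C (famD_5 c4 c6) := by
    simp only [famD_5, map_add, map_sub, map_mul, map_pow, map_neg, map_one, map_ofNat]
  have h6 : famD_6 (C c4) (C c6) = C (famD_6 c4 c6) := by
    simp only [famD_6, map_add, map_sub, map_mul, map_pow, map_neg, map_one, map_ofNat]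
  have h7 : famD_7 (C c4) (C c6) = C (famD_7 c4 c6) := by
    simp only [famD_7, map_add, map_sub, map_mul, map_pow, map_neg, map_one, map_ofNat]
  have h8 : famD_8 (C c4) (C c6) = C (famD_8 c4 c6) := by
    simp only [famD_8, map_add, map_sub, map_mul, map_pow, map_neg, map_one, map_ofNat]
  have h9 : famD_9 (C c4) (C c6) = C (famD_9 c4 c6) := by
    simp only [famD_9, map_add, map_sub, map_mul, map_pow, map_neg, map_one, map_ofNat]
  have h10 : famD_10 (C c4) (C c6) = C (famD_10 c4 c6) := by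
    simp only [famD_10, map_add, map_sub, map_mul, map_pow, map_neg, map_one, map_ofNat]
  have h11 : famD_11 (C c4) (C c6) = C (famD_11 c4 c6) := by
    simp only [famD_11, map_add, map_sub, map_mul, map_pow, map_neg, map_one, map_ofNat]
  have h12 : famD_12 (C c4) (C c6) = C (famD_12 c4 c6) := by
    simp only [famD_12, map_add, map_sub, map_mul, map_pow, map_neg, map_one, map_ofNat]
  simp only [famDd, h0, h2, h3, h4, h5, h6, h7, h8, h9, h10, h11, h12, derivative_add, derivative_mul, derivative_C, derivative_X_pow, derivative_X, Nat.cast_ofNat, map_ofNat]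
  ring

theorem derivative_fam4P (c4 c6 : R) : derivative (fam4P c4 c6) = fam4d (C c4) (C c6) X := by
  rw [fam4P_expand]
  have h0 : fam4_0 (C c4) (C c6) = C (fam4_0 c4 c6) := by
    simp only [fam4_0, map_add, map_sub, map_mul, map_pow, map_neg, map_one, map_ofNat]
  have h1 : fam4_1 (C c4) (C c6) = C (fam4_1 c4 c6) := by
    simp only [fam4_1, map_add, map_sub, map_mul, map_pow, map_neg, map_one, map_ofNat]
  have h2 : fam4_2 (C c4) (C c6) = C (fam4_2 c4 c6) := by
    simp only [fam4_2, map_add, map_sub, map_mul, map_pow, map_neg, map_one, map_ofNat]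
  have h3 : fam4_3 (C c4) (C c6) = C (fam4_3 c4 c6) := by
    simp only [fam4_3, map_add, map_sub, map_mul, map_pow, map_neg, map_one, map_ofNat]
  have h4 : fam4_4 (C c4) (C c6) = C (fam4_4 c4 c6) := by
    simp only [fam4_4, map_add, map_sub, map_mul, map_pow, map_neg, map_one, map_ofNat]
  have h5 : fam4_5 (C c4) (C c6) = C (fam4_5 c4 c6) := by
    simp only [fam4_5, map_add, map_sub, map_mul, map_pow, map_neg, map_one, map_ofNat]
  have h6 : fam4_6 (C c4) (C c6) = C (fam4_6 c4 c6) := by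
    simp only [fam4_6, map_add, map_sub, map_mul, map_pow, map_neg, map_one, map_ofNat]
  have h7 : fam4_7 (C c4) (C c6) = C (fam4_7 c4 c6) := by
    simp only [fam4_7, map_add, map_sub, map_mul, map_pow, map_neg, map_one, map_ofNat]
  have h8 : fam4_8 (C c4) (C c6) = C (fam4_8 c4 c6) := by
    simp only [fam4_8, map_add, map_sub, map_mul, map_pow, map_neg, map_one, map_ofNat]
  have h9 : fam4_9 (C c4) (C c6) = C (fam4_9 c4 c6) := by
    simp only [fam4_9, map_add, map_sub, map_mul, map_pow, map_neg, map_one, map_ofNat]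
  have h10 : fam4_10 (C c4) (C c6) = C (fam4_10 c4 c6) := by
    simp only [fam4_10, map_add, map_sub, map_mul, map_pow, map_neg, map_one, map_ofNat]
  have h11 : fam4_11 (C c4) (C c6) = C (fam4_11 c4 c6) := by
    simp only [fam4_11, map_add, map_sub, map_mul, map_pow, map_neg, map_one, map_ofNat]
  have h12 : fam4_12 (C c4) (C c6) = C (fam4_12 c4 c6) := by
    simp only [fam4_12, map_add, map_sub, map_mul, map_pow, map_neg, map_one, map_ofNat]
  have h13 : fam4_13 (C c4) (C c6) = C (fam4_13 c4 c6) := by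
    simp only [fam4_13, map_add, map_sub, map_mul, map_pow, map_neg, map_one, map_ofNat]
  have h14 : fam4_14 (C c4) (C c6) = C (fam4_14 c4 c6) := by
    simp only [fam4_14, map_add, map_sub, map_mul, map_pow, map_neg, map_one, map_ofNat]
  have h15 : fam4_15 (C c4) (C c6) = C (fam4_15 c4 c6) := by
    simp only [fam4_15, map_add, map_sub, map_mul, map_pow, map_neg, map_one, map_ofNat]
  have h16 : fam4_16 (C c4) (C c6) = C (fam4_16 c4 c6) := by
    simp only [fam4_16, map_add, map_sub, map_mul, map_pow, map_neg, map_one, map_ofNat]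
  have h17 : fam4_17 (C c4) (C c6) = C (fam4_17 c4 c6) := by
    simp only [fam4_17, map_add, map_sub, map_mul, map_pow, map_neg, map_one, map_ofNat]
  have h18 : fam4_18 (C c4) (C c6) = C (fam4_18 c4 c6) := by
    simp only [fam4_18, map_add, map_sub, map_mul, map_pow, map_neg, map_one, map_ofNat]
  have h19 : fam4_19 (C c4) (C c6) = C (fam4_19 c4 c6) := by
    simp only [fam4_19, map_add, map_sub, map_mul, map_pow, map_neg, map_one, map_ofNat]
  have h20 : fam4_20 (C c4) (C c6) = C (fam4_20 c4 c6) := by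
    simp only [fam4_20, map_add, map_sub, map_mul, map_pow, map_neg, map_one, map_ofNat]
  simp only [fam4d, h0, h1, h2, h3, h4, h5, h6, h7, h8, h9, h10, h11, h12, h13, h14, h15, h16, h17, h18, h19, h20, derivative_add, derivative_mul, derivative_C, derivative_X_pow, derivative_X, Nat.cast_ofNat, map_ofNat]
  ring

/-- (h3) -/
theorem famP_jac (c4 c6 : R) :
    3 * famDP c4 c6 * derivative (fam4P c4 c6) - 5 * fam4P c4 c6 * derivative (famDP c4 c6)
      = 60 * fam6P c4 c6 := by
  rw [derivative_famDP, derivative_fam4P]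
  exact (fam_jac (C c4) (C c6) (X : R[X])).symm

/-- the two top coefficients of `famD` do not vanish simultaneously. -/
theorem famD_top_ne_zero [IsDomain R] [CharZero R] (c4 c6 : R) (hE : c4 ^ 3 - c6 ^ 2 ≠ 0) :
    famD_11 c4 c6 ≠ 0 ∨ famD_12 c4 c6 ≠ 0 := by
  by_contra hcon
  push Not at hcon
  obtain ⟨h11, h12⟩ := hcon
  simp only [famD_11, famD_12] at h11 h12
  have h11' : c4 * (c6 * (513 * c4 ^ 3 - 512 * c6 ^ 2)) = 0 := by
    have h120 : (120 : R) ≠ 0 := by norm_num
    apply mul_left_cancel₀ h120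
    linear_combination -h11
  rcases mul_eq_zero.mp h11' with h | h
  · subst h
    have : c6 ^ 4 = 0 := by
      have hc : (102400 : R) ≠ 0 := by norm_num
      apply mul_left_cancel₀ hc
      linear_combination h12
    have h6 : c6 = 0 := by simpa using this
    exact hE (by rw [h6]; ring)
  rcases mul_eq_zero.mp h with h | h
  · subst h
    have : c4 ^ 6 = 0 := by
      have hc : (91125 : R) ≠ 0 := by norm_num
      apply mul_left_cancel₀ hc
      linear_combination h12
    have h4 : c4 = 0 := by simpa using this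
    exact hE (by rw [h4]; ring)
  · have : c4 ^ 6 = 0 := by
      have hc : (2985984 : R) ≠ 0 := by norm_num
      apply mul_left_cancel₀ hc
      linear_combination 262144 * h12 + (193536 * 512 * c4 ^ 3 - 102400 * (513 * c4 ^ 3 + 512 * c6 ^ 2)) * (-h)
    have h4 : c4 = 0 := by simpa using this
    rw [h4] at h
    have h6 : c6 ^ 2 = 0 := by
      have hc : (512 : R) ≠ 0 := by norm_num
      apply mul_left_cancel₀ hc
      linear_combination -h
    exact hE (by rw [h4, h6]; ring)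

/-- (h4) -/
theorem natDegree_famDP_ge [IsDomain R] [CharZero R] (c4 c6 : R) (hE : c4 ^ 3 - c6 ^ 2 ≠ 0) :
    11 ≤ (famDP c4 c6).natDegree := by
  rcases famD_top_ne_zero c4 c6 hE with h | h
  · exact le_natDegree_of_ne_zero (by rw [coeff_famDP_11]; exact h)
  · exact le_trans (by norm_num : 11 ≤ 12) (le_natDegree_of_ne_zero (by rw [coeff_famDP_12]; exact h))

end Fermat.Agent.S52
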