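import Fermat.Agent.S52.Step
import Fermat.Agent.S52.Bridge
import Fermat.Agent.S52.FF
import Fermat.Agent.S52.FamPoly
import Fermat.Agent.S52.Irred.Main
import Fermat.Agent.S52.Irred.Glue

/-!
# S52: final assembly of the 3-5 switch
-/

set_option autoImplicit false
open WeierstrassCurve WeierstrassCurve.Affine Polynomial

namespace Fermat.Agent.S52

theorem step_ap (W : WeierstrassCurve ℤ) (hΔ : W.Δ ≠ 0) (s : ℤ) (hs : 30 * W.Δ ∣ s)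
    (ℓ : ℕ) (hℓ : ℓ.Prime) (h1 : W.IsGoodPrimeFor ℓ) (h2 : (stepW W s).IsGoodPrimeFor ℓ)
    (h5 : ℓ ≠ 5) : (5 : ℤ) ∣ ((stepW W s).apOfModel ℓ - W.apOfModel ℓ) :=
  step_ap_of (fun p _ hp => card_congr p hp) (fun p _ hp => trace_short p hp) W hΔ s hs ℓ hℓ h1 h2 h5

/-- in every progression `M ℤ` there is a parameter for which the 3-division quartic of the member
of the family has no integer root. -/
theorem exists_param (W : WeierstrassCurve ℤ) (hΔ : W.Δ ≠ 0) (M : ℤ) (hM : M ≠ 0) :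
    ∃ t : ℤ, M ∣ t ∧ ∀ u : ℤ, irrPhi (fam4 W.c₄ W.c₆ t) (fam6 W.c₄ W.c₆ t) u ≠ 0 := by
  have hE : W.c₄ ^ 3 - W.c₆ ^ 2 ≠ 0 := by
    rw [← W.c_relation]; exact mul_ne_zero (by norm_num) hΔ
  obtain ⟨t, ht, h⟩ := irr_main (fam4P W.c₄ W.c₆) (fam6P W.c₄ W.c₆) (famDP W.c₄ W.c₆)
    (bezUP W.c₄ W.c₆) (bezVP W.c₄ W.c₆) W.Δ ((bezK : ℤ) * (W.c₄ ^ 3 - W.c₆ ^ 2) ^ 6) 3 5 60 hΔ
    (mul_ne_zero (by norm_num [bezK]) (pow_ne_zero _ hE)) (by norm_num)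
    (by rw [famP_rel, W.c_relation]) (famP_bezout _ _)
    (by
      have := famP_jac W.c₄ W.c₆
      simpa using this)
    (natDegree_fam4P_le _ _) (le_trans (by norm_num) (natDegree_famDP_ge _ _ hE))
    (by rw [eval_famDP, famD_at_zero]) M hM
  refine ⟨t, ht, ?_⟩
  simpa only [eval_fam4P, eval_fam6P] using h

theorem main (W : WeierstrassCurve ℤ) (hΔ : W.Δ ≠ 0) (hW : W.IsSemistableModel) :
    ∃ W' : WeierstrassCurve ℤ, W'.Δ ≠ 0 ∧ W'.IsSemistableModel ∧ W'.ModRepIsIrreducible 3 ∧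
      ∀ ℓ : ℕ, ℓ.Prime → W.IsGoodPrimeFor ℓ → W'.IsGoodPrimeFor ℓ → ℓ ≠ 5 →
        (5 : ℤ) ∣ (W'.apOfModel ℓ - W.apOfModel ℓ) := by
  obtain ⟨t, ⟨n, rfl⟩, ht⟩ := exists_param W hΔ (1728 * (30 * W.Δ)) (by simpa using hΔ)
  set s : ℤ := 30 * W.Δ * n with hs
  have hts : 1728 * (30 * W.Δ) * n = 1728 * s := by rw [hs]; ring
  rw [hts] at ht
  have hsd : 30 * W.Δ ∣ s := ⟨n, rfl⟩
  refine ⟨stepW W s, step_Δ_ne_zero W hΔ s hsd, step_semistable W hΔ hW s hsd,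
    irr_modRep_three _ (step_Δ_ne_zero W hΔ s hsd) ?_, ?_⟩
  · rw [step_c₄ W s, step_c₆ W s]; exact ht
  · intro ℓ hℓ hg hg' h5
    exact step_ap W hΔ s hsd ℓ hℓ hg hg' h5

end Fermat.Agent.S52
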