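import Fermat.Agent.S52.RFDefs

/-!
# S52 RF1: basic facts on the degree of a rational function
-/

set_option autoImplicit false

namespace Fermat.Agent.S52

variable {k : Type*} [Field k]

theorem rdeg_div_of_isCoprime (a b : Polynomial k) (hb : b ≠ 0) (hab : IsCoprime a b) :
    rdeg (algebraMap (Polynomial k) (RatFunc k) a / algebraMap (Polynomial k) (RatFunc k) b) =
      max a.natDegree b.natDegree := by
  set x : RatFunc k :=
    algebraMap (Polynomial k) (RatFunc k) a / algebraMap (Polynomial k) (RatFunc k) b with hx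
  have h1 : x.num ∣ a := RatFunc.num_div_dvd a hb
  have h2 : x.denom ∣ b := RatFunc.denom_div_dvd a b
  have h3 : x.num * b = a * x.denom := (RatFunc.num_mul_eq_mul_denom_iff hb).mpr hx
  have h4 : a ∣ x.num := hab.dvd_of_dvd_mul_right (Dvd.intro _ h3.symm)
  have h5 : b ∣ x.denom := hab.symm.dvd_of_dvd_mul_left (Dvd.intro_left _ h3)
  have h6 : x.num.natDegree = a.natDegree :=
    Polynomial.natDegree_eq_of_degree_eq
      (Polynomial.degree_eq_degree_of_associated (associated_of_dvd_dvd h1 h4))
  have h7 : x.denom.natDegree = b.natDegree :=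
    Polynomial.natDegree_eq_of_degree_eq
      (Polynomial.degree_eq_degree_of_associated (associated_of_dvd_dvd h2 h5))
  rw [rdeg, h6, h7]

theorem rdeg_eq_zero_iff (u : RatFunc k) : rdeg u = 0 ↔ ∃ c : k, u = RatFunc.C c := by
  rw [RatFunc.eq_C_iff, rdeg, Nat.max_eq_zero_iff]

theorem exists_subst (u : RatFunc k) (hu : ¬ ∃ c : k, u = RatFunc.C c) :
    ∃ σ : RatFunc k →ₐ[k] RatFunc k, σ RatFunc.X = u := by
  have htr : Transcendental k u := RatFunc.transcendental_of_ne_C u hu
  refine ⟨(IntermediateField.val _).comp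
    (RatFunc.algEquivOfTranscendental u htr).toAlgHom, ?_⟩
  simp

end Fermat.Agent.S52
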