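import Fermat.Agent.S52.RFDefs

/-!
# S52 RF2: the degree of a rational function is multiplicative under substitution
-/

set_option autoImplicit false

namespace Fermat.Agent.S52

open IntermediateField

theorem rdeg_eq_finrank {k : Type*} [Field k] (r : RatFunc k) :
    rdeg r = Module.finrank k⟮r⟯ (RatFunc k) :=
  (RatFunc.finrank_eq_max_natDegree r).symm

theorem rdeg_algHom {k : Type*} [Field k] (σ : RatFunc k →ₐ[k] RatFunc k) (r : RatFunc k) :
    rdeg (σ r) = rdeg r * rdeg (σ RatFunc.X) := by
  have h1 : (k⟮r⟯).map σ = k⟮σ r⟯ := by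
    rw [IntermediateField.adjoin_map, Set.image_singleton]
  have h2 : (⊤ : IntermediateField k (RatFunc k)).map σ = k⟮σ RatFunc.X⟯ := by
    rw [← RatFunc.adjoin_X, IntermediateField.adjoin_map, Set.image_singleton]
  have hle : k⟮σ r⟯ ≤ k⟮σ RatFunc.X⟯ := by
    rw [← h1, ← h2]
    exact IntermediateField.map_mono σ le_top
  rw [rdeg_eq_finrank, rdeg_eq_finrank, rdeg_eq_finrank,
    ← IntermediateField.relfinrank_mul_finrank_top hle, ← h1, ← h2,
    IntermediateField.relfinrank_map_map, IntermediateField.relfinrank_top_right]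

end Fermat.Agent.S52
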