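import Fermat.Agent.S52.Defs2
import Fermat.Agent.S52.FamRel
import Fermat.Agent.S52.FamMap
import Fermat.Agent.S51.Five

/-!
# S52 (FF), core: the traces of Frobenius of `E` and `E_t` are congruent modulo `5`

Assembly of Cayley-Hamilton for Frobenius (CH), the Tate normal form (TATE) and the additive
isomorphism `θ : E[5] → E_t[5]` (THETA).  In this file the three inputs are hypotheses
(`FFInputCH`, `FFInputTate`, `FFInputTheta`), so that it does not depend on their proofs;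
`FF.lean` plugs them in.
-/

set_option autoImplicit false
open WeierstrassCurve WeierstrassCurve.Affine

namespace Fermat.Agent.S52

theorem ff_five_dvd_of_zsmul_eq_zero {G : Type*} [AddCommGroup G] {X : G} (hX : X ≠ 0)
    (h5 : (5 : ℤ) • X = 0) {n : ℤ} (hn : n • X = 0) : (5 : ℤ) ∣ n := by
  by_contra h
  have hp5 : Prime (5 : ℤ) := by norm_num
  obtain ⟨u, v, huv⟩ : IsCoprime (5 : ℤ) n := hp5.coprime_iff_not_dvd.2 h
  apply hX
  have h0 : (u * 5 + v * n) • X = 0 := by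
    rw [add_smul, mul_smul, mul_smul, h5, hn, smul_zero, smul_zero, add_zero]
  rwa [huv, one_smul] at h0

theorem ff_shortW_Δ {R : Type*} [CommRing R] (c4 c6 : R) :
    (shortW c4 c6).Δ = 2 ^ 6 * 3 ^ 9 * (c4 ^ 3 - c6 ^ 2) := by
  simp only [shortW, sw, WeierstrassCurve.Δ, WeierstrassCurve.b₂, WeierstrassCurve.b₄,
    WeierstrassCurve.b₆, WeierstrassCurve.b₈]
  ring

theorem ff_some_congr {F : Type*} [Field F] {W : Affine F} {x y x' y' : F} (hx : x = x')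
    (hy : y = y') (h : W.Nonsingular x y) :
    ∃ h' : W.Nonsingular x' y', Point.some x y h = Point.some x' y' h' := by
  subst hx hy
  exact ⟨h, rfl⟩

/-- input (CH): Cayley-Hamilton for Frobenius on the `Ω`-points, up to 2-torsion. -/
def FFInputCH (p : ℕ) [Fact p.Prime] (Ω : Type*) [Field Ω] [DecidableEq Ω] [Algebra (ZMod p) Ω] :
    Prop :=
  ∀ (A B : ZMod p), 4 * A ^ 3 + 27 * B ^ 2 ≠ 0 → ∀ P : ((sw A B)⁄Ω).Point,
    (2 : ℤ) • (frobPt p (sw A B) (frobPt p (sw A B) P)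
      - (sw A B).traceOfFrobenius • frobPt p (sw A B) P + (p : ℤ) • P) = 0

/-- input (TATE): every point of order 5 is the distinguished point of a Tate normal form. -/
def FFInputTate (Ω : Type*) [Field Ω] [DecidableEq Ω] : Prop :=
  ∀ (c4 c6 : Ω), c4 ^ 3 - c6 ^ 2 ≠ 0 → ∀ (W : Affine Ω), W = shortW c4 c6 → ∀ {x y : Ω}
    (h : W.Nonsingular x y), (5 : ℕ) • Point.some x y h = 0 →
    ∃ U Z : Ω, tc4 U Z = c4 ∧ tc6 U Z = c6 ∧ x = tx U Z ∧ y = ty U Z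

/-- input (THETA): the additive map `E[5] → E_t[5]`. -/
def FFInputTheta (Ω : Type*) [Field Ω] [DecidableEq Ω] : Prop :=
  ∀ (c4 c6 t : Ω), c4 ^ 3 - c6 ^ 2 ≠ 0 → famD c4 c6 t ≠ 0 →
    ∀ (W W' : Affine Ω), W = shortW c4 c6 → W' = shortW (fam4 c4 c6 t) (fam6 c4 c6 t) →
    ∃ θ : Submodule.torsionBy ℤ W.Point ((5 : ℕ) : ℤ) →+ W'.Point,
      ∀ (U Z : Ω) (h : W.Nonsingular (tx U Z) (ty U Z))
        (hm : Point.some _ _ h ∈ Submodule.torsionBy ℤ W.Point ((5 : ℕ) : ℤ)),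
        tc4 U Z = c4 → tc6 U Z = c6 →
        ∃ h' : W'.Nonsingular (tx (famU U Z t) (famZ U Z t)) (ty (famU U Z t) (famZ U Z t)),
          θ ⟨Point.some _ _ h, hm⟩ = Point.some _ _ h'

section aux

variable (p : ℕ) [Fact p.Prime] {Ω : Type*} [Field Ω] [Algebra (ZMod p) Ω]

theorem ff_algebraMap_pow (c : ZMod p) :
    (algebraMap (ZMod p) Ω c) ^ p = algebraMap (ZMod p) Ω c := by
  rw [← map_pow, ZMod.pow_card]

theorem ff_tx_pow (U Z : Ω) : tx U Z ^ p = tx (U ^ p) (Z ^ p) :=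
  map_tx (frobAlg p Ω).toRingHom U Z

theorem ff_ty_pow (U Z : Ω) : ty U Z ^ p = ty (U ^ p) (Z ^ p) :=
  map_ty (frobAlg p Ω).toRingHom U Z

theorem ff_tc4_pow (U Z : Ω) : tc4 U Z ^ p = tc4 (U ^ p) (Z ^ p) :=
  map_tc4 (frobAlg p Ω).toRingHom U Z

theorem ff_tc6_pow (U Z : Ω) : tc6 U Z ^ p = tc6 (U ^ p) (Z ^ p) :=
  map_tc6 (frobAlg p Ω).toRingHom U Z

theorem ff_famU_pow (U Z t : Ω) : famU U Z t ^ p = famU (U ^ p) (Z ^ p) (t ^ p) :=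
  map_famU (frobAlg p Ω).toRingHom U Z t

theorem ff_famZ_pow (U Z t : Ω) : famZ U Z t ^ p = famZ (U ^ p) (Z ^ p) (t ^ p) :=
  map_famZ (frobAlg p Ω).toRingHom U Z t

variable [DecidableEq Ω]

theorem ff_frobPt_tate (V : WeierstrassCurve (ZMod p)) (U Z : Ω)
    (h : (V⁄Ω).toAffine.Nonsingular (tx U Z) (ty U Z)) :
    ∃ h' : (V⁄Ω).toAffine.Nonsingular (tx (U ^ p) (Z ^ p)) (ty (U ^ p) (Z ^ p)),
      frobPt p V (Point.some _ _ h) = Point.some _ _ h' := by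
  obtain ⟨h1, e1⟩ := frobPt_some p V h
  obtain ⟨h2, e2⟩ := ff_some_congr (ff_tx_pow p U Z) (ff_ty_pow p U Z) h1
  exact ⟨h2, e1.trans e2⟩

theorem ff_ne_zero_zmod (hp : 7 ≤ p) : (2 : ZMod p) ≠ 0 ∧ (3 : ZMod p) ≠ 0 ∧ (5 : ZMod p) ≠ 0 := by
  have hn : ∀ n : ℕ, 0 < n → n < p → (n : ZMod p) ≠ 0 := fun n h0 h1 h => by
    rw [ZMod.natCast_eq_zero_iff] at h
    exact absurd (Nat.le_of_dvd h0 h) (not_le.2 h1)
  exact ⟨by exact_mod_cast hn 2 (by norm_num) (by omega),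
    by exact_mod_cast hn 3 (by norm_num) (by omega), by exact_mod_cast hn 5 (by norm_num) (by omega)⟩

theorem ff_CH (hp : 7 ≤ p) (c4 c6 : ZMod p) (hΔ : c4 ^ 3 - c6 ^ 2 ≠ 0)
    (hΩ : FFInputCH p Ω) (P : ((shortW c4 c6)⁄Ω).toAffine.Point) :
    (2 : ℤ) • (frobPt p (shortW c4 c6) (frobPt p (shortW c4 c6) P)
      - (shortW c4 c6).traceOfFrobenius • frobPt p (shortW c4 c6) P + (p : ℤ) • P) = 0 := by
  obtain ⟨h2, h3, -⟩ := ff_ne_zero_zmod p hp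
  have h : 4 * (-27 * c4) ^ 3 + 27 * (-54 * c6) ^ 2 ≠ 0 := by
    have e : 4 * (-27 * c4) ^ 3 + 27 * (-54 * c6) ^ 2 = -(2 ^ 2 * 3 ^ 9 * (c4 ^ 3 - c6 ^ 2)) := by
      ring
    rw [e]
    exact neg_ne_zero.2 (mul_ne_zero (mul_ne_zero (pow_ne_zero _ h2) (pow_ne_zero _ h3)) hΔ)
  exact hΩ (-27 * c4) (-54 * c6) h P

omit [DecidableEq Ω] in
theorem ff_ne_zero (hp : 7 ≤ p) : (2 : Ω) ≠ 0 ∧ (3 : Ω) ≠ 0 ∧ (5 : Ω) ≠ 0 := by
  obtain ⟨h2', h3', h5'⟩ := ff_ne_zero_zmod p hp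
  have hφi : Function.Injective (algebraMap (ZMod p) Ω) := (algebraMap (ZMod p) Ω).injective
  refine ⟨?_, ?_, ?_⟩
  · have := (map_ne_zero_iff _ hφi).2 h2'
    rwa [map_ofNat] at this
  · have := (map_ne_zero_iff _ hφi).2 h3'
    rwa [map_ofNat] at this
  · have := (map_ne_zero_iff _ hφi).2 h5'
    rwa [map_ofNat] at this

theorem ff_card_congr_aux [IsAlgClosed Ω] (hp : 7 ≤ p) (c4 c6 t : ZMod p)
    (hΔ : c4 ^ 3 - c6 ^ 2 ≠ 0) (hD : famD c4 c6 t ≠ 0)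
    (hΩ : FFInputCH p Ω) (hTate : FFInputTate Ω) (hTheta : FFInputTheta Ω) :
    (5 : ℤ) ∣ (shortW (fam4 c4 c6 t) (fam6 c4 c6 t)).traceOfFrobenius -
      (shortW c4 c6).traceOfFrobenius := by
  obtain ⟨h2, h3, h5⟩ := ff_ne_zero p (Ω := Ω) hp
  have hφi : Function.Injective (algebraMap (ZMod p) Ω) := (algebraMap (ZMod p) Ω).injective
  generalize hφ : algebraMap (ZMod p) Ω = φ at hφi
  have hpow : ∀ c : ZMod p, φ c ^ p = φ c := fun c => by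
    rw [← hφ]; exact ff_algebraMap_pow p c
  have hΔ' : fam4 c4 c6 t ^ 3 - fam6 c4 c6 t ^ 2 ≠ 0 := by
    rw [fam_rel]
    exact mul_ne_zero hΔ (pow_ne_zero _ hD)
  have hW : ((shortW c4 c6)⁄Ω).toAffine = shortW (φ c4) (φ c6) := by
    rw [← hφ]; exact map_shortW _ c4 c6
  have hW' : ((shortW (fam4 c4 c6 t) (fam6 c4 c6 t))⁄Ω).toAffine =
      shortW (fam4 (φ c4) (φ c6) (φ t)) (fam6 (φ c4) (φ c6) (φ t)) := by
    rw [← map_fam4, ← map_fam6, ← hφ]; exact map_shortW _ _ _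
  have hΔΩ : φ c4 ^ 3 - φ c6 ^ 2 ≠ 0 := by
    rw [← map_pow, ← map_pow, ← map_sub]
    exact (map_ne_zero_iff φ hφi).2 hΔ
  have hDΩ : famD (φ c4) (φ c6) (φ t) ≠ 0 := by
    rw [← map_famD]
    exact (map_ne_zero_iff φ hφi).2 hD
  have hΔW : ((shortW c4 c6)⁄Ω).toAffine.Δ ≠ 0 := by
    rw [hW, ff_shortW_Δ]
    exact mul_ne_zero (mul_ne_zero (pow_ne_zero _ h2) (pow_ne_zero _ h3)) hΔΩ
  obtain ⟨θ, hθ⟩ := hTheta (φ c4) (φ c6) (φ t) hΔΩ hDΩ _ _ hW hW'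
  -- notation
  set F := frobPt p (Ω := Ω) (shortW c4 c6) with hF
  set F' := frobPt p (Ω := Ω) (shortW (fam4 c4 c6 t) (fam6 c4 c6 t)) with hF'
  -- Frobenius preserves the 5-torsion
  have hFm : ∀ Q : ((shortW c4 c6)⁄Ω).toAffine.Point,
      Q ∈ Submodule.torsionBy ℤ ((shortW c4 c6)⁄Ω).toAffine.Point ((5 : ℕ) : ℤ) →
      F Q ∈ Submodule.torsionBy ℤ ((shortW c4 c6)⁄Ω).toAffine.Point ((5 : ℕ) : ℤ) := by
    intro Q hQ
    rw [Submodule.mem_torsionBy_iff] at hQ ⊢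
    rw [← map_zsmul, hQ, map_zero]
  -- θ commutes with Frobenius on Tate points
  have comm : ∀ (U Z : Ω) (h : ((shortW c4 c6)⁄Ω).toAffine.Nonsingular (tx U Z) (ty U Z))
      (hm : Point.some _ _ h ∈
        Submodule.torsionBy ℤ ((shortW c4 c6)⁄Ω).toAffine.Point ((5 : ℕ) : ℤ)),
      tc4 U Z = φ c4 → tc6 U Z = φ c6 →
      θ ⟨F (Point.some _ _ h), hFm _ hm⟩ = F' (θ ⟨Point.some _ _ h, hm⟩) := by
    intro U Z h hm h4 h6
    obtain ⟨h1, e1⟩ := ff_frobPt_tate p (shortW c4 c6) U Z h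
    have hm1 : Point.some _ _ h1 ∈
        Submodule.torsionBy ℤ ((shortW c4 c6)⁄Ω).toAffine.Point ((5 : ℕ) : ℤ) := by
      rw [← e1]; exact hFm _ hm
    have e2 : (⟨F (Point.some _ _ h), hFm _ hm⟩ :
        Submodule.torsionBy ℤ ((shortW c4 c6)⁄Ω).toAffine.Point ((5 : ℕ) : ℤ)) =
        ⟨Point.some _ _ h1, hm1⟩ := Subtype.ext e1
    obtain ⟨h3, e3⟩ := hθ U Z h hm h4 h6
    obtain ⟨h4', e4⟩ := hθ (U ^ p) (Z ^ p) h1 hm1 (by rw [← ff_tc4_pow, h4, hpow])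
      (by rw [← ff_tc6_pow, h6, hpow])
    obtain ⟨h5', e5⟩ := ff_frobPt_tate p (shortW (fam4 c4 c6 t) (fam6 c4 c6 t)) _ _ h3
    rw [e2, e4, e3, hF', e5]
    have eU : famU U Z (φ t) ^ p = famU (U ^ p) (Z ^ p) (φ t) := by
      rw [ff_famU_pow, hpow]
    have eZ : famZ U Z (φ t) ^ p = famZ (U ^ p) (Z ^ p) (φ t) := by
      rw [ff_famZ_pow, hpow]
    simp only [eU, eZ]
  -- a nonzero point of order 5
  have := Fermat.Agent.S51.nontrivial_five_torsion (W := ((shortW c4 c6)⁄Ω).toAffine) hΔW h5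
  obtain ⟨⟨P, hP⟩, hP0⟩ :=
    exists_ne (0 : Submodule.torsionBy ℤ ((shortW c4 c6)⁄Ω).toAffine.Point ((5 : ℕ) : ℤ))
  have hP0' : P ≠ 0 := fun h => hP0 (Subtype.ext h)
  rcases P with _ | ⟨x, y, h⟩
  · exact absurd rfl hP0'
  have h5P : (5 : ℕ) • Point.some x y h = 0 := by
    have := (Submodule.mem_torsionBy_iff _ _).1 hP
    rwa [natCast_zsmul] at this
  obtain ⟨U, Z, h4, h6, rfl, rfl⟩ := hTate (φ c4) (φ c6) hΔΩ _ hW h h5P
  -- `θ` commutes with `F` at `P` and at `F P`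
  obtain ⟨h1, e1⟩ := ff_frobPt_tate p (shortW c4 c6) U Z h
  have hm1 : Point.some _ _ h1 ∈
      Submodule.torsionBy ℤ ((shortW c4 c6)⁄Ω).toAffine.Point ((5 : ℕ) : ℤ) := by
    rw [← e1]; exact hFm _ hP
  have c1 := comm U Z h hP h4 h6
  have c2 := comm (U ^ p) (Z ^ p) h1 hm1 (by rw [← ff_tc4_pow, h4, hpow])
    (by rw [← ff_tc6_pow, h6, hpow])
  obtain ⟨hQ, eQ⟩ := hθ U Z h hP h4 h6
  generalize hPP : Point.some _ _ h = P at *
  generalize hQQ : θ ⟨P, hP⟩ = Q at *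
  have c3 : θ ⟨F (F P), hFm _ (hFm _ hP)⟩ = F' (F' Q) := by
    rw [← c1]
    have e2 : (⟨F (F P), hFm _ (hFm _ hP)⟩ :
        Submodule.torsionBy ℤ ((shortW c4 c6)⁄Ω).toAffine.Point ((5 : ℕ) : ℤ)) =
        ⟨F (Point.some _ _ h1), hFm _ hm1⟩ := Subtype.ext (congrArg F e1)
    have e3 : (⟨F P, hFm _ hP⟩ :
        Submodule.torsionBy ℤ ((shortW c4 c6)⁄Ω).toAffine.Point ((5 : ℕ) : ℤ)) =
        ⟨Point.some _ _ h1, hm1⟩ := Subtype.ext e1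
    rw [e2, e3, c2]
  -- Cayley-Hamilton on `E`, inside the 5-torsion
  have hCH := ff_CH p hp c4 c6 hΔ hΩ P
  have hCH' := ff_CH p hp _ _ hΔ' hΩ Q
  rw [← hF] at hCH
  rw [← hF'] at hCH'
  generalize (shortW c4 c6).traceOfFrobenius = a at *
  generalize (shortW (fam4 c4 c6 t) (fam6 c4 c6 t)).traceOfFrobenius = a' at *
  have hR : (⟨F (F P), hFm _ (hFm _ hP)⟩ - a • ⟨F P, hFm _ hP⟩ + (p : ℤ) • ⟨P, hP⟩ :
      Submodule.torsionBy ℤ ((shortW c4 c6)⁄Ω).toAffine.Point ((5 : ℕ) : ℤ)) = 0 := by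
    have hR2 : (2 : ℤ) • (⟨F (F P), hFm _ (hFm _ hP)⟩ - a • ⟨F P, hFm _ hP⟩ + (p : ℤ) • ⟨P, hP⟩ :
        Submodule.torsionBy ℤ ((shortW c4 c6)⁄Ω).toAffine.Point ((5 : ℕ) : ℤ)) = 0 :=
      Subtype.ext hCH
    generalize (⟨F (F P), hFm _ (hFm _ hP)⟩ - a • ⟨F P, hFm _ hP⟩ + (p : ℤ) • ⟨P, hP⟩ :
      Submodule.torsionBy ℤ ((shortW c4 c6)⁄Ω).toAffine.Point ((5 : ℕ) : ℤ)) = R at hR2
    have hR5 : (((5 : ℕ) : ℤ)) • R = 0 := Submodule.smul_torsionBy _ R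
    have e : R = (((5 : ℕ) : ℤ)) • R - (2 : ℤ) • ((2 : ℤ) • R) := by
      rw [smul_smul, ← sub_smul]
      norm_num
    rw [e, hR5, hR2, smul_zero, sub_zero]
  have hθR := congrArg θ hR
  rw [map_zero, map_add, map_sub, map_zsmul, map_zsmul, c3, c1, hQQ] at hθR
  -- compare with Cayley-Hamilton on `E_t`
  have e1' : F' (F' Q) - a' • F' Q + (p : ℤ) • Q = (a - a') • F' Q := by
    have : F' (F' Q) - a' • F' Q + (p : ℤ) • Q =
        (F' (F' Q) - a • F' Q + (p : ℤ) • Q) + (a • F' Q - a' • F' Q) := by abel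
    rw [this, hθR, zero_add, ← sub_smul]
  rw [e1', smul_smul] at hCH'
  have hQ0 : F' Q ≠ 0 := by
    intro h0
    have : Q = 0 := frobPt_injective p _ (h0.trans (map_zero F').symm)
    rw [eQ] at this
    exact Point.some_ne_zero _ this
  have hQ5 : (5 : ℤ) • F' Q = 0 := by
    rw [← map_zsmul, ← hQQ, ← map_zsmul]
    have : ((5 : ℤ)) • (⟨P, hP⟩ :
        Submodule.torsionBy ℤ ((shortW c4 c6)⁄Ω).toAffine.Point ((5 : ℕ) : ℤ)) = 0 :=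
      Submodule.smul_torsionBy _ _
    rw [this, map_zero, map_zero]
  have hdvd := ff_five_dvd_of_zsmul_eq_zero hQ0 hQ5 hCH'
  have hp5 : Prime (5 : ℤ) := by norm_num
  rcases hp5.dvd_or_dvd hdvd with h | h
  · norm_num at h
  · have := (dvd_neg (a := (5 : ℤ))).2 h
    rwa [neg_sub] at this

end aux

theorem ff_exists_transcendental (p : ℕ) [Fact p.Prime] :
    ∃ x : AlgebraicClosure (RatFunc (ZMod p)), Transcendental (ZMod p) x := by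
  refine ⟨algebraMap (RatFunc (ZMod p)) _ RatFunc.X, ?_⟩
  rw [transcendental_algebraMap_iff (algebraMap (RatFunc (ZMod p)) _).injective]
  exact RatFunc.transcendental_X

end Fermat.Agent.S52
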