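import Mathlib
import Fermat.Prelude.Def_FLTPrelim_ModularRep
import Fermat.Agent.S52.Defs
import Fermat.Agent.S51.Core

/-!
# S52 (IRR): no rational root of `psi3s` implies that the mod 3 representation is irreducible
-/

set_option autoImplicit false
open WeierstrassCurve WeierstrassCurve.Affine WeierstrassCurve.Affine.Point

namespace Fermat.Agent.S52

/-- The 3-division polynomial in terms of `c₄, c₆` after the substitution `X = 36 x + 3 b₂`. -/
theorem psi3s_eq_psi3X (E : WeierstrassCurve ℚ) (x : ℚ) :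
    psi3s E.c₄ E.c₆ (36 * x + 3 * E.b₂) = 559872 * Fermat.Agent.S51.psi3X E x := by
  simp only [psi3s, Fermat.Agent.S51.psi3X, WeierstrassCurve.c₄, WeierstrassCurve.c₆,
    WeierstrassCurve.b₂, WeierstrassCurve.b₄, WeierstrassCurve.b₆, WeierstrassCurve.b₈]
  ring

local notation "Qb" => AlgebraicClosure ℚ

/-- If `E[3]` is reducible then the 3-division polynomial has a rational root. -/
theorem exists_root_psi3X_of_reducible (E : WeierstrassCurve ℚ) (hΔ : E.Δ ≠ 0)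
    (h3 : ¬ GaloisRepIsIrreducible (K := Qb) ℚ E 3) :
    ∃ r : ℚ, Fermat.Agent.S51.psi3X E r = 0 := by
  have hVΔ : (E⁄Qb).Δ ≠ 0 := by
    rw [Fermat.Agent.S51.Δ_baseChange]; exact (map_ne_zero _).2 hΔ
  have hK3 : (3 : Qb) ≠ 0 := by norm_num
  have : Fact (Nat.Prime 3) := ⟨Nat.prime_three⟩
  obtain ⟨N3, hN3s, hN3b, hN3t⟩ :=
    Fermat.Agent.S51.exists_stable_line E 3 (Fermat.Agent.S51.nontrivial_three_torsion hVΔ hK3) h3
  obtain ⟨hfin3, hcard3⟩ := Fermat.Agent.S51.finite_card_three_torsion_le (W := E⁄Qb) hK3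
  obtain ⟨T, hT0, hT3, hTσ⟩ := Fermat.Agent.S51.exists_smul_eq_nsmul E 3 hfin3
    (by simpa using hcard3) N3 hN3s hN3b hN3t
  have hxTfix : ∀ σ : Qb ≃ₐ[ℚ] Qb, σ (Fermat.Agent.S51.xc T) = Fermat.Agent.S51.xc T := by
    intro σ
    obtain ⟨k, hk, hk0⟩ := hTσ σ
    rw [← Fermat.Agent.S51.xc_smul, hk, Fermat.Agent.S51.xc_nsmul_three T hT3 k hk0]
  obtain ⟨rT, hrT⟩ := Fermat.Agent.S51.exists_rat_of_fixed _ hxTfix
  rcases T with _ | ⟨xT, yT, hT⟩
  · exact absurd rfl hT0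
  obtain ⟨hpsiT, -⟩ := Fermat.Agent.S51.three_torsion_rel hT hT3
  simp only [Fermat.Agent.S51.xc_some] at hrT
  refine ⟨rT, (algebraMap ℚ Qb).injective ?_⟩
  rw [← Fermat.Agent.S51.psi3X_baseChange, hrT, hpsiT, _root_.map_zero]

theorem irreducible_three_of_no_root (W : WeierstrassCurve ℤ) (hΔ : W.Δ ≠ 0)
    (h : ∀ x : ℚ, psi3s (W.c₄ : ℚ) (W.c₆ : ℚ) x ≠ 0) : W.ModRepIsIrreducible 3 := by
  by_contra hcon
  have hΔQ : (W.map (Int.castRingHom ℚ)).Δ ≠ 0 := by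
    rw [WeierstrassCurve.map_Δ]
    simpa using hΔ
  obtain ⟨r, hr⟩ := exists_root_psi3X_of_reducible (W.map (Int.castRingHom ℚ)) hΔQ hcon
  have key := psi3s_eq_psi3X (W.map (Int.castRingHom ℚ)) r
  rw [hr, mul_zero, WeierstrassCurve.map_c₄, WeierstrassCurve.map_c₆] at key
  exact h _ (by simpa using key)

end Fermat.Agent.S52
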