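import Fermat.Agent.S52.Defs

/-!
# S52: the valuation identity `J2`

On a root `x` of the 3-division polynomial `psi3s c4 c6`, with `g = cub c4 c6 x` (`= y ^ 2`) and
`E = c4 ^ 3 - c6 ^ 2`:  `186624 c4^3 g^6 = (g^2 + 2916 E) (g^2 + 26244 E)^3`.
Also the nodal factorisations of `psi3s` and `cub` when `E = 0`.
-/

set_option autoImplicit false
set_option maxHeartbeats 1000000

namespace Fermat.Agent.S52

variable {R : Type*} [CommRing R]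

/-- cofactor in `j2_identity`. -/
def j2cof (c4 c6 x : R) : R :=
  216905884017408 * c4 ^ 10 + 24100653779712 * c4 ^ 9 * x ^ 2 + 96402615118848 * c4 ^ 8 * c6 * x - 4797815335776 * c4 ^ 8 * x ^ 4 - 578415690713088 * c4 ^ 7 * c6 ^ 2 - 13389252099840 * c4 ^ 7 * c6 * x ^ 3 + 353327485968 * c4 ^ 7 * x ^ 6 - 53557008399360 * c4 ^ 6 * c6 ^ 2 * x ^ 2 + 1165360830912 * c4 ^ 6 * c6 * x ^ 5 - 18581834565 * c4 ^ 6 * x ^ 8 - 192805230237696 * c4 ^ 5 * c6 ^ 3 * x + 8479859663232 * c4 ^ 5 * c6 ^ 2 * x ^ 4 - 72318491280 * c4 ^ 5 * c6 * x ^ 7 + 774840978 * c4 ^ 5 * x ^ 10 + 514147280633856 * c4 ^ 4 * c6 ^ 4 + 9521245937664 * c4 ^ 4 * c6 ^ 3 * x ^ 3 - 297538935552 * c4 ^ 4 * c6 ^ 2 * x ^ 6 + 2971818072 * c4 ^ 4 * c6 * x ^ 9 - 24505335 * c4 ^ 4 * x ^ 12 - 7140934453248 * c4 ^ 3 * c6 ^ 4 * x ^ 2 + 413248521600 * c4 ^ 3 * c6 ^ 3 *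 x ^ 5 - 90699264 * c4 ^ 3 * c6 * x ^ 11 + 603612 * c4 ^ 3 * x ^ 14 + 57127475625984 * c4 ^ 2 * c6 ^ 5 * x - 1487694677760 * c4 ^ 2 * c6 ^ 4 * x ^ 4 - 36120981888 * c4 ^ 2 * c6 ^ 3 * x ^ 7 + 215410752 * c4 ^ 2 * c6 ^ 2 * x ^ 10 + 2204496 * c4 ^ 2 * c6 * x ^ 13 - 11907 * c4 ^ 2 * x ^ 16 - 171382426877952 * c4 * c6 ^ 6 - 3967185807360 * c4 * c6 ^ 5 * x ^ 3 + 66119763456 * c4 * c6 ^ 4 * x ^ 6 + 884317824 * c4 * c6 ^ 3 * x ^ 9 - 5038848 * c4 * c6 ^ 2 * x ^ 12 - 34992 * c4 * c6 * x ^ 15 + 162 * c4 * x ^ 18 + 6347497291776 * c6 ^ 6 * x ^ 2 + 58773123072 * c6 ^ 5 * x ^ 5 - 952342272 * c6 ^ 4 * x ^ 8 - 7558272 * c6 ^ 3 * x ^ 11 + 46656 * c6 ^ 2 * x ^ 14 + 216 * c6 * x ^ 17 - x ^ 20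

theorem j2_identity (c4 c6 x : R) :
    186624 * c4 ^ 3 * cub c4 c6 x ^ 6
      - (cub c4 c6 x ^ 2 + 2916 * (c4 ^ 3 - c6 ^ 2)) * (cub c4 c6 x ^ 2 + 26244 * (c4 ^ 3 - c6 ^ 2)) ^ 3
      = j2cof c4 c6 x * psi3s c4 c6 x := by
  simp only [cub, psi3s, j2cof]
  ring

theorem j2_of_root (c4 c6 x : R) (h : psi3s c4 c6 x = 0) :
    186624 * c4 ^ 3 * cub c4 c6 x ^ 6
      = (cub c4 c6 x ^ 2 + 2916 * (c4 ^ 3 - c6 ^ 2))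
        * (cub c4 c6 x ^ 2 + 26244 * (c4 ^ 3 - c6 ^ 2)) ^ 3 := by
  have := j2_identity c4 c6 x
  rw [h, mul_zero] at this
  exact sub_eq_zero.mp this

/-- nodal factorisation of `psi3s`, cleared of denominators (`e = -3 c6 / c4`):
`c4^4 psi3s = (c4 x + 3 c6)^3 (c4 x - 9 c6) + (c4^3 - c6^2) * (...)`. -/
theorem psi3s_nodal (c4 c6 x : R) :
    c4 ^ 4 * psi3s c4 c6 x = (c4 * x + 3 * c6) ^ 3 * (c4 * x - 9 * c6)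
      - (c4 ^ 3 - c6 ^ 2) * (54 * c4 ^ 2 * x ^ 2 + 216 * c4 * c6 * x + 243 * c4 ^ 3 + 243 * c6 ^ 2) := by
  simp only [psi3s]
  ring

/-- nodal factorisation of `cub`, cleared of denominators. -/
theorem cub_nodal (c4 c6 x : R) :
    c4 ^ 3 * cub c4 c6 x = (c4 * x + 3 * c6) ^ 2 * (c4 * x - 6 * c6)
      - (c4 ^ 3 - c6 ^ 2) * (27 * c4 * x + 54 * c6) := by
  simp only [cub]
  ring

/-- derivative of `psi3s` in `x` is `4 * cub`. -/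
theorem psi3s_taylor (c4 c6 x h : R) :
    psi3s c4 c6 (x + h) = psi3s c4 c6 x + 4 * cub c4 c6 x * h
      + h ^ 2 * (6 * x ^ 2 + 4 * x * h + h ^ 2 - 54 * c4) := by
  simp only [psi3s, cub]
  ring

end Fermat.Agent.S52
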