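import Mathlib

/-!
# S52: the polynomial core of Manin's lemma `deg x(Frob η - η) = #E(F_q)`
-/

set_option autoImplicit false

namespace Fermat.Agent.S52.ManinCore

open Polynomial

variable {k : Type*} [Field k] [Fintype k]

theorem X_pow_card_sub_X_eq_prod : (X ^ Fintype.card k - X : k[X]) = ∏ c : k, (X - C c) := by
  have hq : 1 < Fintype.card k := Fintype.one_lt_card
  have hmonic : (X ^ Fintype.card k - X : k[X]).Monic := by
    apply monic_X_pow_sub
    rw [degree_X]
    exact_mod_cast hq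
  have h := FiniteField.roots_X_pow_card_sub_X k
  have h2 := Polynomial.prod_multiset_X_sub_C_of_monic_of_roots_card_eq hmonic (by
    rw [h, FiniteField.X_pow_card_sub_X_natDegree_eq k hq]; simp)
  rw [← h2, h]
  rfl

/-- number of square roots -/
noncomputable def cnt (a : k) : ℕ := Nat.card {y : k // y ^ 2 = a}

theorem card_odd (h2 : (2 : k) ≠ 0) : Fintype.card k % 2 = 1 := by
  apply FiniteField.odd_card_of_char_ne_two
  intro h
  apply h2
  have := ringChar.Nat.cast_ringChar (R := k)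
  rw [h] at this
  exact_mod_cast this

theorem cnt_cases (h2 : (2 : k) ≠ 0) (a : k) :
    (a = 0 ∧ cnt a = 1) ∨ (a ≠ 0 ∧ a ^ ((Fintype.card k - 1) / 2) = 1 ∧ cnt a = 2) ∨
      (a ≠ 0 ∧ a ^ ((Fintype.card k - 1) / 2) = -1 ∧ cnt a = 0) := by
  classical
  have hF : ringChar k ≠ 2 := by
    intro h
    apply h2
    have := ringChar.Nat.cast_ringChar (R := k)
    rw [h] at this
    exact_mod_cast this
  have hodd := card_odd h2
  have hdiv : (Fintype.card k - 1) / 2 = Fintype.card k / 2 := by omega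
  have h1 := quadraticChar_card_sqrts hF a
  have h3 := quadraticChar_eq_pow_of_char_ne_two' hF a
  have hc : cnt a = ({x : k | x ^ 2 = a}.toFinset).card := by
    unfold cnt
    rw [Nat.card_eq_fintype_card, Set.toFinset_card]
    rfl
  rw [hdiv, ← h3, hc]
  by_cases ha : a = 0
  · left
    refine ⟨ha, ?_⟩
    rw [quadraticChar_eq_zero_iff.2 ha] at h1
    exact_mod_cast h1
  · right
    rcases quadraticChar_dichotomy ha with h | h
    · left
      rw [h] at h1 ⊢
      refine ⟨ha, by simp, ?_⟩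
      exact_mod_cast h1
    · right
      rw [h] at h1 ⊢
      refine ⟨ha, by simp, ?_⟩
      simpa using h1

variable (A B : k)

/-- `f = X^3 + A X + B` -/
noncomputable def fP : k[X] := X ^ 3 + C A * X + C B

omit [Fintype k] in
theorem fP_eval (c : k) : (fP A B).eval c = c ^ 3 + A * c + B := by simp [fP]

/-- `f^((q-1)/2) + 1` -/
noncomputable def hP : k[X] := fP A B ^ ((Fintype.card k - 1) / 2) + 1

/-- the numerator -/
noncomputable def num0 : k[X] :=
  fP A B * hP A B ^ 2 - (X ^ Fintype.card k + X) * (X ^ Fintype.card k - X) ^ 2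

/-- number of points above `c` -/
noncomputable def ex (c : k) : ℕ := cnt ((fP A B).eval c)

variable {A B}

theorem ex_le_two (h2 : (2 : k) ≠ 0) (c : k) : ex A B c ≤ 2 := by
  unfold ex
  rcases cnt_cases h2 ((fP A B).eval c) with h | h | h
  · omega
  · omega
  · omega

variable (A B)

/-- the gcd -/
noncomputable def GP : k[X] := ∏ c : k, (X - C c) ^ (2 - ex A B c)

/-- the reduced denominator -/
noncomputable def D1 : k[X] := ∏ c : k, (X - C c) ^ (ex A B c)

variable {A B}

theorem den_eq (h2 : (2 : k) ≠ 0) : (X ^ Fintype.card k - X : k[X]) ^ 2 = GP A B * D1 A B := by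
  rw [X_pow_card_sub_X_eq_prod, ← Finset.prod_pow, GP, D1, ← Finset.prod_mul_distrib]
  refine Finset.prod_congr rfl fun c _ => ?_
  rw [← pow_add]
  congr 1
  have := ex_le_two (A := A) (B := B) h2 c
  omega

theorem fP_pow_card :
    fP A B ^ Fintype.card k = X ^ (3 * Fintype.card k) + C A * X ^ Fintype.card k + C B := by
  rw [← FiniteField.expand_card, fP]
  simp only [map_add, map_mul, map_pow, expand_X, expand_C]
  rw [← pow_mul, mul_comm 3]

theorem num0_eq (h2 : (2 : k) ≠ 0) :
    num0 A B = X ^ (2 * Fintype.card k + 1) + (X ^ (Fintype.card k + 2) - X ^ 3 +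
      C A * X ^ Fintype.card k + C B + 2 * fP A B ^ ((Fintype.card k - 1) / 2 + 1) + fP A B) := by
  have hodd := card_odd h2
  have h1 : fP A B * hP A B ^ 2 = fP A B ^ Fintype.card k +
      2 * fP A B ^ ((Fintype.card k - 1) / 2 + 1) + fP A B := by
    obtain ⟨m, hm⟩ : ∃ m, (Fintype.card k - 1) / 2 = m := ⟨_, rfl⟩
    have hq : Fintype.card k = 2 * m + 1 := by omega
    unfold hP
    rw [hm, hq]
    ring
  unfold num0
  rw [h1, fP_pow_card]
  ring

theorem num0_natDegree (h2 : (2 : k) ≠ 0) : (num0 A B).natDegree = 2 * Fintype.card k + 1 := by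
  have hodd := card_odd h2
  have hq : 1 < Fintype.card k := Fintype.one_lt_card
  rw [num0_eq h2, natDegree_add_eq_left_of_natDegree_lt, natDegree_X_pow]
  rw [natDegree_X_pow]
  apply Nat.lt_succ_of_le
  unfold fP
  compute_degree
  all_goals omega

theorem X_sub_C_dvd_card (c : k) : (X - C c) ∣ (X ^ Fintype.card k - X : k[X]) := by
  rw [dvd_iff_isRoot, IsRoot.def]
  simp [FiniteField.pow_card]

theorem hP_eval (c : k) :
    (hP A B).eval c = ((fP A B).eval c) ^ ((Fintype.card k - 1) / 2) + 1 := by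
  simp [hP]

theorem GP_dvd_num0 (h2 : (2 : k) ≠ 0) : GP A B ∣ num0 A B := by
  apply Finset.prod_dvd_of_coprime
  · intro c _ d _ hcd
    exact IsCoprime.pow (pairwise_coprime_X_sub_C (Function.injective_id) hcd)
  · intro c _
    have hd : (X - C c) ^ 2 ∣ (X ^ Fintype.card k + X) * (X ^ Fintype.card k - X : k[X]) ^ 2 :=
      Dvd.dvd.mul_left (pow_dvd_pow_of_dvd (X_sub_C_dvd_card c) 2) _
    unfold num0
    unfold ex
    rcases cnt_cases h2 ((fP A B).eval c) with ⟨h, h'⟩ | ⟨h, h1, h'⟩ | ⟨h, h1, h'⟩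
    · rw [h']
      apply dvd_sub
      · apply Dvd.dvd.mul_right
        rw [pow_one, dvd_iff_isRoot]
        exact h
      · exact (pow_dvd_pow _ (by norm_num)).trans hd
    · rw [h']
      simp
    · rw [h']
      apply dvd_sub _ hd
      apply Dvd.dvd.mul_left
      apply pow_dvd_pow_of_dvd
      rw [dvd_iff_isRoot, IsRoot.def, hP_eval, h1]
      ring

omit [Fintype k] in
theorem isCoprime_of_eval_ne_zero (p : k[X]) (c : k) (h : p.eval c ≠ 0) :
    IsCoprime p (X - C c) := by
  apply IsCoprime.symm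
  rw [(irreducible_X_sub_C c).coprime_iff_not_dvd, dvd_iff_isRoot]
  exact h

omit [Fintype k] in
theorem not_sq_dvd_fP (hΔ : 4 * A ^ 3 + 27 * B ^ 2 ≠ 0) (c : k) :
    ¬ (X - C c) ^ 2 ∣ fP A B := by
  intro hd
  have h0 : (fP A B).eval c = 0 := by
    have : (X - C c) ∣ fP A B := (dvd_pow_self _ (by norm_num)).trans hd
    exact dvd_iff_isRoot.1 this
  have hfac : fP A B = (X - C c) * (X ^ 2 + C c * X + C (c ^ 2 + A)) := by
    have h1 : fP A B = fP A B - C ((fP A B).eval c) := by rw [h0]; simp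
    rw [h1, fP_eval, fP]
    simp only [map_add, map_mul, map_pow]
    ring
  rw [hfac, pow_two, mul_dvd_mul_iff_left (X_sub_C_ne_zero c), dvd_iff_isRoot, IsRoot.def] at hd
  simp only [eval_add, eval_mul, eval_pow, eval_X, eval_C] at hd
  rw [fP_eval] at h0
  apply hΔ
  have hA : A = -3 * c ^ 2 := by linear_combination hd
  have hB : B = 2 * c ^ 3 := by rw [hA] at h0; linear_combination h0
  rw [hA, hB]
  ring

theorem num0_eval (c : k) : (num0 A B).eval c = (fP A B).eval c * ((hP A B).eval c) ^ 2 := by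
  simp [num0, FiniteField.pow_card]

theorem coprime_aux (h2 : (2 : k) ≠ 0) (hΔ : 4 * A ^ 3 + 27 * B ^ 2 ≠ 0) (N1 : k[X])
    (hN1 : num0 A B = GP A B * N1) : IsCoprime N1 (D1 A B) := by
  have hq : 1 < Fintype.card k := Fintype.one_lt_card
  have hodd := card_odd h2
  apply IsCoprime.prod_right
  intro c _
  have hex : ex A B c = cnt ((fP A B).eval c) := rfl
  rcases cnt_cases h2 ((fP A B).eval c) with ⟨h, h'⟩ | ⟨h, h1, h'⟩ | ⟨h, h1, h'⟩
  · apply IsCoprime.pow_right
    apply isCoprime_of_eval_ne_zero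
    intro h0
    apply not_sq_dvd_fP hΔ c
    have ht1 : (X - C c) ∣ N1 := dvd_iff_isRoot.2 h0
    have ht2 : (X - C c) ∣ GP A B := by
      have := Finset.dvd_prod_of_mem (fun c : k => (X - C c) ^ (2 - ex A B c)) (Finset.mem_univ c)
      simpa [hex, h', GP] using this
    have ht3 : (X - C c) ^ 2 ∣ num0 A B := by
      rw [hN1, pow_two]
      exact mul_dvd_mul ht2 ht1
    have hd : (X - C c) ^ 2 ∣ (X ^ Fintype.card k + X) * (X ^ Fintype.card k - X : k[X]) ^ 2 :=
      Dvd.dvd.mul_left (pow_dvd_pow_of_dvd (X_sub_C_dvd_card c) 2) _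
    have ht4 : (X - C c) ^ 2 ∣ fP A B * hP A B ^ 2 := by
      have := dvd_add ht3 hd
      simpa [num0] using this
    refine IsCoprime.dvd_of_dvd_mul_right ?_ ht4
    apply IsCoprime.pow
    apply IsCoprime.symm
    apply isCoprime_of_eval_ne_zero
    rw [hP_eval, h, zero_pow (by omega), zero_add]
    exact one_ne_zero
  · apply IsCoprime.pow_right
    apply isCoprime_of_eval_ne_zero
    intro h0
    have := num0_eval (A := A) (B := B) c
    rw [hN1, eval_mul, h0, mul_zero, hP_eval, h1] at this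
    have h4 : (1 + 1 : k) ^ 2 ≠ 0 := by
      rw [one_add_one_eq_two]; exact pow_ne_zero _ h2
    exact (mul_ne_zero h h4) this.symm
  · rw [hex, h', pow_zero]
    exact isCoprime_one_right

theorem GP_natDegree : (GP A B).natDegree = ∑ c : k, (2 - ex A B c) := by
  unfold GP
  rw [natDegree_prod_of_monic _ _ (fun c _ => (monic_X_sub_C c).pow _)]
  refine Finset.sum_congr rfl fun c _ => ?_
  rw [natDegree_pow, natDegree_X_sub_C, mul_one]

theorem D1_natDegree : (D1 A B).natDegree = ∑ c : k, ex A B c := by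
  unfold D1
  rw [natDegree_prod_of_monic _ _ (fun c _ => (monic_X_sub_C c).pow _)]
  refine Finset.sum_congr rfl fun c _ => ?_
  rw [natDegree_pow, natDegree_X_sub_C, mul_one]

theorem sum_ex (h2 : (2 : k) ≠ 0) :
    ∑ c : k, (2 - ex A B c) + ∑ c : k, ex A B c = 2 * Fintype.card k := by
  rw [← Finset.sum_add_distrib]
  rw [Finset.sum_congr rfl (fun c _ => Nat.sub_add_cancel (ex_le_two (A := A) (B := B) h2 c))]
  simp [mul_comm]

theorem card_point (h2 : (2 : k) ≠ 0) (hΔ : 4 * A ^ 3 + 27 * B ^ 2 ≠ 0) :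
    Nat.card (⟨0, 0, 0, A, B⟩ : WeierstrassCurve k).toAffine.Point = 1 + ∑ c : k, ex A B c := by
  set W : WeierstrassCurve k := ⟨0, 0, 0, A, B⟩ with hW
  have hWΔ : W.Δ ≠ 0 := by
    have : W.Δ = -(2 ^ 4) * (4 * A ^ 3 + 27 * B ^ 2) := by
      simp only [hW, WeierstrassCurve.Δ, WeierstrassCurve.b₂, WeierstrassCurve.b₄,
        WeierstrassCurve.b₆, WeierstrassCurve.b₈]
      ring
    rw [this]
    exact mul_ne_zero (neg_ne_zero.2 (pow_ne_zero _ h2)) hΔ
  have e1 := WeierstrassCurve.Affine.nonsingularPointEquiv W.toAffine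
  have e2 : {xy : k × k // W.toAffine.Nonsingular xy.1 xy.2} ≃
      Σ c : k, {y : k // y ^ 2 = (fP A B).eval c} :=
    (Equiv.subtypeProdEquivSigmaSubtype (fun x y => W.toAffine.Nonsingular x y)).trans
      (Equiv.sigmaCongrRight fun c => Equiv.subtypeEquivRight fun y => by
        rw [← WeierstrassCurve.Affine.equation_iff_nonsingular_of_Δ_ne_zero hWΔ,
          WeierstrassCurve.Affine.equation_iff, fP_eval]
        simp [hW])
  rw [Nat.card_congr e1]
  have : Nat.card (WithZero {xy : k × k // W.toAffine.Nonsingular xy.1 xy.2}) =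
      Nat.card {xy : k × k // W.toAffine.Nonsingular xy.1 xy.2} + 1 := Finite.card_option
  rw [this, Nat.card_congr e2, Nat.card_sigma, add_comm]
  rfl

/-- the polynomial core of Manin's lemma. -/
theorem core (h2 : (2 : k) ≠ 0) (A B : k) (hΔ : 4 * A ^ 3 + 27 * B ^ 2 ≠ 0) :
    ∃ G N1 D1 : k[X],
      (X ^ 3 + C A * X + C B) * ((X ^ 3 + C A * X + C B) ^ ((Fintype.card k - 1) / 2) + 1) ^ 2 -
        (X ^ Fintype.card k + X) * (X ^ Fintype.card k - X) ^ 2 = G * N1 ∧
      (X ^ Fintype.card k - X) ^ 2 = G * D1 ∧ G ≠ 0 ∧ D1 ≠ 0 ∧ IsCoprime N1 D1 ∧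
      N1.natDegree = Nat.card (⟨0, 0, 0, A, B⟩ : WeierstrassCurve k).toAffine.Point ∧
      D1.natDegree < N1.natDegree := by
  obtain ⟨N1, hN1⟩ := GP_dvd_num0 (A := A) (B := B) h2
  have hG : GP A B ≠ 0 := (monic_prod_of_monic _ _ (fun c _ => (monic_X_sub_C c).pow _)).ne_zero
  have hD : ManinCore.D1 A B ≠ 0 :=
    (monic_prod_of_monic _ _ (fun c _ => (monic_X_sub_C c).pow _)).ne_zero
  have hnum : num0 A B ≠ 0 := by
    intro h
    have := num0_natDegree (A := A) (B := B) h2
    rw [h] at this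
    simp at this
  have hN1' : N1 ≠ 0 := by
    rintro rfl
    exact hnum (by rw [hN1, mul_zero])
  have hdeg : N1.natDegree = 1 + ∑ c : k, ex A B c := by
    have h1 := num0_natDegree (A := A) (B := B) h2
    rw [hN1, natDegree_mul hG hN1', GP_natDegree] at h1
    have h3 := sum_ex (A := A) (B := B) h2
    omega
  refine ⟨GP A B, N1, ManinCore.D1 A B, hN1, den_eq h2, hG, hD, coprime_aux h2 hΔ N1 hN1, ?_, ?_⟩
  · rw [hdeg, card_point h2 hΔ]
  · rw [hdeg, D1_natDegree]
    omega

end Fermat.Agent.S52.ManinCore
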