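import Fermat.Agent.S52.RFDefs

/-!
# S52, package RF3: the exact parallelogram law for degrees of rational functions
-/

set_option autoImplicit false

namespace Fermat.Agent.S52

open Polynomial

namespace RF3

section forms

variable {R : Type*} [CommRing R]

/-- first coordinate of the add-sub map for `y² = x³ + A x + B`. -/
def phi0 (A B s t u : R) : R := (s - A * u) ^ 2 - 4 * B * t * u
/-- second coordinate of the add-sub map. -/
def phi1 (A B s t u : R) : R := 2 * (s + A * u) * t + 4 * B * u ^ 2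
/-- third coordinate of the add-sub map. -/
def phi2 (s t u : R) : R := t ^ 2 - 4 * s * u

theorem cert0 (A B s t u b2 b4 b6 b8 : R) (h2 : b2 = 0) (h4 : b4 = 2 * A) (h6 : b6 = 4 * B)
    (h8 : b8 = - A ^ 2) :
   ((-b2 ^ 2 * b8 + 9 * b2 * b4 * b6 - 8 * b4 ^ 3 - 27 * b6 ^ 2) * s ^ 2 +
        (2 * b2 * b4 * b8 - 2 * b4 ^ 2 * b6 - 10 * b6 * b8) * s * t +
        (-b2 * b6 * b8 + b4 * b6 ^ 2) * s * u +
        (3 * b4 ^ 2 * b8 - 3 * b4 * b6 ^ 2) * t ^ 2 +
        (3 * b4 * b6 * b8 - 3 * b6 ^ 3) * t * u) * phi0 A B s t u +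
      ((-b2 * b4 * b8 + b4 ^ 2 * b6 + 5 * b6 * b8) * s ^ 2 +
        (2 * b2 * b6 * b8 - 2 * b4 * b6 ^ 2 - 10 * b8 ^ 2) * s * t +
        (-b2 * b8 ^ 2 + b4 * b6 * b8) * s * u +
        (3 * b4 * b6 * b8 - 3 * b6 ^ 3) * t ^ 2 +
        (3 * b4 * b8 ^ 2 - 3 * b6 ^ 2 * b8) * t * u) * phi1 A B s t u +
      ((b2 * b6 * b8 - 8 * b4 ^ 2 * b8 + 7 * b4 * b6 ^ 2) * s ^ 2 +
        (-6 * b4 * b6 * b8 + 6 * b6 ^ 3) * s * t +
        (-8 * b4 * b8 ^ 2 + 8 * b6 ^ 2 * b8) * s * u) * phi2 s t u =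
      (-16 * (4 * A ^ 3 + 27 * B ^ 2)) * s ^ 4 := by
  subst h2 h4 h6 h8
  simp only [phi0, phi1, phi2]
  ring

theorem cert1 (A B s t u b2 b4 b6 b8 : R) (h2 : b2 = 0) (h4 : b4 = 2 * A) (h6 : b6 = 4 * B)
    (h8 : b8 = - A ^ 2) :
   ((96 * b6) * s * t + (12 * b2 * b6 - 64 * b8) * t ^ 2 +
        (16 * b4 * b6) * t * u) * phi0 A B s t u +
      ((-48 * b6) * s ^ 2 + (32 * b8) * s * t +
        (-4 * b2 * b8 + 16 * b4 * b6) * t ^ 2 + (16 * b4 * b8) * t * u) * phi1 A B s t u +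
      ((-12 * b2 * b6) * s ^ 2 + (8 * b2 * b8 - 32 * b4 * b6) * s * t +
        (-12 * b6 ^ 2) * s * u +
        (-b2 ^ 2 * b8 + 9 * b2 * b4 * b6 - 8 * b4 ^ 3 - 27 * b6 ^ 2) * t ^ 2 +
        (4 * b2 * b4 * b8 - 4 * b2 * b6 ^ 2) * t * u) * phi2 s t u =
      (-16 * (4 * A ^ 3 + 27 * B ^ 2)) * t ^ 4 := by
  subst h2 h4 h6 h8
  simp only [phi0, phi1, phi2]
  ring

theorem cert2 (A B s t u b2 b4 b6 b8 : R) (h2 : b2 = 0) (h4 : b4 = 2 * A) (h6 : b6 = 4 * B)
    (h8 : b8 = - A ^ 2) :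
   ((-12) * t ^ 2 + (-4 * b2) * t * u + (b2 ^ 2 - 32 * b4) * u ^ 2) * phi0 A B s t u +
      (6 * s * t + (-b2) * s * u + (-5 * b4) * t * u + (b2 * b4 - 27 * b6) * u ^ 2) *
        phi1 A B s t u +
      ((-8 * b4) * s * u + (-12 * b6) * t * u + (b4 ^ 2 - 28 * b8) * u ^ 2) * phi2 s t u =
      (-16 * (4 * A ^ 3 + 27 * B ^ 2)) * u ^ 4 := by
  subst h2 h4 h6 h8
  simp only [phi0, phi1, phi2]
  ring

theorem exists_cert0 (A B s t u : R) : ∃ c0 c1 c2 : R,
    c0 * phi0 A B s t u + c1 * phi1 A B s t u + c2 * phi2 s t u =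
      (-16 * (4 * A ^ 3 + 27 * B ^ 2)) * s ^ 4 :=
  ⟨_, _, _, cert0 A B s t u 0 (2 * A) (4 * B) (-A ^ 2) rfl rfl rfl rfl⟩

theorem exists_cert1 (A B s t u : R) : ∃ c0 c1 c2 : R,
    c0 * phi0 A B s t u + c1 * phi1 A B s t u + c2 * phi2 s t u =
      (-16 * (4 * A ^ 3 + 27 * B ^ 2)) * t ^ 4 :=
  ⟨_, _, _, cert1 A B s t u 0 (2 * A) (4 * B) (-A ^ 2) rfl rfl rfl rfl⟩

theorem exists_cert2 (A B s t u : R) : ∃ c0 c1 c2 : R,
    c0 * phi0 A B s t u + c1 * phi1 A B s t u + c2 * phi2 s t u =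
      (-16 * (4 * A ^ 3 + 27 * B ^ 2)) * u ^ 4 :=
  ⟨_, _, _, cert2 A B s t u 0 (2 * A) (4 * B) (-A ^ 2) rfl rfl rfl rfl⟩

end forms

variable {k : Type*} [Field k]

/-- Unimodular triples of polynomials. -/
def Cop3 (a b c : k[X]) : Prop := ∃ x y z : k[X], x * a + y * b + z * c = 1

/-- `N` is the exact maximal degree of the pair. -/
structure Top2 (N : ℕ) (a b : k[X]) : Prop where
  ha : a.natDegree ≤ N
  hb : b.natDegree ≤ N
  hne : a.coeff N ≠ 0 ∨ b.coeff N ≠ 0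

/-- `N` is the exact maximal degree of the triple. -/
structure Top3 (N : ℕ) (a b c : k[X]) : Prop where
  ha : a.natDegree ≤ N
  hb : b.natDegree ≤ N
  hc : c.natDegree ≤ N
  hne : a.coeff N ≠ 0 ∨ b.coeff N ≠ 0 ∨ c.coeff N ≠ 0

theorem cop3_iff_span (a b c : k[X]) : Cop3 a b c ↔ Ideal.span {a, b, c} = ⊤ := by
  rw [Ideal.eq_top_iff_one, Ideal.mem_span_insert]
  constructor
  · rintro ⟨x, y, z, h⟩
    refine ⟨x, y * b + z * c, ?_, by rw [← h]; ring⟩
    rw [Ideal.mem_span_pair]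
    exact ⟨y, z, rfl⟩
  · rintro ⟨x, w, hw, h⟩
    rw [Ideal.mem_span_pair] at hw
    obtain ⟨y, z, rfl⟩ := hw
    exact ⟨x, y, z, by rw [h]; ring⟩

theorem cop3_sym2 {a1 a2 b1 b2 : k[X]} (ha : IsCoprime a1 a2) (hb : IsCoprime b1 b2) :
    Cop3 (a1 * b1) (a1 * b2 + a2 * b1) (a2 * b2) := by
  obtain ⟨x, y, hxy⟩ := hb
  obtain ⟨p, q, hpq⟩ := (ha.pow (m := 2) (n := 2))
  refine ⟨p * (x * a1 - y * a2), p * y * a1 + q * x * a2, q * (y * a2 - x * a1), ?_⟩
  linear_combination (p * a1 ^ 2 + q * a2 ^ 2) * hxy + hpq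

theorem top3_sym2 {m n : ℕ} {a1 a2 b1 b2 : k[X]} (ha : Top2 m a1 a2) (hb : Top2 n b1 b2) :
    Top3 (m + n) (a1 * b1) (a1 * b2 + a2 * b1) (a2 * b2) := by
  refine ⟨natDegree_mul_le_of_le ha.ha hb.ha,
    natDegree_add_le_of_degree_le (natDegree_mul_le_of_le ha.ha hb.hb)
      (natDegree_mul_le_of_le ha.hb hb.ha),
    natDegree_mul_le_of_le ha.hb hb.hb, ?_⟩
  rw [coeff_add, coeff_mul_add_eq_of_natDegree_le ha.ha hb.ha,
    coeff_mul_add_eq_of_natDegree_le ha.ha hb.hb, coeff_mul_add_eq_of_natDegree_le ha.hb hb.ha,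
    coeff_mul_add_eq_of_natDegree_le ha.hb hb.hb]
  by_contra hcon
  push Not at hcon
  obtain ⟨h1, h2, h3⟩ := hcon
  by_cases hα : a1.coeff m = 0
  · have hα2 : a2.coeff m ≠ 0 := by
      rcases ha.hne with h | h
      · exact absurd hα h
      · exact h
    have hβ2 : b2.coeff n = 0 := (mul_eq_zero.1 h3).resolve_left hα2
    have hβ1 : b1.coeff n = 0 := by
      rw [hα, zero_mul, zero_add] at h2
      exact (mul_eq_zero.1 h2).resolve_left hα2
    rcases hb.hne with h | h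
    · exact h hβ1
    · exact h hβ2
  · have hβ1 : b1.coeff n = 0 := (mul_eq_zero.1 h1).resolve_left hα
    have hβ2 : b2.coeff n = 0 := by
      rw [hβ1, mul_zero, add_zero] at h2
      exact (mul_eq_zero.1 h2).resolve_left hα
    rcases hb.hne with h | h
    · exact h hβ1
    · exact h hβ2

theorem cop3_phi (A B : k) (hD : (-16 * (4 * A ^ 3 + 27 * B ^ 2) : k) ≠ 0) {a b c : k[X]}
    (h : Cop3 a b c) :
    Cop3 (phi0 (C A) (C B) a b c) (phi1 (C A) (C B) a b c) (phi2 a b c) := by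
  rw [cop3_iff_span] at h ⊢
  set J := Ideal.span {phi0 (C A) (C B) a b c, phi1 (C A) (C B) a b c, phi2 a b c} with hJ
  have m0 : phi0 (C A) (C B) a b c ∈ J := Ideal.subset_span (by simp)
  have m1 : phi1 (C A) (C B) a b c ∈ J := Ideal.subset_span (by simp)
  have m2 : phi2 a b c ∈ J := Ideal.subset_span (by simp)
  have hCD : (-16 * (4 * (C A) ^ 3 + 27 * (C B) ^ 2) : k[X]) =
      C (-16 * (4 * A ^ 3 + 27 * B ^ 2)) := by
    simp only [map_mul, map_add, map_neg, map_pow, map_ofNat]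
  have key : ∀ x : k[X], (∃ c0 c1 c2 : k[X],
      c0 * phi0 (C A) (C B) a b c + c1 * phi1 (C A) (C B) a b c + c2 * phi2 a b c =
      (-16 * (4 * (C A) ^ 3 + 27 * (C B) ^ 2)) * x ^ 4) → x ^ 4 ∈ J := by
    rintro x ⟨c0, c1, c2, hc⟩
    have h1 : (-16 * (4 * (C A) ^ 3 + 27 * (C B) ^ 2) : k[X]) * x ^ 4 ∈ J := by
      rw [← hc]
      exact J.add_mem (J.add_mem (J.mul_mem_left _ m0) (J.mul_mem_left _ m1))
        (J.mul_mem_left _ m2)
    rw [hCD] at h1
    have h2 := J.mul_mem_left (C (-16 * (4 * A ^ 3 + 27 * B ^ 2))⁻¹) h1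
    rwa [← mul_assoc, ← C_mul, inv_mul_cancel₀ hD, C_1, one_mul] at h2
  have h4 := Ideal.span_pow_eq_top _ h 4
  rw [Set.image_insert_eq, Set.image_insert_eq, Set.image_singleton] at h4
  rw [eq_top_iff, ← h4, Ideal.span_le]
  intro x hx
  simp only [Set.mem_insert_iff, Set.mem_singleton_iff] at hx
  rcases hx with rfl | rfl | rfl
  · exact key a (exists_cert0 _ _ _ _ _)
  · exact key b (exists_cert1 _ _ _ _ _)
  · exact key c (exists_cert2 _ _ _ _ _)

theorem natDegree_C_mul_mul_le {N : ℕ} (r : k) {p q : k[X]} (hp : p.natDegree ≤ N)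
    (hq : q.natDegree ≤ N) : (C r * (p * q)).natDegree ≤ N + N :=
  (natDegree_C_mul_le _ _).trans (natDegree_mul_le_of_le hp hq)

theorem natDegree_sub_le_same {M : ℕ} {p q : k[X]} (hp : p.natDegree ≤ M)
    (hq : q.natDegree ≤ M) : (p - q).natDegree ≤ M :=
  (natDegree_sub_le_of_le hp hq).trans (max_self M).le

theorem coeff_C_mul_mul {N : ℕ} (r : k) {p q : k[X]} (hp : p.natDegree ≤ N)
    (hq : q.natDegree ≤ N) : (C r * (p * q)).coeff (N + N) = r * (p.coeff N * q.coeff N) := by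
  rw [coeff_C_mul, coeff_mul_add_eq_of_natDegree_le hp hq]

theorem phi0_eq (A B : k) (a b c : k[X]) : phi0 (C A) (C B) a b c =
    C 1 * (a * a) - C (2 * A) * (a * c) + C (A ^ 2) * (c * c) - C (4 * B) * (b * c) := by
  simp only [phi0, map_mul, map_pow, map_ofNat, map_one]
  ring

theorem phi1_eq (A B : k) (a b c : k[X]) : phi1 (C A) (C B) a b c =
    C 2 * (a * b) + C (2 * A) * (c * b) + C (4 * B) * (c * c) := by
  simp only [phi1, map_mul, map_ofNat]
  ring

theorem phi2_eq (a b c : k[X]) : phi2 a b c = C 1 * (b * b) - C 4 * (a * c) := by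
  simp only [phi2, map_ofNat, map_one]
  ring

theorem top3_phi (A B : k) (hD : (-16 * (4 * A ^ 3 + 27 * B ^ 2) : k) ≠ 0) {N : ℕ} {a b c : k[X]}
    (h : Top3 N a b c) :
    Top3 (N + N) (phi0 (C A) (C B) a b c) (phi1 (C A) (C B) a b c) (phi2 a b c) := by
  have e0 : (phi0 (C A) (C B) a b c).coeff (N + N) =
      phi0 A B (a.coeff N) (b.coeff N) (c.coeff N) := by
    rw [phi0_eq]
    simp only [coeff_add, coeff_sub, coeff_C_mul_mul _ h.ha h.ha, coeff_C_mul_mul _ h.ha h.hc,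
      coeff_C_mul_mul _ h.hc h.hc, coeff_C_mul_mul _ h.hb h.hc, phi0]
    ring
  have e1 : (phi1 (C A) (C B) a b c).coeff (N + N) =
      phi1 A B (a.coeff N) (b.coeff N) (c.coeff N) := by
    rw [phi1_eq]
    simp only [coeff_add, coeff_C_mul_mul _ h.ha h.hb, coeff_C_mul_mul _ h.hc h.hb,
      coeff_C_mul_mul _ h.hc h.hc, phi1]
    ring
  have e2 : (phi2 a b c).coeff (N + N) = phi2 (a.coeff N) (b.coeff N) (c.coeff N) := by
    rw [phi2_eq]
    simp only [coeff_sub, coeff_C_mul_mul _ h.hb h.hb, coeff_C_mul_mul _ h.ha h.hc, phi2]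
    ring
  refine ⟨?_, ?_, ?_, ?_⟩
  · rw [phi0_eq]
    exact natDegree_sub_le_same (natDegree_add_le_of_degree_le (natDegree_sub_le_same
      (natDegree_C_mul_mul_le _ h.ha h.ha) (natDegree_C_mul_mul_le _ h.ha h.hc))
      (natDegree_C_mul_mul_le _ h.hc h.hc)) (natDegree_C_mul_mul_le _ h.hb h.hc)
  · rw [phi1_eq]
    exact natDegree_add_le_of_degree_le (natDegree_add_le_of_degree_le
      (natDegree_C_mul_mul_le _ h.ha h.hb) (natDegree_C_mul_mul_le _ h.hc h.hb))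
      (natDegree_C_mul_mul_le _ h.hc h.hc)
  · rw [phi2_eq]
    exact natDegree_sub_le_same (natDegree_C_mul_mul_le _ h.hb h.hb)
      (natDegree_C_mul_mul_le _ h.ha h.hc)
  · rw [e0, e1, e2]
    by_contra hcon
    push Not at hcon
    obtain ⟨h0, h1, h2⟩ := hcon
    have key : ∀ x : k, (∃ c0 c1 c2 : k,
        c0 * phi0 A B (a.coeff N) (b.coeff N) (c.coeff N) +
          c1 * phi1 A B (a.coeff N) (b.coeff N) (c.coeff N) +
          c2 * phi2 (a.coeff N) (b.coeff N) (c.coeff N) =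
        (-16 * (4 * A ^ 3 + 27 * B ^ 2)) * x ^ 4) → x = 0 := by
      rintro x ⟨c0, c1, c2, hc⟩
      rw [h0, h1, h2] at hc
      simp only [mul_zero, add_zero] at hc
      have := (mul_eq_zero.1 hc.symm).resolve_left hD
      exact pow_eq_zero_iff (by norm_num) |>.1 this
    rcases h.hne with h' | h' | h'
    · exact h' (key _ (exists_cert0 _ _ _ _ _))
    · exact h' (key _ (exists_cert1 _ _ _ _ _))
    · exact h' (key _ (exists_cert2 _ _ _ _ _))

theorem exists_mul_of_cross {a b c a' b' c' : k[X]} (h : Cop3 a b c)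
    (hab : a * b' = b * a') (hac : a * c' = c * a') (hbc : b * c' = c * b') :
    ∃ e : k[X], a' = e * a ∧ b' = e * b ∧ c' = e * c := by
  obtain ⟨x, y, z, hxyz⟩ := h
  refine ⟨x * a' + y * b' + z * c', ?_, ?_, ?_⟩
  · linear_combination (-a') * hxyz - y * hab - z * hac
  · linear_combination (-b') * hxyz + x * hab - z * hbc
  · linear_combination (-c') * hxyz + x * hac + y * hbc

theorem natDegree_le_aux {N N' : ℕ} {a a' e e' : k[X]} (h : a.coeff N ≠ 0)
    (h1 : a' = e * a) (h2 : a = e' * a') (h' : a'.natDegree ≤ N') : N ≤ N' := by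
  have ha : a ≠ 0 := by
    rintro rfl
    simp at h
  have ha' : a' ≠ 0 := by
    rintro rfl
    rw [mul_zero] at h2
    exact ha h2
  have he : e ≠ 0 := by
    rintro rfl
    rw [zero_mul] at h1
    exact ha' h1
  have h3 : a'.natDegree = e.natDegree + a.natDegree := by
    rw [h1, natDegree_mul he ha]
  have h4 := le_natDegree_of_ne_zero h
  omega

theorem top3_le {N N' : ℕ} {a b c a' b' c' : k[X]} (h : Cop3 a b c) (h' : Cop3 a' b' c')
    (hT : Top3 N a b c) (hT' : Top3 N' a' b' c')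
    (hab : a * b' = b * a') (hac : a * c' = c * a') (hbc : b * c' = c * b') : N ≤ N' := by
  obtain ⟨e, ea, eb, ec⟩ := exists_mul_of_cross h hab hac hbc
  obtain ⟨e', ea', eb', ec'⟩ := exists_mul_of_cross (a' := a) (b' := b) (c' := c) h'
    (by linear_combination -hab)
    (by linear_combination -hac) (by linear_combination -hbc)
  rcases hT.hne with h1 | h1 | h1
  · exact natDegree_le_aux h1 ea ea' hT'.ha
  · exact natDegree_le_aux h1 eb eb' hT'.hb
  · exact natDegree_le_aux h1 ec ec' hT'.hc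

theorem top3_unique {N N' : ℕ} {a b c a' b' c' : k[X]} (h : Cop3 a b c) (h' : Cop3 a' b' c')
    (hT : Top3 N a b c) (hT' : Top3 N' a' b' c')
    (hab : a * b' = b * a') (hac : a * c' = c * a') (hbc : b * c' = c * b') : N = N' :=
  le_antisymm (top3_le h h' hT hT' hab hac hbc)
    (top3_le h' h hT' hT (by linear_combination -hab) (by linear_combination -hac)
      (by linear_combination -hbc))

theorem top2_num_denom (u : RatFunc k) : Top2 (rdeg u) u.num u.denom := by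
  refine ⟨le_max_left _ _, le_max_right _ _, ?_⟩
  unfold rdeg
  rcases le_total u.num.natDegree u.denom.natDegree with h | h
  · right
    rw [max_eq_right h]
    exact leadingCoeff_ne_zero.2 u.denom_ne_zero
  · rcases h.eq_or_lt with h | h
    · right
      rw [← h, max_self]
      exact leadingCoeff_ne_zero.2 u.denom_ne_zero
    · left
      rw [max_eq_left h.le]
      apply leadingCoeff_ne_zero.2
      rintro h0
      rw [h0] at h
      simp at h

theorem algebraMap_num_eq (u : RatFunc k) :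
    algebraMap k[X] (RatFunc k) u.num = u * algebraMap k[X] (RatFunc k) u.denom :=
  (div_eq_iff (RatFunc.algebraMap_ne_zero u.denom_ne_zero)).1 u.num_div_denom

end RF3

set_option linter.unusedVariables false in
open RF3 in
theorem rdeg_addSub {k : Type*} [Field k] (A B : k) (hΔ : 4 * A ^ 3 + 27 * B ^ 2 ≠ 0)
    (h2 : (2 : k) ≠ 0)
    (u v w₁ w₂ : RatFunc k) (huv : u ≠ v)
    (hs : (w₁ + w₂) * (u - v) ^ 2 = 2 * ((u * v + RatFunc.C A) * (u + v) + 2 * RatFunc.C B))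
    (hp : w₁ * w₂ * (u - v) ^ 2 = (u * v - RatFunc.C A) ^ 2 - 4 * RatFunc.C B * (u + v)) :
    rdeg w₁ + rdeg w₂ = 2 * rdeg u + 2 * rdeg v := by
  have hD : (-16 * (4 * A ^ 3 + 27 * B ^ 2) : k) ≠ 0 := by
    have h16 : (-16 : k) ≠ 0 := by
      have : (-16 : k) = -(2 ^ 4) := by norm_num
      rw [this]
      exact neg_ne_zero.2 (pow_ne_zero 4 h2)
    exact mul_ne_zero h16 hΔ
  have cz := cop3_sym2 u.isCoprime_num_denom v.isCoprime_num_denom
  have tz := top3_sym2 (top2_num_denom u) (top2_num_denom v)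
  have cz' := cop3_sym2 w₁.isCoprime_num_denom w₂.isCoprime_num_denom
  have tz' := top3_sym2 (top2_num_denom w₁) (top2_num_denom w₂)
  have cΦ := cop3_phi A B hD cz
  have tΦ := top3_phi A B hD tz
  have hu := algebraMap_num_eq u
  have hv := algebraMap_num_eq v
  have hw₁ := algebraMap_num_eq w₁
  have hw₂ := algebraMap_num_eq w₂
  have hinj := RatFunc.algebraMap_injective k
  have key := top3_unique cΦ cz' tΦ tz' ?_ ?_ ?_
  · omega
  · apply hinj
    simp only [phi0, phi1, map_mul, map_add, map_sub, map_pow, map_ofNat, RatFunc.algebraMap_C,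
      hu, hv, hw₁, hw₂]
    linear_combination
      ((algebraMap k[X] (RatFunc k) u.denom * algebraMap k[X] (RatFunc k) v.denom) ^ 2 *
        (algebraMap k[X] (RatFunc k) w₁.denom * algebraMap k[X] (RatFunc k) w₂.denom)) *
        (-(w₁ + w₂)) * hp +
      ((algebraMap k[X] (RatFunc k) u.denom * algebraMap k[X] (RatFunc k) v.denom) ^ 2 *
        (algebraMap k[X] (RatFunc k) w₁.denom * algebraMap k[X] (RatFunc k) w₂.denom)) *
        (w₁ * w₂) * hs
  · apply hinj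
    simp only [phi0, phi2, map_mul, map_add, map_sub, map_pow, map_ofNat, RatFunc.algebraMap_C,
      hu, hv, hw₁, hw₂]
    linear_combination
      (-((algebraMap k[X] (RatFunc k) u.denom * algebraMap k[X] (RatFunc k) v.denom) ^ 2 *
        (algebraMap k[X] (RatFunc k) w₁.denom * algebraMap k[X] (RatFunc k) w₂.denom))) * hp
  · apply hinj
    simp only [phi1, phi2, map_mul, map_add, map_sub, map_pow, map_ofNat, RatFunc.algebraMap_C,
      hu, hv, hw₁, hw₂]
    linear_combination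
      (-((algebraMap k[X] (RatFunc k) u.denom * algebraMap k[X] (RatFunc k) v.denom) ^ 2 *
        (algebraMap k[X] (RatFunc k) w₁.denom * algebraMap k[X] (RatFunc k) w₂.denom))) * hs

end Fermat.Agent.S52
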