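import Fermat.Agent.S52.RF1
import Fermat.Agent.S52.Defs
import Fermat.Agent.S52.ManinCore

/-!
# S52 RF4: Manin's count `deg x(Frob - 1) = #E(F_p)`
-/

set_option autoImplicit false

namespace Fermat.Agent.S52

open Polynomial in
/-- Manin's count over a general finite field of odd characteristic. -/
theorem manin_count_finiteField {k : Type*} [Field k] [Fintype k] (h2 : (2 : k) ≠ 0) (A B : k)
    (hΔ : 4 * A ^ 3 + 27 * B ^ 2 ≠ 0) :
    rdeg (((RatFunc.X ^ 3 + RatFunc.C A * RatFunc.X + RatFunc.C B) *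
        (((RatFunc.X ^ 3 + RatFunc.C A * RatFunc.X + RatFunc.C B) ^ ((Fintype.card k - 1) / 2) + 1) /
          (RatFunc.X ^ Fintype.card k - RatFunc.X)) ^ 2 - RatFunc.X ^ Fintype.card k - RatFunc.X :
          RatFunc k))
      = Nat.card (⟨0, 0, 0, A, B⟩ : WeierstrassCurve k).toAffine.Point := by
  obtain ⟨G, N1, D1, h1, h3, hG, hD, hcop, hN, hlt⟩ := ManinCore.core h2 A B hΔ
  have hinj : Function.Injective (algebraMap k[X] (RatFunc k)) := RatFunc.algebraMap_injective k
  have hd : (RatFunc.X ^ Fintype.card k - RatFunc.X : RatFunc k) ≠ 0 := by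
    have h0 : (X ^ Fintype.card k - X : k[X]) ≠ 0 :=
      FiniteField.X_pow_card_sub_X_ne_zero k Fintype.one_lt_card
    have := (map_ne_zero_iff _ hinj).2 h0
    simpa using this
  have hG' : algebraMap k[X] (RatFunc k) G ≠ 0 := (map_ne_zero_iff _ hinj).2 hG
  have hD' : algebraMap k[X] (RatFunc k) D1 ≠ 0 := (map_ne_zero_iff _ hinj).2 hD
  have e1 := congrArg (algebraMap k[X] (RatFunc k)) h1
  have e3 := congrArg (algebraMap k[X] (RatFunc k)) h3
  simp only [map_sub, map_mul, map_pow, map_add, map_one, RatFunc.algebraMap_X,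
    RatFunc.algebraMap_C] at e1 e3
  have key : ((RatFunc.X ^ 3 + RatFunc.C A * RatFunc.X + RatFunc.C B) *
        (((RatFunc.X ^ 3 + RatFunc.C A * RatFunc.X + RatFunc.C B) ^ ((Fintype.card k - 1) / 2) + 1) /
          (RatFunc.X ^ Fintype.card k - RatFunc.X)) ^ 2 - RatFunc.X ^ Fintype.card k - RatFunc.X :
          RatFunc k) = algebraMap k[X] (RatFunc k) N1 / algebraMap k[X] (RatFunc k) D1 := by
    rw [eq_div_iff hD']
    apply mul_left_cancel₀ hG'
    rw [← e1]
    have : algebraMap k[X] (RatFunc k) G * algebraMap k[X] (RatFunc k) D1 =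
        (RatFunc.X ^ Fintype.card k - RatFunc.X) ^ 2 := e3.symm
    generalize (RatFunc.X ^ 3 + RatFunc.C A * RatFunc.X + RatFunc.C B : RatFunc k) = F at *
    generalize (F ^ ((Fintype.card k - 1) / 2) + 1) = H at *
    calc algebraMap k[X] (RatFunc k) G * ((F * (H / (RatFunc.X ^ Fintype.card k - RatFunc.X)) ^ 2 -
          RatFunc.X ^ Fintype.card k - RatFunc.X) * algebraMap k[X] (RatFunc k) D1)
        = (F * (H / (RatFunc.X ^ Fintype.card k - RatFunc.X)) ^ 2 -
          RatFunc.X ^ Fintype.card k - RatFunc.X) *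
            (algebraMap k[X] (RatFunc k) G * algebraMap k[X] (RatFunc k) D1) := by ring
      _ = _ := by
        rw [this]
        field_simp
        ring
  rw [key, rdeg_div_of_isCoprime _ _ hD hcop, max_eq_left hlt.le, hN]

theorem manin_count (p : ℕ) [Fact p.Prime] (hp : 5 ≤ p) (A B : ZMod p)
    (hΔ : 4 * A ^ 3 + 27 * B ^ 2 ≠ 0) :
    rdeg (((RatFunc.X ^ 3 + RatFunc.C A * RatFunc.X + RatFunc.C B) *
        (((RatFunc.X ^ 3 + RatFunc.C A * RatFunc.X + RatFunc.C B) ^ ((p - 1) / 2) + 1) /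
          (RatFunc.X ^ p - RatFunc.X)) ^ 2 - RatFunc.X ^ p - RatFunc.X : RatFunc (ZMod p)))
      = Nat.card (sw A B).toAffine.Point := by
  have h2 : (2 : ZMod p) ≠ 0 := by
    intro h
    have h' : ((2 : ℕ) : ZMod p) = 0 := by exact_mod_cast h
    rw [ZMod.natCast_eq_zero_iff] at h'
    have := Nat.le_of_dvd (by norm_num) h'
    omega
  have := manin_count_finiteField h2 A B hΔ
  rw [ZMod.card p] at this
  exact this

end Fermat.Agent.S52
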