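import Fermat.Agent.S52.RF1
import Fermat.Agent.S52.RF2

/-!
# S52 RF5: duplication multiplies the degree by 4; powers
-/

set_option autoImplicit false

namespace Fermat.Agent.S52

open Polynomial

theorem rf5_rdeg_C {k : Type*} [Field k] (c : k) : rdeg (RatFunc.C c) = 0 :=
  (rdeg_eq_zero_iff _).mpr ⟨c, rfl⟩

theorem rf5_algHom_algebraMap {k : Type*} [Field k] (σ : RatFunc k →ₐ[k] RatFunc k) (p : k[X]) :
    σ (algebraMap k[X] (RatFunc k) p) = aeval (σ RatFunc.X) p := by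
  have h : (σ.comp (IsScalarTower.toAlgHom k k[X] (RatFunc k))) = aeval (σ RatFunc.X) := by
    apply Polynomial.algHom_ext
    simp [RatFunc.algebraMap_X]
  exact DFunLike.congr_fun h p

theorem rdeg_pow {k : Type*} [Field k] (u : RatFunc k) (n : ℕ) : rdeg (u ^ n) = n * rdeg u := by
  by_cases hu : ∃ c : k, u = RatFunc.C c
  · obtain ⟨c, rfl⟩ := hu
    rw [← map_pow, rf5_rdeg_C, rf5_rdeg_C, mul_zero]
  · obtain ⟨σ, rfl⟩ := exists_subst u hu
    rw [← map_pow, rdeg_algHom]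
    congr 1
    have h := rdeg_div_of_isCoprime (X ^ n : k[X]) 1 one_ne_zero isCoprime_one_right
    rw [map_one, div_one, map_pow, RatFunc.algebraMap_X, natDegree_X_pow, natDegree_one] at h
    simpa using h

theorem rdeg_dup {k : Type*} [Field k] (A B : k) (hΔ : 4 * A ^ 3 + 27 * B ^ 2 ≠ 0) (h2 : (2 : k) ≠ 0)
    (u w : RatFunc k) (hu : u ^ 3 + RatFunc.C A * u + RatFunc.C B ≠ 0)
    (hw : w * (4 * (u ^ 3 + RatFunc.C A * u + RatFunc.C B)) =
      u ^ 4 - 2 * RatFunc.C A * u ^ 2 - 8 * RatFunc.C B * u + RatFunc.C A ^ 2) :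
    rdeg w = 4 * rdeg u := by
  have h4 : (4 : k) ≠ 0 := by
    have : (4 : k) = 2 * 2 := by norm_num
    rw [this]
    exact mul_ne_zero h2 h2
  have h4' : (4 : RatFunc k) ≠ 0 := by
    have : (4 : RatFunc k) = RatFunc.C 4 := (map_ofNat RatFunc.C 4).symm
    rw [this]
    exact (_root_.map_ne_zero _).mpr h4
  have hw' : w = (u ^ 4 - 2 * RatFunc.C A * u ^ 2 - 8 * RatFunc.C B * u + RatFunc.C A ^ 2) /
      (4 * (u ^ 3 + RatFunc.C A * u + RatFunc.C B)) :=
    eq_div_of_mul_eq (mul_ne_zero h4' hu) hw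
  by_cases hc : ∃ c : k, u = RatFunc.C c
  · obtain ⟨c, rfl⟩ := hc
    have : w = RatFunc.C ((c ^ 4 - 2 * A * c ^ 2 - 8 * B * c + A ^ 2) / (4 * (c ^ 3 + A * c + B))) := by
      rw [hw']
      simp [map_ofNat]
    rw [this, rf5_rdeg_C, rf5_rdeg_C, mul_zero]
  · obtain ⟨σ, rfl⟩ := exists_subst u hc
    set a : k[X] := X ^ 4 - C (2 * A) * X ^ 2 - C (8 * B) * X + C (A ^ 2) with ha
    set b : k[X] := C 4 * X ^ 3 + C (4 * A) * X + C (4 * B) with hb
    have hda : a.natDegree = 4 := by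
      rw [ha]; compute_degree!
    have hdb : b.natDegree = 3 := by
      rw [hb]; compute_degree!
    have hb0 : b ≠ 0 := by
      intro h
      rw [h] at hdb
      simp at hdb
    have hcop : IsCoprime a b := by
      refine ⟨C (4 * A ^ 3 + 27 * B ^ 2)⁻¹ * (C 3 * X ^ 2 + C (4 * A)),
        - C (4 * A ^ 3 + 27 * B ^ 2)⁻¹ * C (4 : k)⁻¹ * (C 3 * X ^ 3 - C (5 * A) * X - C (27 * B)), ?_⟩
      have e1 : b = C 4 * (X ^ 3 + C A * X + C B) := by
        rw [hb]; simp only [map_mul]; ring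
      have e2 : (C 3 * X ^ 2 + C (4 * A)) * a -
          (C 3 * X ^ 3 - C (5 * A) * X - C (27 * B)) * (X ^ 3 + C A * X + C B) =
          C (4 * A ^ 3 + 27 * B ^ 2) := by
        rw [ha]
        simp only [map_mul, map_add, map_pow, map_ofNat]
        ring
      have e3 : C (4 : k)⁻¹ * C 4 = 1 := by
        rw [← C_mul, inv_mul_cancel₀ h4, C_1]
      have e4 : C (4 * A ^ 3 + 27 * B ^ 2)⁻¹ * C (4 * A ^ 3 + 27 * B ^ 2) = 1 := by
        rw [← C_mul, inv_mul_cancel₀ hΔ, C_1]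
      rw [e1]
      calc _ = C (4 * A ^ 3 + 27 * B ^ 2)⁻¹ * ((C 3 * X ^ 2 + C (4 * A)) * a -
            (C (4 : k)⁻¹ * C 4) *
              ((C 3 * X ^ 3 - C (5 * A) * X - C (27 * B)) * (X ^ 3 + C A * X + C B))) := by ring
        _ = 1 := by rw [e3, one_mul, e2, e4]
    have hg := rdeg_div_of_isCoprime a b hb0 hcop
    rw [hda, hdb] at hg
    have hwg : w = σ (algebraMap k[X] (RatFunc k) a / algebraMap k[X] (RatFunc k) b) := by
      rw [hw', map_div₀, rf5_algHom_algebraMap, rf5_algHom_algebraMap, ha, hb]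
      congr 1
      · simp [RatFunc.algebraMap_eq_C, map_ofNat]
      · simp [RatFunc.algebraMap_eq_C, map_ofNat]
        ring
    rw [hwg, rdeg_algHom, hg]
    rfl

end Fermat.Agent.S52
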