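import Mathlib

/-!
# S52: degree of a rational function (shared definition)
-/

set_option autoImplicit false

namespace Fermat.Agent.S52

/-- degree of a rational function: `max (deg num) (deg denom)`. -/
noncomputable def rdeg {k : Type*} [Field k] (u : RatFunc k) : ℕ :=
  max u.num.natDegree u.denom.natDegree

end Fermat.Agent.S52
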