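import Mathlib

/-!
# S52: an abstract `r`-adic Runge argument for a quartic family

`u ^ 4 + a2(t) u ^ 2 + a1(t) u + a0(t)` with `a_i ∈ ℤ[t]`.  If at `t = 0` there is an integer root
`ξ` which is simple modulo the prime `r`, if every integer root at `t = M r ^ k` is `≡ ξ mod r`,
and if the quartic has no root in `ℚ[t]`, then for some `k` there is no integer root at
`t = M r ^ k`.
-/

set_option autoImplicit false

namespace Fermat.Agent.S52

open Polynomial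

namespace Runge

/-- Hensel-type approximation with cleared denominators. -/
theorem approx (a2 a1 a0 : ℤ[X]) (r : ℕ) (hr : r.Prime) (ξ : ℤ)
    (hξ : ξ ^ 4 + a2.eval 0 * ξ ^ 2 + a1.eval 0 * ξ + a0.eval 0 = 0)
    (hδ : ¬ (r : ℤ) ∣ 4 * ξ ^ 3 + 2 * a2.eval 0 * ξ + a1.eval 0) (m : ℕ) :
    ∃ (E : ℤ) (P : ℤ[X]), ¬ (r : ℤ) ∣ E ∧ P.eval 0 = E * ξ ∧
      X ^ (m + 1) ∣ P ^ 4 + a2 * C E ^ 2 * P ^ 2 + a1 * C E ^ 3 * P + a0 * C E ^ 4 := by
  have hrp : Prime (r : ℤ) := Nat.prime_iff_prime_int.mp hr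
  induction m with
  | zero =>
    refine ⟨1, C ξ, ?_, by simp, ?_⟩
    · intro h
      exact hrp.not_isUnit (isUnit_of_dvd_one h)
    · rw [zero_add, pow_one, X_dvd_iff, coeff_zero_eq_eval_zero]
      simp only [eval_add, eval_mul, eval_pow, eval_C, one_pow, mul_one]
      exact hξ
  | succ m ih =>
    obtain ⟨E, P, hE, hP0, K, hK⟩ := ih
    set δ := 4 * ξ ^ 3 + 2 * a2.eval 0 * ξ + a1.eval 0 with hδdef
    have hK1 : K = C (K.eval 0) + X * divX K := by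
      conv_lhs => rw [← divX_mul_X_add K]
      rw [coeff_zero_eq_eval_zero]
      ring
    set T : ℤ[X] := 4 * P ^ 3 + 2 * a2 * C E ^ 2 * P + a1 * C E ^ 3 with hT
    have hT0 : T.eval 0 = E ^ 3 * δ := by
      simp only [hT, eval_add, eval_mul, eval_pow, eval_C, hP0, eval_ofNat]
      rw [hδdef]
      ring
    have hL : T = C (E ^ 3 * δ) + X * divX T := by
      conv_lhs => rw [← divX_mul_X_add T]
      rw [coeff_zero_eq_eval_zero, hT0]
      ring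
    set F : ℤ := E ^ 3 * δ with hF
    set c : ℤ := K.eval 0 with hc
    refine ⟨E * F, C F * P - C c * X ^ (m + 1), ?_, ?_, ?_⟩
    · intro h
      rcases hrp.dvd_or_dvd h with h | h
      · exact hE h
      · rcases hrp.dvd_or_dvd h with h | h
        · exact hE (hrp.dvd_of_dvd_pow h)
        · exact hδ h
    · simp only [eval_sub, eval_mul, eval_C, eval_pow, eval_X, hP0]
      ring
    · refine ⟨C F ^ 4 * divX K - C c * C F ^ 3 * divX T + C c ^ 2 * X ^ m *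
        (6 * (C F * P) ^ 2 - 4 * (C F * P) * (C c * X ^ (m + 1)) + (C c * X ^ (m + 1)) ^ 2
          + a2 * (C E * C F) ^ 2), ?_⟩
      have hEF : (C (E * F) : ℤ[X]) = C E * C F := C_mul
      rw [hEF]
      linear_combination (C F) ^ 4 * hK + (C F) ^ 4 * X ^ (m + 1) * hK1
        - C c * X ^ (m + 1) * (C F) ^ 3 * hL

/-- Polynomial growth bound. -/
theorem abs_eval_le (f : ℤ[X]) (n : ℕ) (hf : f.natDegree ≤ n) :
    ∃ B : ℤ, 0 ≤ B ∧ ∀ t : ℤ, 1 ≤ |t| → |f.eval t| ≤ B * |t| ^ n := by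
  refine ⟨∑ i ∈ Finset.range (n + 1), |f.coeff i|, Finset.sum_nonneg fun i _ => abs_nonneg _, ?_⟩
  intro t ht
  rw [eval_eq_sum_range' (Nat.lt_succ_of_le hf), Finset.sum_mul]
  refine (Finset.abs_sum_le_sum_abs _ _).trans (Finset.sum_le_sum fun i hi => ?_)
  rw [abs_mul, abs_pow]
  refine mul_le_mul_of_nonneg_left ?_ (abs_nonneg _)
  exact pow_le_pow_right₀ ht (Nat.lt_succ_iff.mp (Finset.mem_range.mp hi))

/-- Crude bound for the integer roots of a monic quartic. -/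
theorem abs_root_le (b2 b1 b0 u : ℤ) (h : u ^ 4 + b2 * u ^ 2 + b1 * u + b0 = 0) :
    |u| ≤ |b2| + |b1| + |b0| := by
  rcases eq_or_ne u 0 with rfl | hu
  · simp only [abs_zero]
    positivity
  have hv : 1 ≤ |u| := Int.one_le_abs hu
  set v := |u| with hvdef
  set S := |b2| + |b1| + |b0| with hS
  have h4 : v ^ 4 = |b2 * u ^ 2 + b1 * u + b0| := by
    have : u ^ 4 = -(b2 * u ^ 2 + b1 * u + b0) := by linarith
    rw [hvdef, ← abs_pow, this, abs_neg]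
  have h5 : v ^ 4 ≤ |b2| * v ^ 2 + |b1| * v + |b0| := by
    rw [h4]
    calc |b2 * u ^ 2 + b1 * u + b0| ≤ |b2 * u ^ 2 + b1 * u| + |b0| := abs_add_le _ _
      _ ≤ |b2 * u ^ 2| + |b1 * u| + |b0| := by gcongr; exact abs_add_le _ _
      _ = |b2| * v ^ 2 + |b1| * v + |b0| := by rw [abs_mul, abs_mul, abs_pow]
  have h6 : v ^ 4 ≤ S * v ^ 2 := by
    have e1 : |b1| * v ≤ |b1| * v ^ 2 := by
      apply mul_le_mul_of_nonneg_left _ (abs_nonneg _)
      nlinarith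
    have e0 : |b0| ≤ |b0| * v ^ 2 := by
      have : (1 : ℤ) ≤ v ^ 2 := by nlinarith
      nlinarith [abs_nonneg b0]
    rw [hS]
    nlinarith
  have h7 : v ^ 2 ≤ S := by
    have hv2 : 0 < v ^ 2 := by positivity
    have : v ^ 2 * v ^ 2 ≤ S * v ^ 2 := by nlinarith
    exact le_of_mul_le_mul_right this hv2
  nlinarith

/-- Truncated version of `approx`. -/
theorem approx_trunc (a2 a1 a0 : ℤ[X]) (r : ℕ) (hr : r.Prime) (ξ : ℤ)
    (hξ : ξ ^ 4 + a2.eval 0 * ξ ^ 2 + a1.eval 0 * ξ + a0.eval 0 = 0)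
    (hδ : ¬ (r : ℤ) ∣ 4 * ξ ^ 3 + 2 * a2.eval 0 * ξ + a1.eval 0) (m : ℕ) :
    ∃ (E : ℤ) (Q : ℤ[X]), ¬ (r : ℤ) ∣ E ∧ Q.eval 0 = E * ξ ∧ Q.natDegree ≤ m ∧
      X ^ (m + 1) ∣ Q ^ 4 + a2 * C E ^ 2 * Q ^ 2 + a1 * C E ^ 3 * Q + a0 * C E ^ 4 := by
  obtain ⟨E, P, hE, hP0, K, hK⟩ := approx a2 a1 a0 r hr ξ hξ hδ m
  have hmon : (X ^ (m + 1) : ℤ[X]).Monic := monic_X_pow _
  have hPQ : P %ₘ X ^ (m + 1) + X ^ (m + 1) * (P /ₘ X ^ (m + 1)) = P := modByMonic_add_div P _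
  set Q := P %ₘ X ^ (m + 1) with hQ
  set D := P /ₘ X ^ (m + 1) with hD
  refine ⟨E, Q, hE, ?_, ?_, ?_⟩
  · have := congrArg (eval 0) hPQ
    simp only [eval_add, eval_mul, eval_pow, eval_X] at this
    rw [← hP0, ← this]
    simp
  · have h1 : (X ^ (m + 1) : ℤ[X]) ≠ 1 := by
      intro h
      have := congrArg natDegree h
      simp at this
    have := natDegree_modByMonic_lt P hmon h1
    rw [natDegree_X_pow] at this
    exact Nat.lt_succ_iff.mp this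
  · refine ⟨K - D * (P ^ 3 + P ^ 2 * Q + P * Q ^ 2 + Q ^ 3 + a2 * C E ^ 2 * (P + Q)
      + a1 * C E ^ 3), ?_⟩
    linear_combination hK + (P ^ 3 + P ^ 2 * Q + P * Q ^ 2 + Q ^ 3 + a2 * C E ^ 2 * (P + Q)
      + a1 * C E ^ 3) * hPQ

end Runge

open Runge in
theorem runge (a2 a1 a0 : Polynomial ℤ) (h2 : a2.natDegree ≤ 20) (h1 : a1.natDegree ≤ 30)
    (h0 : a0.natDegree ≤ 40) (r : ℕ) (hr : r.Prime) (M : ℤ) (hM : M ≠ 0) (ξ : ℤ)
    (hξ : ξ ^ 4 + a2.eval 0 * ξ ^ 2 + a1.eval 0 * ξ + a0.eval 0 = 0)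
    (hδ : ¬ (r : ℤ) ∣ 4 * ξ ^ 3 + 2 * a2.eval 0 * ξ + a1.eval 0)
    (hroots : ∀ (k : ℕ) (u : ℤ), u ^ 4 + a2.eval (M * r ^ k) * u ^ 2 + a1.eval (M * r ^ k) * u
      + a0.eval (M * r ^ k) = 0 → (r : ℤ) ∣ u - ξ)
    (hpoly : ∀ P : Polynomial ℚ, P ^ 4 + a2.map (Int.castRingHom ℚ) * P ^ 2
      + a1.map (Int.castRingHom ℚ) * P + a0.map (Int.castRingHom ℚ) ≠ 0) :
    ∃ k : ℕ, ∀ u : ℤ, u ^ 4 + a2.eval (M * r ^ k) * u ^ 2 + a1.eval (M * r ^ k) * u
      + a0.eval (M * r ^ k) ≠ 0 := by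
  by_contra hcon
  push Not at hcon
  have hrp : Prime (r : ℤ) := Nat.prime_iff_prime_int.mp hr
  have hr2 : (2 : ℤ) ≤ r := by exact_mod_cast hr.two_le
  have hr0 : (0 : ℤ) < r := by linarith
  obtain ⟨E, Q, hE, hQ0, hQdeg, K, hK⟩ := approx_trunc a2 a1 a0 r hr ξ hξ hδ 40
  have hE0 : E ≠ 0 := by
    rintro rfl
    exact hE (dvd_zero _)
  set G : ℤ[X] := Q ^ 4 + a2 * C E ^ 2 * Q ^ 2 + a1 * C E ^ 3 * Q + a0 * C E ^ 4 with hG
  obtain ⟨B2, hB2, hb2⟩ := abs_eval_le a2 40 (by omega)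
  obtain ⟨B1, hB1, hb1⟩ := abs_eval_le a1 40 (by omega)
  obtain ⟨B0, hB0, hb0⟩ := abs_eval_le a0 40 h0
  obtain ⟨BQ, hBQ, hbQ⟩ := abs_eval_le Q 40 hQdeg
  set B : ℤ := |E| * (B2 + B1 + B0) + BQ with hB
  have hBnn : 0 ≤ B := by positivity
  -- the key claim
  have key : ∀ k : ℕ, 1 ≤ k → B * |M| ^ 40 < (r : ℤ) ^ k → G.eval (M * (r : ℤ) ^ k) = 0 := by
    intro k hk1 hkB
    obtain ⟨u, hu⟩ := hcon k
    have hur := hroots k u hu
    set t : ℤ := M * (r : ℤ) ^ k with ht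
    have ht0 : t ≠ 0 := mul_ne_zero hM (pow_ne_zero _ hr0.ne')
    have ht1 : 1 ≤ |t| := Int.one_le_abs ht0
    have hrt : (r : ℤ) ∣ t := Dvd.dvd.mul_left (dvd_pow_self _ (by omega)) _
    set p : ℤ := Q.eval t with hp
    have hGe : G.eval t = p ^ 4 + a2.eval t * E ^ 2 * p ^ 2 + a1.eval t * E ^ 3 * p
        + a0.eval t * E ^ 4 := by
      simp only [hG, eval_add, eval_mul, eval_pow, eval_C, hp]
    have hGt : G.eval t = t ^ 41 * K.eval t := by
      rw [hK]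
      simp only [eval_mul, eval_pow, eval_X]
    set S : ℤ := (E * u) ^ 3 + (E * u) ^ 2 * p + (E * u) * p ^ 2 + p ^ 3
      + a2.eval t * E ^ 2 * (E * u + p) + a1.eval t * E ^ 3 with hS
    have hNS : (E * u - p) * S = -(G.eval t) := by
      rw [hGe, hS]
      linear_combination E ^ 4 * hu
    -- `r ∤ S`
    have hrS : ¬ (r : ℤ) ∣ S := by
      intro hdvd
      have e1 : (r : ℤ) ∣ p - E * ξ := by
        rw [← hQ0, hp]
        exact hrt.trans (by simpa using sub_dvd_eval_sub t 0 Q)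
      have e2 : (r : ℤ) ∣ a2.eval t - a2.eval 0 :=
        hrt.trans (by simpa using sub_dvd_eval_sub t 0 a2)
      have e3 : (r : ℤ) ∣ a1.eval t - a1.eval 0 :=
        hrt.trans (by simpa using sub_dvd_eval_sub t 0 a1)
      have c1 : u ≡ ξ [ZMOD r] := (Int.modEq_iff_dvd.mpr hur).symm
      have c2 : p ≡ E * ξ [ZMOD r] := (Int.modEq_iff_dvd.mpr e1).symm
      have c3 : a2.eval t ≡ a2.eval 0 [ZMOD r] := (Int.modEq_iff_dvd.mpr e2).symm
      have c4 : a1.eval t ≡ a1.eval 0 [ZMOD r] := (Int.modEq_iff_dvd.mpr e3).symm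
      have c5 : S ≡ (E * ξ) ^ 3 + (E * ξ) ^ 2 * (E * ξ) + (E * ξ) * (E * ξ) ^ 2 + (E * ξ) ^ 3
          + a2.eval 0 * E ^ 2 * (E * ξ + E * ξ) + a1.eval 0 * E ^ 3 [ZMOD r] := by
        rw [hS]
        gcongr
      have c6 : S ≡ 0 [ZMOD r] := (Int.modEq_zero_iff_dvd).mpr hdvd
      have : (r : ℤ) ∣ E ^ 3 * (4 * ξ ^ 3 + 2 * a2.eval 0 * ξ + a1.eval 0) := by
        have := (Int.modEq_zero_iff_dvd).mp (c5.symm.trans c6)
        convert this using 1
        ring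
      rcases hrp.dvd_or_dvd this with h | h
      · exact hE (hrp.dvd_of_dvd_pow h)
      · exact hδ h
    have hcop : IsCoprime ((r : ℤ) ^ (41 * k)) S :=
      IsCoprime.pow_left ((Prime.coprime_iff_not_dvd hrp).mpr hrS)
    have hdvdN : (r : ℤ) ^ (41 * k) ∣ E * u - p := by
      apply hcop.dvd_of_dvd_mul_right
      rw [hNS, hGt, dvd_neg]
      apply Dvd.dvd.mul_right
      rw [ht, mul_pow, ← pow_mul, mul_comm k 41]
      exact Dvd.intro_left _ rfl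
    have habs : |E * u - p| < (r : ℤ) ^ (41 * k) := by
      have hu_le : |u| ≤ |a2.eval t| + |a1.eval t| + |a0.eval t| := abs_root_le _ _ _ _ hu
      have hle : |E * u - p| ≤ B * |t| ^ 40 := by
        calc |E * u - p| ≤ |E * u| + |p| := abs_sub _ _
          _ ≤ |E| * (B2 * |t| ^ 40 + B1 * |t| ^ 40 + B0 * |t| ^ 40) + BQ * |t| ^ 40 := by
              rw [abs_mul]
              gcongr
              · linarith [hb2 t ht1, hb1 t ht1, hb0 t ht1]
              · exact hbQ t ht1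
          _ = B * |t| ^ 40 := by rw [hB]; ring
      have hpos : (0 : ℤ) < ((r : ℤ) ^ k) ^ 40 := by positivity
      calc |E * u - p| ≤ B * |t| ^ 40 := hle
        _ = (B * |M| ^ 40) * ((r : ℤ) ^ k) ^ 40 := by
            rw [ht, abs_mul, abs_pow, abs_of_pos hr0]; ring
        _ < (r : ℤ) ^ k * ((r : ℤ) ^ k) ^ 40 := by gcongr
        _ = (r : ℤ) ^ (41 * k) := by ring
    have hN0 : E * u - p = 0 := Int.eq_zero_of_abs_lt_dvd hdvdN habs
    have hpE : p = E * u := by linarith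
    rw [hGe, hpE]
    linear_combination E ^ 4 * hu
  obtain ⟨k₀, hk₀⟩ : ∃ k₀ : ℕ, B * |M| ^ 40 < (r : ℤ) ^ k₀ :=
    pow_unbounded_of_one_lt (B * |M| ^ 40) (show (1 : ℤ) < r by linarith)
  have hG0 : G = 0 := by
    apply eq_zero_of_infinite_isRoot
    apply Set.infinite_of_injective_forall_mem (f := fun j : ℕ => M * (r : ℤ) ^ (j + k₀ + 1))
    · intro i j hij
      have h3 : (r : ℤ) ^ (i + k₀ + 1) = (r : ℤ) ^ (j + k₀ + 1) := mul_left_cancel₀ hM hij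
      have h4 := Int.pow_right_injective (show 1 < (r : ℤ).natAbs by
        have := hr.one_lt
        simpa using this) h3
      omega
    · intro j
      apply key _ (by omega)
      calc B * |M| ^ 40 < (r : ℤ) ^ k₀ := hk₀
        _ ≤ (r : ℤ) ^ (j + k₀ + 1) := pow_le_pow_right₀ (by linarith) (by omega)
  -- contradiction with `hpoly`
  set e : ℚ[X] := C (E : ℚ) with he
  set Qm : ℚ[X] := Q.map (Int.castRingHom ℚ) with hQm
  have hCE : (C E : ℤ[X]).map (Int.castRingHom ℚ) = e := by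
    rw [Polynomial.map_C, he]
    rfl
  have hGq : Qm ^ 4 + a2.map (Int.castRingHom ℚ) * e ^ 2 * Qm ^ 2
      + a1.map (Int.castRingHom ℚ) * e ^ 3 * Qm + a0.map (Int.castRingHom ℚ) * e ^ 4 = 0 := by
    have h := congrArg (Polynomial.map (Int.castRingHom ℚ)) hG0
    rw [hG, Polynomial.map_zero, Polynomial.map_add, Polynomial.map_add, Polynomial.map_add,
      Polynomial.map_mul, Polynomial.map_mul, Polynomial.map_mul, Polynomial.map_mul,
      Polynomial.map_mul, Polynomial.map_pow, Polynomial.map_pow, Polynomial.map_pow,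
      Polynomial.map_pow, Polynomial.map_pow, hCE] at h
    exact h
  have hEq : (E : ℚ) ≠ 0 := by exact_mod_cast hE0
  have he0 : e ≠ 0 := by
    rw [he]
    exact C_ne_zero.mpr hEq
  set Pq : ℚ[X] := C (1 / (E : ℚ)) * Qm with hPq
  have hePq : e * Pq = Qm := by
    rw [hPq, he, ← mul_assoc, ← C_mul, mul_one_div_cancel hEq, C_1, one_mul]
  apply hpoly Pq
  have h5 : e ^ 4 * (Pq ^ 4 + a2.map (Int.castRingHom ℚ) * Pq ^ 2
      + a1.map (Int.castRingHom ℚ) * Pq + a0.map (Int.castRingHom ℚ)) = 0 := by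
    calc e ^ 4 * (Pq ^ 4 + a2.map (Int.castRingHom ℚ) * Pq ^ 2
          + a1.map (Int.castRingHom ℚ) * Pq + a0.map (Int.castRingHom ℚ))
        = (e * Pq) ^ 4 + a2.map (Int.castRingHom ℚ) * e ^ 2 * (e * Pq) ^ 2
          + a1.map (Int.castRingHom ℚ) * e ^ 3 * (e * Pq)
          + a0.map (Int.castRingHom ℚ) * e ^ 4 := by ring
      _ = 0 := by rw [hePq]; exact hGq
  exact (mul_eq_zero.mp h5).resolve_left (pow_ne_zero _ he0)

end Fermat.Agent.S52
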