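import Fermat.Agent.S52.Defs2
import Fermat.Agent.S52.FamRel
import Fermat.Agent.S52.FamMap

/-!
# S52 / STEP : the integral model `stepW W s`
-/

set_option autoImplicit false
set_option linter.unusedVariables false

namespace Fermat.Agent.S52

open WeierstrassCurve

theorem step_c₄ (W : WeierstrassCurve ℤ) (s : ℤ) :
    (stepW W s).c₄ = fam4 W.c₄ W.c₆ (1728 * s) := by
  rw [fam4_eq]
  unfold stepW
  generalize fam4q W.c₄ W.c₆ (1728 * s) = q4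
  generalize fam6q W.c₄ W.c₆ (1728 * s) = q6
  simp only [WeierstrassCurve.c₄, WeierstrassCurve.b₂, WeierstrassCurve.b₄]
  ring

theorem step_c₆ (W : WeierstrassCurve ℤ) (s : ℤ) :
    (stepW W s).c₆ = fam6 W.c₄ W.c₆ (1728 * s) := by
  rw [fam6_eq]
  unfold stepW
  generalize fam4q W.c₄ W.c₆ (1728 * s) = q4
  generalize fam6q W.c₄ W.c₆ (1728 * s) = q6
  simp only [WeierstrassCurve.c₆, WeierstrassCurve.b₂, WeierstrassCurve.b₄, WeierstrassCurve.b₆]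
  ring

theorem step_Δ (W : WeierstrassCurve ℤ) (s : ℤ) :
    (stepW W s).Δ = W.Δ * famD W.c₄ W.c₆ (1728 * s) ^ 5 := by
  have h1 := (stepW W s).c_relation
  have h2 := W.c_relation
  rw [step_c₄, step_c₆, fam_rel, ← h2] at h1
  have : (1728 : ℤ) * (stepW W s).Δ = 1728 * (W.Δ * famD W.c₄ W.c₆ (1728 * s) ^ 5) := by
    rw [h1]; ring
  exact mul_left_cancel₀ (by norm_num) this

theorem famD_step_ne_zero (c4 c6 s : ℤ) : famD c4 c6 (1728 * s) ≠ 0 := by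
  rw [famD_eq]
  generalize famDq c4 c6 (1728 * s) = q
  intro h
  have h2 : 1 + 1728 * (s * q) = 0 := by rw [← h]; ring
  omega

theorem step_Δ_ne_zero (W : WeierstrassCurve ℤ) (hΔ : W.Δ ≠ 0) (s : ℤ) (hs : 30 * W.Δ ∣ s) :
    (stepW W s).Δ ≠ 0 := by
  rw [step_Δ]
  exact mul_ne_zero hΔ (pow_ne_zero _ (famD_step_ne_zero _ _ _))

/-- if `p ∣ s` then `famD ≡ 1`, so `p ∤ famD`. -/
theorem not_dvd_famD_of_dvd {p : ℕ} (hp : p.Prime) (c4 c6 s : ℤ) (hs : (p : ℤ) ∣ s) :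
    ¬ (p : ℤ) ∣ famD c4 c6 (1728 * s) := by
  rw [famD_eq]
  intro h
  have h1 : (p : ℤ) ∣ 1728 * s * famDq c4 c6 (1728 * s) :=
    Dvd.dvd.mul_right (Dvd.dvd.mul_left hs _) _
  have h2 : (p : ℤ) ∣ 1 := (Int.dvd_add_left h1).1 h
  exact (Nat.prime_iff_prime_int.1 hp).not_dvd_one h2

theorem dvd_thirty_of_dvd_bezK {p : ℕ} (hp : p.Prime) (h : (p : ℤ) ∣ (bezK : ℤ)) :
    (p : ℤ) ∣ 30 := by
  have h1 : ((bezK : ℕ) : ℤ) ∣ 30 ^ 26 := ⟨3 ^ 14 * 5 ^ 21, by norm_num [bezK]⟩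
  exact (Nat.prime_iff_prime_int.1 hp).dvd_of_dvd_pow (h.trans h1)

theorem dvd_thirty_of_dvd_1728 {p : ℕ} (hp : p.Prime) (h : (p : ℤ) ∣ 1728) :
    (p : ℤ) ∣ 30 := by
  have h1 : (1728 : ℤ) ∣ 30 ^ 6 := ⟨3 ^ 3 * 5 ^ 6, by norm_num⟩
  exact (Nat.prime_iff_prime_int.1 hp).dvd_of_dvd_pow (h.trans h1)

theorem step_semistable (W : WeierstrassCurve ℤ) (hΔ : W.Δ ≠ 0) (hW : W.IsSemistableModel) (s : ℤ)
    (hs : 30 * W.Δ ∣ s) : (stepW W s).IsSemistableModel := by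
  intro p hp hpΔ hpc
  have hpp := Nat.prime_iff_prime_int.1 hp
  rw [step_Δ] at hpΔ
  rw [step_c₄] at hpc
  by_cases hps : (p : ℤ) ∣ s
  · have hD := not_dvd_famD_of_dvd hp W.c₄ W.c₆ s hps
    have h1 : (p : ℤ) ∣ W.Δ := by
      rcases hpp.dvd_or_dvd hpΔ with h | h
      · exact h
      · exact absurd (hpp.dvd_of_dvd_pow h) hD
    refine hW p hp h1 ?_
    rw [fam4_eq] at hpc
    have h2 : (p : ℤ) ∣ 1728 * s * fam4q W.c₄ W.c₆ (1728 * s) :=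
      Dvd.dvd.mul_right (Dvd.dvd.mul_left hps _) _
    exact (Int.dvd_add_left h2).1 hpc
  · have h30 : ¬ (p : ℤ) ∣ 30 := fun h => hps ((Dvd.dvd.mul_right h _).trans hs)
    have hnΔ : ¬ (p : ℤ) ∣ W.Δ := fun h => hps ((Dvd.dvd.mul_left h _).trans hs)
    have hD : (p : ℤ) ∣ famD W.c₄ W.c₆ (1728 * s) := by
      rcases hpp.dvd_or_dvd hpΔ with h | h
      · exact absurd h hnΔ
      · exact hpp.dvd_of_dvd_pow h
    have hb := fam_bezout W.c₄ W.c₆ (1728 * s)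
    have h3 : (p : ℤ) ∣ (bezK : ℤ) * (W.c₄ ^ 3 - W.c₆ ^ 2) ^ 6 := by
      rw [← hb]
      exact dvd_add (Dvd.dvd.mul_left hpc _) (Dvd.dvd.mul_left hD _)
    rw [← W.c_relation] at h3
    rcases hpp.dvd_or_dvd h3 with h | h
    · exact h30 (dvd_thirty_of_dvd_bezK hp h)
    · rcases hpp.dvd_or_dvd (hpp.dvd_of_dvd_pow h) with h | h
      · exact h30 (dvd_thirty_of_dvd_1728 hp h)
      · exact hnΔ h

/-- if `ℓ ∣ s` the reductions of `stepW W s` and `W` mod `ℓ` coincide. -/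
theorem step_reductionMod_of_dvd (W : WeierstrassCurve ℤ) (s : ℤ) (ℓ : ℕ) (hℓ : (ℓ : ℤ) ∣ s) :
    (stepW W s).reductionMod ℓ = W.reductionMod ℓ := by
  have h0 : ((s : ℤ) : ZMod ℓ) = 0 := (ZMod.intCast_zmod_eq_zero_iff_dvd s ℓ).2 hℓ
  unfold WeierstrassCurve.reductionMod stepW
  ext <;> simp [h0]

/-- `step_ap`, with the two inputs `card_congr` (FF) and `trace_short` (BR) as hypotheses. -/
theorem step_ap_of
    (hcc : ∀ (p : ℕ) [Fact p.Prime] (_ : 7 ≤ p) (c4 c6 t : ZMod p),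
      c4 ^ 3 - c6 ^ 2 ≠ 0 → famD c4 c6 t ≠ 0 →
      (5 : ℤ) ∣ (shortW (fam4 c4 c6 t) (fam6 c4 c6 t)).traceOfFrobenius
        - (shortW c4 c6).traceOfFrobenius)
    (hts : ∀ (p : ℕ) [Fact p.Prime] (_ : 5 ≤ p) (W : WeierstrassCurve (ZMod p)), W.Δ ≠ 0 →
      W.traceOfFrobenius = (shortW W.c₄ W.c₆).traceOfFrobenius)
    (W : WeierstrassCurve ℤ) (hΔ : W.Δ ≠ 0) (s : ℤ) (hs : 30 * W.Δ ∣ s) (ℓ : ℕ) (hℓ : ℓ.Prime)
    (h1 : W.IsGoodPrimeFor ℓ) (h2 : (stepW W s).IsGoodPrimeFor ℓ) (h5 : ℓ ≠ 5) :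
    (5 : ℤ) ∣ ((stepW W s).apOfModel ℓ - W.apOfModel ℓ) := by
  unfold WeierstrassCurve.apOfModel
  by_cases hℓs : (ℓ : ℤ) ∣ s
  · rw [step_reductionMod_of_dvd W s ℓ hℓs, sub_self]
    exact dvd_zero _
  · have : Fact ℓ.Prime := ⟨hℓ⟩
    have h30 : ¬ (ℓ : ℤ) ∣ 30 := fun h => hℓs ((Dvd.dvd.mul_right h _).trans hs)
    have h30' : ¬ ℓ ∣ 30 := fun h => h30 (by exact_mod_cast h)
    have h7 : 7 ≤ ℓ := by
      by_contra hlt
      push Not at hlt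
      have := hℓ.two_le
      interval_cases ℓ
      · exact h30' (by norm_num)
      · exact h30' (by norm_num)
      · exact absurd hℓ (by norm_num)
      · exact h5 rfl
      · exact absurd hℓ (by norm_num)
    set φ := Int.castRingHom (ZMod ℓ) with hφ
    have hcast : ∀ z : ℤ, φ z = 0 ↔ (ℓ : ℤ) ∣ z := fun z => by
      rw [hφ, eq_intCast]; exact ZMod.intCast_zmod_eq_zero_iff_dvd z ℓ
    have hΔ1 : (W.reductionMod ℓ).Δ ≠ 0 := by
      unfold WeierstrassCurve.reductionMod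
      rw [WeierstrassCurve.map_Δ]
      exact fun h => h1 ((hcast _).1 h)
    have hΔ2 : ((stepW W s).reductionMod ℓ).Δ ≠ 0 := by
      unfold WeierstrassCurve.reductionMod
      rw [WeierstrassCurve.map_Δ]
      exact fun h => h2 ((hcast _).1 h)
    rw [hts ℓ (by omega) _ hΔ1, hts ℓ (by omega) _ hΔ2]
    have e4 : (W.reductionMod ℓ).c₄ = φ W.c₄ := WeierstrassCurve.map_c₄ _ _
    have e6 : (W.reductionMod ℓ).c₆ = φ W.c₆ := WeierstrassCurve.map_c₆ _ _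
    have e4' : ((stepW W s).reductionMod ℓ).c₄ = fam4 (φ W.c₄) (φ W.c₆) (φ (1728 * s)) := by
      unfold WeierstrassCurve.reductionMod
      rw [WeierstrassCurve.map_c₄, step_c₄, map_fam4]
    have e6' : ((stepW W s).reductionMod ℓ).c₆ = fam6 (φ W.c₄) (φ W.c₆) (φ (1728 * s)) := by
      unfold WeierstrassCurve.reductionMod
      rw [WeierstrassCurve.map_c₆, step_c₆, map_fam6]
    rw [e4, e6, e4', e6']
    apply hcc ℓ h7
    · rw [← map_pow, ← map_pow, ← map_sub, ← W.c_relation]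
      intro h
      rcases (Nat.prime_iff_prime_int.1 hℓ).dvd_or_dvd ((hcast _).1 h) with h | h
      · exact h30 (dvd_thirty_of_dvd_1728 hℓ h)
      · exact h1 h
    · rw [← map_famD]
      intro h
      apply h2
      rw [step_Δ]
      exact Dvd.dvd.mul_left (dvd_pow ((hcast _).1 h) (by norm_num)) _

end Fermat.Agent.S52
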