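import Fermat.Agent.S52.FamRel
import Fermat.Agent.S52.FamMap

/-!
# S52, package STEPA: a prime `r` with `v_r(famD) = 1`
-/

set_option autoImplicit false

namespace Fermat.Agent.S52

namespace StepA

theorem famD_taylor (c4 c6 t h : ℤ) : ∃ T : ℤ,
    famD c4 c6 (t + h) = famD c4 c6 t + h * famDd c4 c6 t + h ^ 2 * T := by
  refine ⟨famD_2 c4 c6 * (1)
      + famD_3 c4 c6 * (3 * t ^ 1 + 1 * h ^ 1)
      + famD_4 c4 c6 * (6 * t ^ 2 + 4 * t ^ 1 * h ^ 1 + 1 * h ^ 2)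
      + famD_5 c4 c6 * (10 * t ^ 3 + 10 * t ^ 2 * h ^ 1 + 5 * t ^ 1 * h ^ 2 + 1 * h ^ 3)
      + famD_6 c4 c6 * (15 * t ^ 4 + 20 * t ^ 3 * h ^ 1 + 15 * t ^ 2 * h ^ 2 + 6 * t ^ 1 * h ^ 3 + 1 * h ^ 4)
      + famD_7 c4 c6 * (21 * t ^ 5 + 35 * t ^ 4 * h ^ 1 + 35 * t ^ 3 * h ^ 2 + 21 * t ^ 2 * h ^ 3 + 7 * t ^ 1 * h ^ 4 + 1 * h ^ 5)
      + famD_8 c4 c6 * (28 * t ^ 6 + 56 * t ^ 5 * h ^ 1 + 70 * t ^ 4 * h ^ 2 + 56 * t ^ 3 * h ^ 3 + 28 * t ^ 2 * h ^ 4 + 8 * t ^ 1 * h ^ 5 + 1 * h ^ 6)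
      + famD_9 c4 c6 * (36 * t ^ 7 + 84 * t ^ 6 * h ^ 1 + 126 * t ^ 5 * h ^ 2 + 126 * t ^ 4 * h ^ 3 + 84 * t ^ 3 * h ^ 4 + 36 * t ^ 2 * h ^ 5 + 9 * t ^ 1 * h ^ 6 + 1 * h ^ 7)
      + famD_10 c4 c6 * (45 * t ^ 8 + 120 * t ^ 7 * h ^ 1 + 210 * t ^ 6 * h ^ 2 + 252 * t ^ 5 * h ^ 3 + 210 * t ^ 4 * h ^ 4 + 120 * t ^ 3 * h ^ 5 + 45 * t ^ 2 * h ^ 6 + 10 * t ^ 1 * h ^ 7 + 1 * h ^ 8)
      + famD_11 c4 c6 * (55 * t ^ 9 + 165 * t ^ 8 * h ^ 1 + 330 * t ^ 7 * h ^ 2 + 462 * t ^ 6 * h ^ 3 + 462 * t ^ 5 * h ^ 4 + 330 * t ^ 4 * h ^ 5 + 165 * t ^ 3 * h ^ 6 + 55 * t ^ 2 * h ^ 7 + 11 * t ^ 1 * h ^ 8 + 1 * h ^ 9)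
      + famD_12 c4 c6 * (66 * t ^ 10 + 220 * t ^ 9 * h ^ 1 + 495 * t ^ 8 * h ^ 2 + 792 * t ^ 7 * h ^ 3 + 924 * t ^ 6 * h ^ 4 + 792 * t ^ 5 * h ^ 5 + 495 * t ^ 4 * h ^ 6 + 220 * t ^ 3 * h ^ 7 + 66 * t ^ 2 * h ^ 8 + 12 * t ^ 1 * h ^ 9 + 1 * h ^ 10), ?_⟩
  simp only [famD, famDd]
  ring

theorem famD_low2 (c4 c6 t : ℤ) : ∃ T : ℤ,
    famD c4 c6 t = 1 + t ^ 2 * (-66 * c4 + t * T) := by
  refine ⟨famD_3 c4 c6 + famD_4 c4 c6 * t + famD_5 c4 c6 * t ^ 2 + famD_6 c4 c6 * t ^ 3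
    + famD_7 c4 c6 * t ^ 4 + famD_8 c4 c6 * t ^ 5 + famD_9 c4 c6 * t ^ 6 + famD_10 c4 c6 * t ^ 7
    + famD_11 c4 c6 * t ^ 8 + famD_12 c4 c6 * t ^ 9, ?_⟩
  simp only [famD, famD_0, famD_2]
  ring

theorem famD_low3 (c6 t : ℤ) : ∃ T : ℤ,
    famD 0 c6 t = 1 + t ^ 3 * (-440 * c6 + t * T) := by
  refine ⟨famD_4 0 c6 + famD_5 0 c6 * t + famD_6 0 c6 * t ^ 2
    + famD_7 0 c6 * t ^ 3 + famD_8 0 c6 * t ^ 4 + famD_9 0 c6 * t ^ 5 + famD_10 0 c6 * t ^ 6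
    + famD_11 0 c6 * t ^ 7 + famD_12 0 c6 * t ^ 8, ?_⟩
  simp only [famD, famD_0, famD_2, famD_3]
  ring

theorem padicValInt_eq_one {r : ℕ} (hr : r.Prime) {x : ℤ} (h1 : (r : ℤ) ∣ x)
    (h2 : ¬ (r : ℤ) ^ 2 ∣ x) : padicValInt r x = 1 := by
  have := Fact.mk hr
  have hx : x ≠ 0 := by
    rintro rfl
    exact h2 (dvd_zero _)
  have a1 : 1 ≤ padicValInt r x := by
    have := (padicValInt_dvd_iff (p := r) 1 x).1 (by simpa using h1)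
    exact this.resolve_left hx
  have a2 : ¬ 2 ≤ padicValInt r x := fun h =>
    h2 ((padicValInt_dvd_iff (p := r) 2 x).2 (Or.inr h))
  omega

theorem not_two_le_abs_of_mul_eq_one {M T : ℤ} (h : M * T = 1) (hM : 2 ≤ |M|) : False := by
  have hu : IsUnit M := IsUnit.of_mul_eq_one _ h
  rcases Int.isUnit_iff.1 hu with rfl | rfl <;> norm_num at hM

theorem exists_ne_one (c4 c6 : ℤ) (hE : c4 ^ 3 - c6 ^ 2 ≠ 0) (M : ℤ) (hM : 2 ≤ |M|) :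
    ∃ n : ℤ, famD c4 c6 (M * n) ≠ 1 := by
  have hM0 : M ≠ 0 := by
    rintro rfl
    norm_num at hM
  by_cases h4 : c4 = 0
  · subst h4
    have h6 : c6 ≠ 0 := by
      rintro rfl
      simp at hE
    refine ⟨440 * c6, fun h => ?_⟩
    obtain ⟨T, hT⟩ := famD_low3 c6 (M * (440 * c6))
    rw [h] at hT
    have hc : (440 * c6 : ℤ) ≠ 0 := mul_ne_zero (by norm_num) h6
    have ht : M * (440 * c6) ≠ 0 := mul_ne_zero hM0 hc
    have h0 : -440 * c6 + M * (440 * c6) * T = 0 := by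
      have : (M * (440 * c6)) ^ 3 * (-440 * c6 + M * (440 * c6) * T) = 0 := by linarith
      exact (mul_eq_zero.1 this).resolve_left (pow_ne_zero 3 ht)
    have h1 : (440 * c6) * (M * T - 1) = 0 := by linarith
    have h2 : M * T = 1 := by
      have := (mul_eq_zero.1 h1).resolve_left hc
      linarith
    exact not_two_le_abs_of_mul_eq_one h2 hM
  · refine ⟨66 * c4, fun h => ?_⟩
    obtain ⟨T, hT⟩ := famD_low2 c4 c6 (M * (66 * c4))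
    rw [h] at hT
    have hc : (66 * c4 : ℤ) ≠ 0 := mul_ne_zero (by norm_num) h4
    have ht : M * (66 * c4) ≠ 0 := mul_ne_zero hM0 hc
    have h0 : -66 * c4 + M * (66 * c4) * T = 0 := by
      have : (M * (66 * c4)) ^ 2 * (-66 * c4 + M * (66 * c4) * T) = 0 := by linarith
      exact (mul_eq_zero.1 this).resolve_left (pow_ne_zero 2 ht)
    have h1 : (66 * c4) * (M * T - 1) = 0 := by linarith
    have h2 : M * T = 1 := by
      have := (mul_eq_zero.1 h1).resolve_left hc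
      linarith
    exact not_two_le_abs_of_mul_eq_one h2 hM

end StepA

open StepA in
theorem exists_step_prime (c4 c6 : ℤ) (hE : c4 ^ 3 - c6 ^ 2 ≠ 0) (M : ℤ) (hM : M ≠ 0)
    (h30 : 30 ∣ M) (hEM : (c4 ^ 3 - c6 ^ 2) ∣ M) :
    ∃ (n : ℤ) (r : ℕ), r.Prime ∧ ¬ (r : ℤ) ∣ M ∧ padicValInt r (famD c4 c6 (M * n)) = 1 := by
  have hM2 : 2 ≤ |M| := by
    obtain ⟨k, rfl⟩ := h30
    have hk : k ≠ 0 := by
      rintro rfl
      simp at hM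
    have h1 : 1 ≤ |k| := Int.one_le_abs hk
    rw [abs_mul]
    norm_num
    linarith
  obtain ⟨n0, hn0⟩ := exists_ne_one c4 c6 hE M hM2
  have hmod : ∀ n, M ∣ famD c4 c6 (M * n) - 1 := fun n => by
    rw [famD_eq]
    exact ⟨n * famDq c4 c6 (M * n), by ring⟩
  have habs : (famD c4 c6 (M * n0)).natAbs ≠ 1 := by
    intro h
    rcases Int.natAbs_eq_iff.1 h with h | h
    · exact hn0 (by simpa using h)
    · have h1 := h30.trans (hmod n0)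
      rw [h] at h1
      norm_num at h1
  obtain ⟨r, hr, hrd0⟩ := Nat.exists_prime_and_dvd habs
  have hrd : (r : ℤ) ∣ famD c4 c6 (M * n0) := Int.natCast_dvd.2 hrd0
  have hr' : Prime (r : ℤ) := Nat.prime_iff_prime_int.1 hr
  have hrM : ¬ (r : ℤ) ∣ M := fun h => by
    have h1 : (r : ℤ) ∣ famD c4 c6 (M * n0) - 1 := h.trans (hmod n0)
    have h2 : (r : ℤ) ∣ 1 := by
      have := dvd_sub hrd h1
      simpa using this
    exact hr'.not_isUnit (isUnit_of_dvd_one h2)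
  by_cases hsq : (r : ℤ) ^ 2 ∣ famD c4 c6 (M * n0)
  swap
  · exact ⟨n0, r, hr, hrM, padicValInt_eq_one hr hrd hsq⟩
  have hr30 : ¬ (r : ℤ) ∣ 30 := fun h => hrM (h.trans h30)
  have hr2 : ¬ (r : ℤ) ∣ 2 := fun h => hr30 (h.trans (by norm_num))
  have hr3 : ¬ (r : ℤ) ∣ 3 := fun h => hr30 (h.trans (by norm_num))
  have hr5 : ¬ (r : ℤ) ∣ 5 := fun h => hr30 (h.trans (by norm_num))
  have hd : ¬ (r : ℤ) ∣ famDd c4 c6 (M * n0) := by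
    intro hd
    have h60 : (r : ℤ) ∣ 60 * fam6 c4 c6 (M * n0) := by
      rw [fam_jac]
      exact dvd_sub (Dvd.dvd.mul_right (Dvd.dvd.mul_left hrd 3) _) (Dvd.dvd.mul_left hd _)
    have hr60 : ¬ (r : ℤ) ∣ 60 := by
      intro h
      have e : (60 : ℤ) = 2 * 30 := by norm_num
      rw [e] at h
      rcases hr'.dvd_or_dvd h with h | h
      · exact hr2 h
      · exact hr30 h
    have h6 : (r : ℤ) ∣ fam6 c4 c6 (M * n0) := (hr'.dvd_or_dvd h60).resolve_left hr60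
    have h43 : (r : ℤ) ∣ fam4 c4 c6 (M * n0) ^ 3 := by
      have := fam_rel c4 c6 (M * n0)
      have e : fam4 c4 c6 (M * n0) ^ 3 =
          (c4 ^ 3 - c6 ^ 2) * famD c4 c6 (M * n0) ^ 5 + fam6 c4 c6 (M * n0) ^ 2 := by linarith
      rw [e]
      exact dvd_add (Dvd.dvd.mul_left (dvd_pow hrd (by norm_num)) _) (dvd_pow h6 (by norm_num))
    have h4 := hr'.dvd_of_dvd_pow h43
    have hb : (r : ℤ) ∣ (bezK : ℤ) * (c4 ^ 3 - c6 ^ 2) ^ 6 := by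
      rw [← fam_bezout c4 c6 (M * n0)]
      exact dvd_add (Dvd.dvd.mul_left h4 _) (Dvd.dvd.mul_left hrd _)
    rcases hr'.dvd_or_dvd hb with h | h
    · have e : (bezK : ℤ) = 2 ^ 26 * 3 ^ 12 * 5 ^ 5 := by norm_num [bezK]
      rw [e] at h
      rcases hr'.dvd_or_dvd h with h | h
      · rcases hr'.dvd_or_dvd h with h | h
        · exact hr2 (hr'.dvd_of_dvd_pow h)
        · exact hr3 (hr'.dvd_of_dvd_pow h)
      · exact hr5 (hr'.dvd_of_dvd_pow h)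
    · exact hrM ((hr'.dvd_of_dvd_pow h).trans hEM)
  obtain ⟨T, hT⟩ := famD_taylor c4 c6 (M * n0) (M * r)
  have hsum : M * (n0 + r) = M * n0 + M * r := by ring
  refine ⟨n0 + r, r, hr, hrM, padicValInt_eq_one hr ?_ ?_⟩
  · rw [hsum, hT]
    refine dvd_add (dvd_add hrd ?_) ?_
    · exact Dvd.dvd.mul_right (Dvd.intro_left M rfl) _
    · exact Dvd.dvd.mul_right (dvd_pow (Dvd.intro_left M rfl) (by norm_num)) _
  · intro hcon
    rw [hsum, hT] at hcon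
    obtain ⟨a, ha⟩ := hsq
    obtain ⟨b, hb⟩ := hcon
    have h1 : (r : ℤ) * (M * famDd c4 c6 (M * n0)) = r * (r * (b - a - M ^ 2 * T)) := by
      linear_combination hb - ha
    have h2 := mul_left_cancel₀ hr'.ne_zero h1
    have h3 : (r : ℤ) ∣ M * famDd c4 c6 (M * n0) := ⟨_, h2⟩
    rcases hr'.dvd_or_dvd h3 with h | h
    · exact hrM h
    · exact hd h

end Fermat.Agent.S52
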