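import Fermat.Agent.S52.Defs

/-!
# S52, package THETA: auxiliary lemmas (no family identities needed)

* `mkPt` : total version of `Point.some`;
* `sw_add_iff` : the chord formula on a short Weierstrass curve, denominator free;
* `additive_of_lines` : a map on a 5-torsion group which is additive on lines and on independent
  pairs is additive;
* `card_ge_of_indep` : a 5-torsion group with two independent elements has at least 25 elements;
* `poly_zero_of` : a polynomial vanishing where another nonzero polynomial does not vanish is zero.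
-/

set_option autoImplicit false
open WeierstrassCurve WeierstrassCurve.Affine

namespace Fermat.Agent.S52
namespace Theta

section Short

variable {F : Type*} [Field F]

open Classical in
/-- total version of `Point.some` (junk value `0`). -/
noncomputable def mkPt (W : Affine F) (x y : F) : W.Point :=
  if h : W.Nonsingular x y then Point.some x y h else 0

theorem mkPt_eq {W : Affine F} {x y : F} (h : W.Nonsingular x y) :
    mkPt W x y = Point.some x y h := dif_pos h

variable [DecidableEq F]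

theorem sw_add_iff {A B x1 y1 x2 y2 x3 y3 : F} (W : Affine F) (hW : W = sw A B)
    (h1 : W.Nonsingular x1 y1) (h2 : W.Nonsingular x2 y2) (h3 : W.Nonsingular x3 y3)
    (hx : x1 ≠ x2) :
    Point.some _ _ h1 + Point.some _ _ h2 = Point.some _ _ h3 ↔
      (x1 - x2) ^ 2 * (x3 + x1 + x2) = (y1 - y2) ^ 2 ∧
      (x1 - x2) * (y3 + y1) + (y1 - y2) * (x3 - x1) = 0 := by
  subst hW
  have hd : x1 - x2 ≠ 0 := sub_ne_zero.mpr hx
  rw [Point.add_of_X_ne hx, Point.some.injEq, slope_of_X_ne hx]
  simp only [addX, addY, negAddY, negY, sw]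
  constructor
  · rintro ⟨e1, e2⟩
    constructor
    · rw [← e1]; field_simp; ring
    · rw [← e2, ← e1]; field_simp; ring
  · rintro ⟨e1, e2⟩
    have e1' : ((y1 - y2) / (x1 - x2)) ^ 2 + 0 * ((y1 - y2) / (x1 - x2)) - 0 - x1 - x2 = x3 := by
      field_simp
      linear_combination -e1
    refine ⟨e1', ?_⟩
    rw [e1']
    field_simp
    linear_combination -e2

theorem exists_some_add {x1 y1 x2 y2 : F} (W : Affine F)
    (h1 : W.Nonsingular x1 y1) (h2 : W.Nonsingular x2 y2) (hx : x1 ≠ x2) :
    ∃ (x3 y3 : F) (h3 : W.Nonsingular x3 y3),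
      Point.some _ _ h1 + Point.some _ _ h2 = Point.some _ _ h3 :=
  ⟨_, _, _, Point.add_of_X_ne hx⟩

end Short

section Group

theorem zsmul_of_lines {V G : Type*} [AddCommGroup V] [AddCommGroup G] (θ : V → G)
    (hV : ∀ v : V, (5 : ℕ) • v = 0) (h0 : θ 0 = 0) (h5 : ∀ v, (5 : ℕ) • θ v = 0)
    (hneg : ∀ v, θ (-v) = - θ v) (hdbl : ∀ v, θ (v + v) = θ v + θ v) (v : V) (k : ℤ) :
    θ (k • v) = k • θ v := by
  have hV' : (5 : ℤ) • v = 0 := by exact_mod_cast hV v
  have h5' : (5 : ℤ) • θ v = 0 := by exact_mod_cast h5 v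
  have hk : k = (k / 5) * 5 + k % 5 := by omega
  have e1 : k • v = (k % 5) • v := by
    conv_lhs => rw [hk, add_smul, mul_smul, hV', smul_zero, zero_add]
  have e2 : k • θ v = (k % 5) • θ v := by
    conv_lhs => rw [hk, add_smul, mul_smul, h5', smul_zero, zero_add]
  rw [e1, e2]
  have hr0 : 0 ≤ k % 5 := Int.emod_nonneg _ (by norm_num)
  have hr5 : k % 5 < 5 := Int.emod_lt_of_pos _ (by norm_num)
  generalize k % 5 = r at hr0 hr5
  interval_cases r
  · simp [h0]
  · simp
  · rw [two_smul, two_smul, hdbl]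
  · have a1 : (3 : ℤ) • v = -(v + v) := by
      have : (3 : ℤ) • v + (v + v) = (5 : ℤ) • v := by
        rw [← two_smul ℤ v, ← add_smul]; norm_num
      rw [hV'] at this
      exact eq_neg_of_add_eq_zero_left this
    have a2 : (3 : ℤ) • θ v = -(θ v + θ v) := by
      have : (3 : ℤ) • θ v + (θ v + θ v) = (5 : ℤ) • θ v := by
        rw [← two_smul ℤ (θ v), ← add_smul]; norm_num
      rw [h5'] at this
      exact eq_neg_of_add_eq_zero_left this
    rw [a1, a2, hneg, hdbl]
  · have a1 : (4 : ℤ) • v = -v := by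
      have : (4 : ℤ) • v + v = (5 : ℤ) • v := by
        conv_lhs => rw [← one_smul ℤ v, smul_smul, ← add_smul]
        norm_num
      rw [hV'] at this
      exact eq_neg_of_add_eq_zero_left this
    have a2 : (4 : ℤ) • θ v = -θ v := by
      have : (4 : ℤ) • θ v + θ v = (5 : ℤ) • θ v := by
        conv_lhs => rw [← one_smul ℤ (θ v), smul_smul, ← add_smul]
        norm_num
      rw [h5'] at this
      exact eq_neg_of_add_eq_zero_left this
    rw [a1, a2, hneg]

theorem additive_of_lines {V G : Type*} [AddCommGroup V] [AddCommGroup G] (θ : V → G)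
    (hV : ∀ v : V, (5 : ℕ) • v = 0) (h0 : θ 0 = 0) (h5 : ∀ v, (5 : ℕ) • θ v = 0)
    (hneg : ∀ v, θ (-v) = - θ v) (hdbl : ∀ v, θ (v + v) = θ v + θ v)
    (hind : ∀ v w, v ≠ 0 → w ∉ AddSubgroup.zmultiples v → θ (v + w) = θ v + θ w) (v w : V) :
    θ (v + w) = θ v + θ w := by
  by_cases hv : v = 0
  · rw [hv, zero_add, h0, zero_add]
  by_cases hw : w ∈ AddSubgroup.zmultiples v
  · obtain ⟨k, rfl⟩ := AddSubgroup.mem_zmultiples_iff.mp hw
    have e : v + k • v = (1 + k) • v := by rw [add_smul, one_smul]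
    rw [e, zsmul_of_lines θ hV h0 h5 hneg hdbl, zsmul_of_lines θ hV h0 h5 hneg hdbl, add_smul,
      one_smul]
  · exact hind v w hv hw

theorem card_ge_of_indep {V : Type*} [AddCommGroup V] [Finite V] (hV : ∀ v : V, (5 : ℕ) • v = 0)
    {v w : V} (hv : v ≠ 0) (hw : w ∉ AddSubgroup.zmultiples v) : 25 ≤ Nat.card V := by
  have : Fact (Nat.Prime 5) := ⟨by norm_num⟩
  have h1 : Nat.card (AddSubgroup.zmultiples v) = 5 := by
    rw [Nat.card_zmultiples]
    exact addOrderOf_eq_prime (hV v) hv
  have h2 : addOrderOf (QuotientAddGroup.mk w : V ⧸ AddSubgroup.zmultiples v) = 5 := by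
    apply addOrderOf_eq_prime
    · rw [← QuotientAddGroup.mk_nsmul, hV w, QuotientAddGroup.mk_zero]
    · rwa [Ne, QuotientAddGroup.eq_zero_iff]
  have h3 : 5 ≤ Nat.card (V ⧸ AddSubgroup.zmultiples v) := by
    rw [← h2]
    exact Nat.le_of_dvd Nat.card_pos (addOrderOf_dvd_natCard _)
  rw [AddSubgroup.card_eq_card_quotient_mul_card_addSubgroup (AddSubgroup.zmultiples v), h1]
  omega

end Group

section Poly

open Polynomial

theorem poly_zero_of {Ω : Type*} [Field Ω] [Infinite Ω] {B H : Polynomial Ω} (hB : B ≠ 0)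
    (h : ∀ s, B.eval s ≠ 0 → H.eval s = 0) : H = 0 := by
  have : B * H = 0 := by
    apply Polynomial.funext
    intro s
    rw [eval_mul, eval_zero]
    by_cases hs : B.eval s = 0
    · rw [hs, zero_mul]
    · rw [h s hs, mul_zero]
  exact (mul_eq_zero.mp this).resolve_left hB

end Poly

end Theta
end Fermat.Agent.S52
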